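import Fermat.Agent.R59.NoSq.Basic
import Fermat.Agent.DS.FrobConj
import Fermat.Agent.GalRep.Level.ConjFun
import Fermat.Agent.GalRep.Wild.Space
import Fermat.Agent.ConductorMatch.TorsionRel
import Fermat.Agent.Raise.Galois
import Fermat.Agent.Raise.EigenClass
import Fermat.Prelude.Def_FLTPrelim_ModularRep

/-!
# S59, unit A: the element `s₀`, the starting class, invariance of vanishing classes
-/

set_option autoImplicit false
set_option linter.style.haveILetI false
set_option linter.unusedSectionVars false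

noncomputable section

namespace Fermat.Agent.R59.NoSq

open CongruenceSubgroup UpperHalfPlane
open WeierstrassCurve WeierstrassCurve.Affine.Point
open scoped WeierstrassCurve.Affine
open Fermat.Agent.GalRep Fermat.Agent.GalRep.Level
open Fermat.Agent.Galois (GQ)
open scoped MatrixGroups Manifold

local notation "Qbar" => AlgebraicClosure ℚ

/-- A class vanishing on `Γ(K)` is fixed by the elements trivial on roots of unity of order `K`
and `n`. -/
theorem galG_eq_self_of_vanish {M K : ℕ} [NeZero M] [NeZero K] {G : Subgroup SL(2, ℤ)}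
    (hG : IsLevel M G) (hMK : M ∣ K) {n : ℕ} [NeZero n] {χ : ParG G (ZMod n)}
    (hvan : ∀ γ : G, (γ : SL(2, ℤ)) ∈ Gamma K → (χ : Additive G →+ ZMod n) (Additive.ofMul γ) = 0)
    {s : GQ} (hs : cycM K s = 1) (hζ : ∀ z : Qbar, z ^ n = 1 → s z = z) :
    galG hG n s χ = χ := by
  have hG' : IsLevel K G := hG.of_dvd hMK
  rw [galG_mono hMK hG hG', galG_eq_autG]
  symm
  obtain ⟨F, hF, -⟩ := exists_repG χ hG'
  obtain ⟨f, hf, -⟩ := hF.exists_series_infty hG'
  set σ := liftAut s with hσ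
  let φ : MF K := ⟨F, ⟨hF.holo, fun γ hγ τ => by
    have := hF.equivariant ⟨γ, hG'.gamma_le hγ⟩ τ
    rw [hvan ⟨γ, hG'.gamma_le hγ⟩ hγ, AddChar.map_zero_eq_one, one_mul] at this
    exact this, hF.cusps⟩⟩
  obtain ⟨φ', hφ'⟩ := exists_conjF σ φ
  have hser : serAlg K φ = f := (hasQSeries_serHom φ).unique (NeZero.pos K) hf
  have hcyc : cycC K σ = 1 := by rw [hσ, cycC_liftAut, hs]
  have hone : ∀ g : SL(2, ℤ), ConjEq K (cycC K σ) g g := fun g => by
    rw [hcyc, ConjEq]
    ext i j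
    fin_cases i <;> fin_cases j <;> simp [conjA]
  have hser' : serAlg K φ' = lmap σ.toRingHom f := by
    have := hφ' 1 1 (hone 1)
    rwa [shift_one, shift_one, hser] at this
  have hχ' : IsRepG G n χ (φ' : ℍ → ℂ) := by
    refine ⟨φ'.2.holo, fun h => hF.ne_zero ?_, fun γ τ => ?_, φ'.2.cusps⟩
    · have h0 : φ' = 0 := Subtype.ext h
      rw [h0, _root_.map_zero] at hser'
      have hf0 : f = 0 := lmap_injective (φ := σ.toRingHom) σ.injective (by rw [← hser', _root_.map_zero])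
      have : φ = 0 := serAlg_injective K (by rw [hser, hf0, _root_.map_zero])
      exact congrArg Subtype.val this
    · set c : ℂ := ZMod.stdAddChar ((χ : Additive G →+ ZMod n) (Additive.ofMul γ)) with hc
      have hcfix : σ c = c := by
        have hcn : c ^ n = 1 := by
          rw [hc, ← AddChar.map_nsmul_eq_pow, nsmul_eq_mul, ZMod.natCast_self, zero_mul,
            AddChar.map_zero_eq_one]
        obtain ⟨z, hz⟩ := exists_qbarToC_eq (x := c) ⟨Polynomial.X ^ n - 1,
          (Polynomial.monic_X_pow_sub_C 1 (NeZero.ne n)).ne_zero, by simp [hcn]⟩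
        rw [← hz, hσ, liftAut_spec, hζ z (qbarToC_injective (by rw [map_pow, hz, hcn, map_one]))]
      have e1 : shift K γ φ = c • φ := Subtype.ext (funext fun τ => hF.equivariant γ τ)
      have e2 : shift K γ φ' = c • φ' := by
        refine serAlg_injective K ?_
        rw [hφ' γ γ (hone γ), e1, Algebra.smul_def, Algebra.smul_def, map_mul, map_mul, map_mul,
          AlgHom.commutes, hser, hser', show algebraMap ℂ (LaurentSeries ℂ) c = HahnSeries.C c by simp [HahnSeries.algebraMap_apply'], lmap_C]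
        exact congrArg (fun z => HahnSeries.C z * lmap σ.toRingHom f) hcfix
      exact congrFun (congrArg Subtype.val e2) τ
  exact eq_autG hG' σ hF hf hχ' (hser' ▸ hasQSeries_serHom φ')

variable (W : WeierstrassCurve ℤ) (p : ℕ) [Fact p.Prime] (hp2 : p ≠ 2) (hΔ : W.Δ ≠ 0)
include hp2 hΔ

/-- An element trivial on roots of unity with trace `≠ 2`. -/
theorem exists_s0 (hirr : W.ModRepIsIrreducible p) (K : ℕ) [NeZero K] :
    ∃ s : GQ, cycM K s = 1 ∧ omg p s = 1 ∧ trE W p s ≠ 2 ∧ ∀ z : Qbar, z ^ p = 1 → s z = z := by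
  haveI : (W.map (Int.castRingHom ℚ)).IsElliptic := by
    rw [isElliptic_iff, map_Δ, eq_intCast, isUnit_iff_ne_zero]
    exact_mod_cast hΔ
  haveI := isElliptic_generic W hΔ
  haveI : NeZero (p * K) := ⟨mul_ne_zero (Fact.out : p.Prime).ne_zero (NeZero.ne K)⟩
  obtain ⟨ℓ, hℓ, hℓK, hgood, hℓp, hℓ1, hne⟩ := Raise.exists_prime_nonEis
    (W.map (Int.castRingHom ℚ)) (W := W) ⟨1, one_smul _ _⟩ p hp2 hirr (p * K) (p * K).primeFactors
  obtain ⟨A, hA⟩ := Fermat.Agent.Galois.exists_liesOverPrime hℓ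
  obtain ⟨σ, hσ⟩ := Fermat.Agent.Galois.exists_isFrobeniusAt hℓ hA
  obtain ⟨hta, htω⟩ := trE_frobenius p W hp2 hΔ hℓ hgood hℓp hA hσ
  have hℓpK : ¬ ℓ ∣ p * K := fun h => hℓK (Nat.mem_primeFactors.mpr ⟨hℓ, h, NeZero.ne _⟩)
  have hp1 : (ℓ : ZMod p) = 1 := by
    have := congrArg (ZMod.castHom (dvd_mul_right p K) (ZMod p)) hℓ1
    simpa using this
  have hK1 : (ℓ : ZMod K) = 1 := by
    have := congrArg (ZMod.castHom (dvd_mul_left K p) (ZMod K)) hℓ1
    simpa using this
  have hω : omg p σ = 1 := by rw [htω, hp1]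
  refine ⟨σ, Units.ext ?_, hω, ?_, (omg_eq_one_iff p).mp hω⟩
  · rw [DS.cycM_frobenius hℓ hA (fun h => hℓpK (h.mul_left p)) hσ, hK1, Units.val_one]
  · rw [hta]
    rw [hp1, one_add_one_eq_two] at hne
    exact hne

/-- On inertia at a prime of semistable reduction the trace is `2`. -/
theorem trE_inertia (hW : W.IsSemistableModel) {q : ℕ} (hq : q.Prime) (hqp : q ≠ p)
    {A : ValuationSubring Qbar} (hA : A.LiesOverPrime q) {σ : GQ}
    (hσ : σ ∈ A.inertiaSubgroupIn ℚ) : trE W p σ = 2 ∧ omg p σ = 1 := by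
  haveI := isElliptic_generic W hΔ
  haveI : Fact (1 < p) := ⟨(Fact.out : p.Prime).one_lt⟩
  have hω : omg p σ = 1 := by
    rw [omg, GalRep.cyc_inertia p hq hqp hA hσ, Units.val_one, map_one]
  refine ⟨?_, hω⟩
  obtain ⟨P, hP, hfix⟩ := ConductorMatch.exists_inertia_fixed W (j := 1) hq hΔ (hW q hq) Fact.out hp2
    hqp.symm one_pos hA
  rw [pow_one] at hP
  let x : ETors W p := ⟨P, (Submodule.mem_torsionBy_iff _ _).mpr (by
    rw [natCast_zsmul, ← hP]; exact addOrderOf_nsmul_eq_zero P)⟩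
  have hx0 : x ≠ 0 := fun h => (Fact.out : p.Prime).one_lt.ne' (by
    rw [← hP, AddMonoid.addOrderOf_eq_one_iff]; exact congrArg Subtype.val h)
  have hx : σ • x = x := Subtype.ext (hfix σ hσ)
  have hx' : σ⁻¹ • x = x := by rw [inv_smul_eq_iff, hx]
  have h := LinearMap.congr_fun (eRel p W hp2 hΔ σ) x
  rw [hω, one_smul, LinearMap.add_apply, LinearMap.smul_apply, Module.End.one_apply] at h
  change σ • x + σ⁻¹ • x = trE W p σ • x at h
  rw [hx, hx', ← two_smul (ZMod p) x] at h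
  exact smul_left_injective (ZMod p) hx0 h.symm

/-- A nonzero class with the relations gives one fixed by inertia at `q`. -/
theorem exists_fixed_isRho (hW : W.IsSemistableModel) {q : ℕ} (hq : q.Prime) (hqp : q ≠ p)
    {A : ValuationSubring Qbar} (hA : A.LiesOverPrime q) {M : Type} [AddCommGroup M] [Finite M]
    {ρ : GQ →* Module.End ℤ M} (hM : ∀ x : M, p • x = 0) {x : M} (hx : IsRho W p ρ x)
    (hx0 : x ≠ 0) : ∃ y : M, IsRho W p ρ y ∧ y ≠ 0 ∧ ∀ s ∈ A.inertiaSubgroupIn ℚ, ρ s y = y := by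
  haveI : Fact (1 < p) := ⟨(Fact.out : p.Prime).one_lt⟩
  let X : AddSubgroup M :=
    { carrier := {y | IsRho W p ρ y}
      add_mem' := fun ha hb => ha.add hb
      zero_mem' := isRho_zero
      neg_mem' := fun ha => ha.neg }
  obtain ⟨y, hyX, hy0, hy⟩ := GalRep.Wild.exists_fixed_of_unipotent (G := A.inertiaSubgroupIn ℚ)
    (ρ.comp (A.inertiaSubgroupIn ℚ).subtype) X hM (fun g y hy => hy.galois _) (fun g y hy => by
      obtain ⟨ht, hω⟩ := trE_inertia W p hp2 hΔ hW hq hqp hA g.2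
      have h := hy (g : GQ)
      rw [zOp_apply, hω, ht, ZMod.val_one, one_smul] at h
      rw [MonoidHom.comp_apply, MonoidHom.comp_apply, Subgroup.coe_subtype, Subgroup.coe_inv, h]
      exact smul_congr hM (by rw [ZMod.natCast_zmod_val]; norm_num) y) hx hx0
  exact ⟨y, hyX, hy0, fun s hs => hy ⟨s, hs⟩⟩

/-- A residually modular system gives a nonzero class. -/
theorem exists_isRho {L : ℕ} [NeZero L] (hres : W.IsResiduallyModularOfLevel p L) :
    ∃ x : ParHom L (ZMod p), IsRho W p (kummerGalois L p).galois x ∧ x ≠ 0 := by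
  haveI := isElliptic_generic W hΔ
  obtain ⟨f, 𝔪, hf, h𝔪, hp𝔪, hcong⟩ := hres
  obtain ⟨y, hy0, hy⟩ := Raise.exists_eigen_class hf h𝔪 hp𝔪
  exact ⟨_, isRho_of_hecke W p hp2 hΔ ∅ fun ℓ _ hgood hℓp =>
    hy ℓ _ (hcong _ ℓ.1.2 hgood ℓ.2 hℓp), hy0⟩

end Fermat.Agent.R59.NoSq
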