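import Fermat.Agent.R59.NoSq.Master

/-!
# S59, unit A: the auxiliary level, and the pullback to `Γ(q) ∩ Γ₀(m)` is injective
-/

set_option autoImplicit false
set_option linter.style.haveILetI false
set_option linter.unusedSectionVars false

noncomputable section

namespace Fermat.Agent.R59.NoSq

open CongruenceSubgroup IsLocalRing UpperHalfPlane
open Fermat.Agent.GalRep Fermat.Agent.GalRep.Level Fermat.Agent.ModField Fermat.Agent.NewVec
open Fermat.Agent.Galois (GQ)
open Fermat.Agent.GalRep.Model (chartRing self_mem_chartRing)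
open scoped MatrixGroups

variable {W : WeierstrassCurve ℤ} {p q m : ℕ} [Fact p.Prime] [Fact q.Prime] [NeZero q] [NeZero m]
  [Fact (Nat.Coprime q m)] {A : ValuationSubring (AlgebraicClosure ℚ)}

/-- The vanishing, at a suitable auxiliary level. -/
theorem exists_comb_level (hA : A.LiesOverPrime q) (hirr : W.ModRepIsIrreducible p) :
    ∃ (N : ℕ) (_ : NeZero (q * N)), ∀ {s₀ : GQ}, Setting W p q m s₀ → cycM (q * N) s₀ = 1 →
      ∀ {v : ParHom (q * q * m) (ZMod p)}, IsRho W p (kummerGalois (q * q * m) p).galois v →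
      (∀ σ ∈ A.inertiaSubgroupIn ℚ, (kummerGalois (q * q * m) p).galois σ v = v) →
      ∀ {α : Type} [Fintype α] (x : α → SL(2, ZMod q)),
      (¬ p ∣ q + 1 ∨ ∀ L L' : LineA q, (p : ℤ) ∣
        (∑ a, zLine (lineAct q (SemidirectProduct.inl (x a)) L)) -
          ∑ a, zLine (lineAct q (SemidirectProduct.inl (x a)) L')) →
      ∑ a, act q m (x a) (pullQ q m v) = 0 := by
  have hq : q.Prime := Fact.out
  have hqm : ¬ q ∣ m := (hq.coprime_iff_not_dvd).mp Fact.out
  obtain ⟨hW, hWmax, hWac⟩ := wBase_props A hq hA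
  haveI := hW
  haveI := hWac
  have hm0 := NeZero.pos m
  rcases hq.eq_two_or_odd' with h2 | ⟨k, hk⟩
  · subst h2
    have hmodd : Odd m := Nat.odd_iff.mpr (by omega)
    have hN : ¬ 2 ∣ 3 * m := fun h => by omega
    haveI : NeZero (3 * m) := ⟨by positivity⟩
    haveI : NeZero (2 * (3 * m)) := ⟨by positivity⟩
    haveI : Fact (Nat.Coprime 2 (3 * m)) := ⟨hq.coprime_iff_not_dvd.mpr hN⟩
    obtain ⟨hO, hOmax, hπ⟩ := oBase_dvr (M := 2 * (3 * m)) hq hA rfl hN
    haveI := hO
    haveI := isAlgClosed_oBase (M := 2 * (3 * m)) hq hA hN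
    have h2π : piO hq hA (M := 2 * (3 * m)) rfl hN ∣ (2 : oBase A (2 * (3 * m))) := by
      rw [← Ideal.mem_span_singleton, ← hOmax]
      simpa using natCast_mem_maximal (M := 2 * (3 * m)) hq hA rfl hN
    refine ⟨3 * m, inferInstance, fun {s₀} S hs {v} hv hfix {α} _ x hθ => ?_⟩
    refine sum_eq_zero_of_regular hq hA rfl hN hπ (dvd_mul_left m 3) S hirr hs hv hfix
      (fun n hn hπn => ?_) (fun n hn hπn hwn => ?_) x hθ
    · haveI := hn
      refine Moduli.exists_regular_finite_two (embO A _) (n := 3 * m) (by simpa using hWmax)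
        (adjoin_eq_top hq hA rfl hN) (exists_wBase_pow hq hA rfl hN)
        ((show Odd 3 by decide).mul hmodd) (dvd_mul_right 3 m) rfl n ?_
      obtain ⟨s, hs⟩ := h2π
      have e : (2 : chartRing (oBase A (2 * (3 * m))) (jF (embO A (2 * (3 * m))))) =
          algebraMap _ _ (2 : oBase A (2 * (3 * m))) := (map_ofNat _ 2).symm
      rw [e, hs, map_mul]
      exact Ideal.mul_mem_right _ _ hπn
    · haveI := hn
      refine CuspPt.regularPoint_cusp (q := 2) (m := 3 * m) (embO A _) ⟨hq, rfl, hN, by omega, ?_⟩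
        hπ n hπn hwn
      exact natCast_mem_maximal hq hA rfl hN
  · obtain ⟨r, hr3, hrodd, hqr⟩ : ∃ r : ℕ, 3 ≤ r ∧ Odd r ∧ ¬ q ∣ r := by
      by_cases h3 : q = 3
      · exact ⟨5, by norm_num, by decide, by subst h3; decide⟩
      · exact ⟨3, le_rfl, by decide,
          fun h => h3 ((Nat.prime_dvd_prime_iff_eq hq Nat.prime_three).mp h)⟩
    obtain ⟨t, m', ⟨i, hi⟩, hm⟩ := Nat.exists_eq_two_pow_mul_odd (NeZero.ne m)
    obtain ⟨j, hj⟩ : Odd (m' * r) := (Odd.mul ⟨i, hi⟩ hrodd)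
    have hj0 : 0 < j := by
      have : 3 ≤ m' * r := le_trans hr3 (Nat.le_mul_of_pos_left r (by omega))
      omega
    have hqj : ¬ q ∣ 2 * j + 1 := by
      rw [← hj]
      exact fun h => ((Nat.Prime.dvd_mul hq).mp h).elim
        (fun h => hqm (hm ▸ h.mul_left _)) hqr
    set N := 2 ^ (t + 2) * (m' * r) with hNdef
    have hN : ¬ q ∣ N := fun h => by
      rcases (Nat.Prime.dvd_mul hq).mp h with h | h
      · have := (Nat.prime_dvd_prime_iff_eq hq Nat.prime_two).mp (hq.dvd_of_dvd_pow h)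
        omega
      · exact hqj (hj ▸ h)
    have hmN : m ∣ N := ⟨4 * r, by rw [hNdef, hm, pow_add]; ring⟩
    have hN3 : 3 ≤ N :=
      le_trans (by omega : 3 ≤ m' * r) (Nat.le_mul_of_pos_left _ (by positivity))
    haveI : NeZero N := ⟨by omega⟩
    haveI : NeZero (q * N) := ⟨mul_ne_zero hq.ne_zero (by omega)⟩
    haveI : Fact (Nat.Coprime q N) := ⟨hq.coprime_iff_not_dvd.mpr hN⟩
    obtain ⟨hO, hOmax, hπ⟩ := oBase_dvr (M := q * N) hq hA rfl hN
    haveI := hO
    haveI := isAlgClosed_oBase (M := q * N) hq hA hN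
    have hqπ : piO hq hA (M := q * N) rfl hN ∣ (q : oBase A (q * N)) := by
      rw [← Ideal.mem_span_singleton, ← hOmax]
      exact natCast_mem_maximal hq hA rfl hN
    refine ⟨N, inferInstance, fun {s₀} S hs {v} hv hfix {α} _ x hθ => ?_⟩
    refine sum_eq_zero_of_regular hq hA rfl hN hπ hmN S hirr hs hv hfix (fun n hn hπn => ?_)
      (fun n hn hπn hwn => ?_) x hθ
    · haveI := hn
      refine Moduli.exists_regular_finite (embO A _) (a := t + 2) (j := j) hq (k := k) hk hWmax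
        (adjoin_eq_top hq hA rfl hN) (exists_wBase_pow hq hA rfl hN) (by omega) hj0 hqj
        (by rw [hNdef, hj]; ring) n ?_
      obtain ⟨s, hs⟩ := hqπ
      rw [← map_natCast (algebraMap (oBase A (q * N)) _), hs, map_mul]
      exact Ideal.mul_mem_right _ _ hπn
    · haveI := hn
      exact CuspPt.regularPoint_cusp (q := q) (m := N) (embO A _)
        ⟨hq, rfl, hN, hN3, natCast_mem_maximal hq hA rfl hN⟩ hπ n hπn hwn

/-- A class with the relations whose pullback vanishes is zero. -/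
theorem eq_zero_of_pullQ_eq_zero {s₀ : GQ} (S : Setting W p q m s₀)
    (hs : cycM (q * (q * q * m)) s₀ = 1)
    {v : ParHom (q * q * m) (ZMod p)} (hv : IsRho W p (kummerGalois (q * q * m) p).galois v)
    (h : pullQ q m v = 0) : v = 0 := by
  classical
  haveI : NeZero p := ⟨(Fact.out : p.Prime).ne_zero⟩
  haveI : NeZero (q * q * m) := ⟨mul_ne_zero (mul_ne_zero (NeZero.ne q) (NeZero.ne q)) (NeZero.ne m)⟩
  set K := q * (q * q * m) with hK
  haveI : NeZero K := ⟨mul_ne_zero (NeZero.ne q) (NeZero.ne _)⟩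
  have hvan : ∀ γ : Gamma0 (q * q * m), (γ : SL(2, ℤ)) ∈ Gamma K →
      (v : Additive (Gamma0 (q * q * m)) →+ ZMod p) (Additive.ofMul γ) = 0 := fun x hx => by
    set y : SL(2, ℤ) := (x : SL(2, ℤ)) with hy
    rw [Gamma_mem] at hx
    obtain ⟨h00, h01, h10, h11⟩ := hx
    obtain ⟨c, hc⟩ := (ZMod.intCast_zmod_eq_zero_iff_dvd _ _).mp h10
    set c' : ℤ := ((q * q * m : ℕ) : ℤ) * c with hc'
    have hyc : y 1 0 = q * c' := by rw [hc, hc', hK]; push_cast; ring
    have hdet : y 0 0 * y 1 1 - y 0 1 * y 1 0 = 1 := by rw [← Matrix.det_fin_two]; exact y.2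
    let γ₀ : SL(2, ℤ) := ⟨!![y 0 0, q * y 0 1; c', y 1 1], by
      rw [Matrix.det_fin_two_of]; linear_combination hdet + (y 0 1) * hyc⟩
    have hcast : ∀ (d : ℕ) (a : ℤ), d ∣ K → (a : ZMod K) = 1 → (a : ZMod d) = 1 :=
      fun d a hdK ha => by rw [← map_intCast (ZMod.castHom hdK (ZMod d)) a, ha, map_one]
    have hqK : q ∣ K := dvd_mul_right _ _
    have hmK : m ∣ K := dvd_mul_of_dvd_right (dvd_mul_left _ _) _
    have hmid : γ₀ ∈ midGroup q m := by
      refine ⟨Gamma_mem.mpr ⟨hcast q _ hqK h00, ?_, ?_, hcast q _ hqK h11⟩, Gamma0_mem.mpr ?_⟩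
      · show ((q * y 0 1 : ℤ) : ZMod q) = 0
        simp
      · show ((c' : ℤ) : ZMod q) = 0
        simp [hc']
      · show ((c' : ℤ) : ZMod m) = 0
        simp [hc']
    have hpull : pullHom q m ⟨γ₀, hmid⟩ = x := by
      refine Subtype.ext (mul_qMat_cancel q ((pullHom_spec q m ⟨γ₀, hmid⟩).symm.trans ?_))
      show qMat q * (γ₀ : Matrix (Fin 2) (Fin 2) ℤ) = (y : Matrix (Fin 2) (Fin 2) ℤ) * qMat q
      ext a b
      fin_cases a <;> fin_cases b <;>
        simp [γ₀, qMat, Matrix.mul_apply, Fin.sum_univ_two, hyc] <;> ring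
    rw [← hpull, ← pullQ_apply, h]
    rfl
  have hL : IsLevel (q * q * m) (Gamma0 (q * q * m)) := isLevel_gamma0 _
  have hfix : galG hL p s₀ v = v :=
    galG_eq_self_of_vanish hL (dvd_mul_left _ _) hvan hs S.roots
  rw [galG_eq_kummer] at hfix
  exact S.eq_zero nsmul_parG (hv s₀) hfix

end Fermat.Agent.R59.NoSq
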