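import Fermat.Agent.R59.NoSq.Lines

/-!
# S59, unit A: functions on the lines with constant orbit sums
-/

set_option autoImplicit false
set_option linter.style.haveILetI false
set_option linter.unusedSectionVars false

noncomputable section

namespace Fermat.Agent.R59.NoSq

open Fermat.Agent.GalRep Fermat.Agent.GalRep.Level Fermat.Agent.NewVec
open scoped MatrixGroups

variable {q : ℕ} [NeZero q]

/-- The elements fixing the component at infinity pointwise, parametrised. -/
def fixElt (u : ZMod q × (ZMod q)ˣ) : SymA q := ⟨unip q u.1, u.2⟩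

theorem fixElt_mem (u : ZMod q × (ZMod q)ˣ) : fixElt u ∈ fixInf q :=
  ⟨by simp [fixElt, unip], by simp [fixElt, unip], by simp [fixElt, unip]⟩

theorem fixElt_injective : Function.Injective (fixElt (q := q)) := fun u v h => by
  have h1 := congrArg (fun s : SymA q => s.left 0 1) h
  have h2 := congrArg (fun s : SymA q => s.right) h
  simp [fixElt, unip] at h1 h2
  exact Prod.ext h1 h2

open scoped Classical in
/-- The chosen automorphisms fixing the components on a line. -/
def hLine (C : Finset (ZMod q)ˣ) (L : LineA q) : Finset (SymA q) :=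
  ((Finset.univ : Finset (ZMod q)) ×ˢ C).image fun u => L.out * fixElt u * L.out⁻¹

theorem hLine_sub (C : Finset (ZMod q)ˣ) (L : LineA q) {h : SymA q} (hh : h ∈ hLine C L) :
    h ∈ fixLine q L := by
  classical
  obtain ⟨u, -, rfl⟩ := Finset.mem_image.mp hh
  refine ⟨L.out, Quotient.out_eq L, ?_⟩
  rw [show L.out⁻¹ * (L.out * fixElt u * L.out⁻¹) * L.out = fixElt u by group]
  exact fixElt_mem u

theorem hLine_card (C : Finset (ZMod q)ˣ) (L : LineA q) : (hLine C L).card = q * C.card := by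
  classical
  rw [hLine, Finset.card_image_of_injective _ fun u v h =>
    fixElt_injective (mul_left_cancel (mul_right_cancel h)), Finset.card_product, Finset.card_univ,
    ZMod.card]

theorem sum_hLine {K : Type} [AddCommMonoid K] (C : Finset (ZMod q)ˣ) (L : LineA q)
    (f : SymA q → K) :
    ∑ h ∈ hLine C L, f h = ∑ w : ZMod q, ∑ a ∈ C, f (L.out * fixElt (w, a) * L.out⁻¹) := by
  classical
  rw [hLine, Finset.sum_image fun u _ v _ h =>
    fixElt_injective (mul_left_cancel (mul_right_cancel h)), Finset.sum_product]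

variable [Fact q.Prime] [Fintype (LineA q)]

theorem sum_lines {K : Type} [AddCommMonoid K] (D : LineA q → K) :
    ∑ L, D L = D infA + ∑ w, D (pntA w) := by
  rw [← Equiv.sum_comp lineEquiv, Fintype.sum_option]
  rfl

theorem fixElt_inv_inf (u : ZMod q × (ZMod q)ˣ) : lineAct q (fixElt u)⁻¹ infA = infA :=
  lineAct_inf ((fixInf q).inv_mem (fixElt_mem u)).1

theorem fixElt_inv_pnt (w : ZMod q) (a : (ZMod q)ˣ) (r : ZMod q) :
    lineAct q (fixElt (w, a))⁻¹ (pntA r) =
      pntA (((a⁻¹ : (ZMod q)ˣ) : ZMod q) * (r - w)) := by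
  rw [lineAct_pnt _ ((fixInf q).inv_mem (fixElt_mem (w, a))).1]
  congr 1
  rw [inv_left_eq, SemidirectProduct.inv_right]
  simp [fixElt, unip, conjA, Matrix.SpecialLinearGroup.coe_inv, Matrix.adjugate_fin_two,
    -ZMod.inv_coe_unit, -Units.val_inv_eq_inv_val]
  ring

variable {p : ℕ} {K : Type} [AddCommGroup K]

theorem eq_zero_of_coprime {k : ℕ} (hk : Nat.Coprime k p) {x : K} (h1 : k • x = 0)
    (h2 : p • x = 0) : x = 0 := by
  have h3 := Nat.gcd_eq_gcd_ab k p
  rw [hk.gcd_eq_one, Nat.cast_one] at h3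
  rw [← one_smul ℤ x, h3, add_smul, mul_comm, mul_smul, natCast_zsmul, h1, smul_zero,
    mul_comm, mul_smul, natCast_zsmul, h2, smul_zero, add_zero]

/-- Constant orbit sums determine the total. -/
theorem succ_smul_eq_sum {C : Finset (ZMod q)ˣ} (hC : Nat.Coprime C.card p) {D : LineA q → K}
    (hp : ∀ L, p • D L = 0)
    (h : ∀ M, ∃ c, ∀ L, ∑ k ∈ hLine C M, D (lineAct q k⁻¹ L) = c) (M : LineA q) :
    (q + 1) • D M = ∑ L, D L := by
  classical
  set k : SymA q := M.out
  set D' : LineA q → K := fun L => D (lineAct q k L) with hD'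
  obtain ⟨c, hc⟩ := h M
  have hco : ∀ L, ∑ w : ZMod q, ∑ a ∈ C, D' (lineAct q (fixElt (w, a))⁻¹ L) = c := fun L => by
    rw [← hc (lineAct q k L), sum_hLine]
    refine Finset.sum_congr rfl fun w _ => Finset.sum_congr rfl fun a _ => congrArg D ?_
    rw [← Equiv.Perm.mul_apply, ← map_mul, ← Equiv.Perm.mul_apply, ← map_mul]
    congr 2
    simp only [k]
    group
  have hi := hco infA
  simp only [fixElt_inv_inf, Finset.sum_const, Finset.card_univ, ZMod.card] at hi
  have h0 := hco (pntA 0)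
  simp only [fixElt_inv_pnt] at h0
  rw [Finset.sum_comm, Finset.sum_congr rfl fun a _ => (Fintype.sum_bijective
    (fun w : ZMod q => ((a⁻¹ : (ZMod q)ˣ) : ZMod q) * (0 - w))
    ((Units.mulLeft_bijective _).comp (Equiv.subLeft (0 : ZMod q)).bijective)
    (fun w => D' (pntA (((a⁻¹ : (ZMod q)ˣ) : ZMod q) * (0 - w)))) (fun w => D' (pntA w))
    fun w => rfl), Finset.sum_const] at h0
  have key : q • D' infA = ∑ w, D' (pntA w) := by
    refine sub_eq_zero.mp (eq_zero_of_coprime hC ?_ ?_)
    · rw [smul_sub, sub_eq_zero, h0, ← hi, smul_comm]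
    · rw [smul_sub, smul_comm, hp, smul_zero, Finset.smul_sum, sub_eq_zero]
      exact (Finset.sum_eq_zero fun w _ => hp _).symm
  have hM : D' infA = D M := by
    show D (lineAct q k infA) = _
    rw [infA, lineAct_mk, mul_one]
    exact congrArg D (Quotient.out_eq M)
  rw [← hM, succ_nsmul, key, add_comm, ← sum_lines D']
  exact Equiv.sum_comp (lineAct q k) D

/-- Away from `p ∣ q + 1` the function is constant. -/
theorem eq_of_not_dvd (hp' : p.Prime) {C : Finset (ZMod q)ˣ} (hC : Nat.Coprime C.card p)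
    (hq : ¬ p ∣ q + 1) {D : LineA q → K} (hp : ∀ L, p • D L = 0)
    (h : ∀ M, ∃ c, ∀ L, ∑ k ∈ hLine C M, D (lineAct q k⁻¹ L) = c) (L L' : LineA q) : D L = D L' :=
  sub_eq_zero.mp (eq_zero_of_coprime ((hp'.coprime_iff_not_dvd.mpr hq).symm)
    (by rw [smul_sub, succ_smul_eq_sum hC hp h, succ_smul_eq_sum hC hp h, sub_self])
    (by rw [smul_sub, hp, hp, sub_zero]))

open scoped Classical in
/-- The function `δ∞ - δ₀`. -/
def zLine (L : LineA q) : ℤ := if L = infA then 1 else if L = pntA 0 then -1 else 0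

/-- For `p ∣ q + 1` the function is a combination of `δ∞ - δ₀` and a constant. -/
theorem exists_eq_add_zLine {C : Finset (ZMod q)ˣ} (hC : Nat.Coprime C.card p) (hq : p ∣ q + 1)
    {D : LineA q → K} (hp : ∀ L, p • D L = 0)
    (h : ∀ M, ∃ c, ∀ L, ∑ k ∈ hLine C M, D (lineAct q k⁻¹ L) = c)
    (hinv : ∀ a : (ZMod q)ˣ, ∃ c, ∀ L,
      D (lineAct q (SemidirectProduct.inr a : SymA q)⁻¹ L) = D L + c) :
    ∃ D₁ e : K, p • e = 0 ∧ ∀ L, D L = D₁ + zLine L • e := by
  classical
  have hA : ∀ (a : (ZMod q)ˣ) r, D (pntA (((a⁻¹ : (ZMod q)ˣ) : ZMod q) * r)) = D (pntA r) := by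
    intro a r
    obtain ⟨c, hc⟩ := hinv a
    have hs : (SemidirectProduct.inr a : SymA q)⁻¹ ∈ stabInf q :=
      (stabInf q).inv_mem (by show (SemidirectProduct.inr a : SymA q).left 1 0 = 0; simp)
    have h1 := hc infA
    rw [lineAct_inf hs] at h1
    have h2 := hc (pntA r)
    rw [lineAct_pnt _ hs] at h2
    rw [← show pntA ((SemidirectProduct.inr a : SymA q)⁻¹.left 0 0 *
        ((SemidirectProduct.inr a : SymA q)⁻¹.right : ZMod q) * r /
          (SemidirectProduct.inr a : SymA q)⁻¹.left 1 1 +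
        (SemidirectProduct.inr a : SymA q)⁻¹.left 0 1 / (SemidirectProduct.inr a : SymA q)⁻¹.left 1 1) =
      pntA (((a⁻¹ : (ZMod q)ˣ) : ZMod q) * r) from by
        congr 1
        rw [← map_inv (SemidirectProduct.inr : (ZMod q)ˣ →* SymA q)]
        simp [-ZMod.inv_coe_unit, -Units.val_inv_eq_inv_val], h2, left_eq_add.mp h1, add_zero]
  set D₁ := D (pntA 1)
  have hne : ∀ r : ZMod q, r ≠ 0 → D (pntA r) = D₁ := fun r hr => by
    have := hA (Units.mk0 r hr)⁻¹ 1
    rwa [inv_inv, Units.val_mk0, mul_one] at this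
  have hT : D infA + ∑ w, D (pntA w) = 0 := by
    rw [← sum_lines, ← succ_smul_eq_sum hC hp h infA]
    obtain ⟨c, hc⟩ := hq
    rw [hc, mul_comm, mul_smul, hp, smul_zero]
  rw [← Finset.add_sum_erase _ _ (Finset.mem_univ (0 : ZMod q)),
    Finset.sum_congr rfl fun w hw => hne w (Finset.ne_of_mem_erase hw), Finset.sum_const,
    Finset.card_erase_of_mem (Finset.mem_univ _), Finset.card_univ, ZMod.card] at hT
  have h0 : D (pntA 0) - D₁ = -(D infA - D₁) := by
    have e : (q - 1) • D₁ + 2 • D₁ = 0 := by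
      rw [← add_smul, show q - 1 + 2 = q + 1 by have := (Fact.out : q.Prime).two_le; omega]
      obtain ⟨c, hc⟩ := hq
      rw [hc, mul_comm, mul_smul, hp, smul_zero]
    rw [eq_neg_iff_add_eq_zero, show D (pntA 0) - D₁ + (D infA - D₁) =
      (D infA + (D (pntA 0) + (q - 1) • D₁)) - ((q - 1) • D₁ + 2 • D₁) by abel, hT, e, sub_zero]
  refine ⟨D₁, D infA - D₁, by rw [smul_sub, hp, hp, sub_zero], fun L => ?_⟩
  obtain ⟨_ | r, rfl⟩ := lineEquiv.surjective L
  · rw [lineEquiv_none, zLine, if_pos rfl, one_smul, add_sub_cancel]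
  · have h1 : lineEquiv (some r) ≠ lineEquiv none := fun h => by simpa using lineEquiv.injective h
    rw [lineEquiv_some] at h1 ⊢
    rw [lineEquiv_none] at h1
    rw [zLine, if_neg h1]
    by_cases hr : r = 0
    · subst hr
      rw [if_pos rfl, neg_one_smul, ← h0, add_sub_cancel]
    · rw [if_neg fun h => hr (by
        have := lineEquiv.injective (a₁ := some r) (a₂ := some 0) h
        simpa using this), zero_smul, add_zero, hne r hr]

end Fermat.Agent.R59.NoSq
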