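import Fermat.Agent.GalRep.KummerCongr
import Fermat.Agent.GalRep.KummerHecke
import Fermat.Agent.GalRep.Model.Reduction

/-!
# S59, unit A: the congruence relation on Kummer classes without constant
-/

set_option autoImplicit false

noncomputable section

namespace Fermat.Agent.R59.NoSq

open UpperHalfPlane CongruenceSubgroup
open Fermat.Agent.GalRep
open Fermat.Agent.Galois (GQ)
open scoped MatrixGroups Manifold

local notation "ℚb" => AlgebraicClosure ℚ

variable {N n : ℕ} [NeZero N] [NeZero n]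

set_option maxHeartbeats 1000000 in
/-- Unramifiedness and the congruence relation at `ℓ ∤ N n`, with constant one. -/
theorem congr_exact (p : GoodPrime N) (hn : ¬ ((p : Nat.Primes) : ℕ) ∣ n) (K : KummerGalois N n)
    {A : ValuationSubring (AlgebraicClosure ℚ)} (hA : A.LiesOverPrime ((p : Nat.Primes) : ℕ)) :
    (∀ σ ∈ A.inertiaSubgroupIn ℚ, ∀ χ, K.galois σ χ - χ = 0) ∧
      ∀ σ : GQ, A.IsFrobeniusAt σ ((p : Nat.Primes) : ℕ) → ∀ χ χ' : ParHom N (ZMod n),
        IsHeckeTransfer N ((p : Nat.Primes) : ℕ)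
          ((K.galois σ χ : ParHom N (ZMod n)) : Additive (Gamma0 N) →+ ZMod n) χ' →
        K.galois σ (K.galois σ χ) - χ' + ((p : Nat.Primes) : ℕ) • χ = 0 := by
  have hℓ : ((p : Nat.Primes) : ℕ).Prime := p.1.2
  set ℓ : ℕ := ((p : Nat.Primes) : ℕ) with hℓdef
  haveI : Fact ℓ.Prime := ⟨hℓ⟩
  haveI : NeZero ℓ := ⟨hℓ.ne_zero⟩
  haveI := charP_residue hℓ hA
  constructor
  · intro σ hσ χ
    obtain ⟨⟨σ', hσ'⟩, hker, rfl⟩ := hσ
    obtain ⟨h0, f0, hh0, hf0, hint, m, hm⟩ := exists_integral_rep hℓ hA χ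
    obtain ⟨Φ, hΦ⟩ := exists_hasRed hint
    obtain ⟨h1, hh1, hf1⟩ := K.galois_spec σ' χ h0 f0 hh0 hf0
    have hred1 : HasRed A (seriesConj σ' f0 ^ n) Φ := by
      have h := hΦ.conj hσ' (ρ := RingHom.id _) fun x => by
        have := MonoidHom.mem_ker.mp hker
        exact RingEquiv.congr_fun this x
      rw [seriesConj_eq_lmap, map_pow, ← seriesConj_eq_lmap] at h
      rwa [show lmap (RingHom.id (IsLocalRing.ResidueField A)) Φ = Φ by ext; rfl] at h
    have hΦ0 : Φ ≠ 0 := by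
      intro h0'
      obtain ⟨hm1, hm2⟩ := hΦ m
      refine hm (ValuationSubring.coe_mem_nonunits_iff.mpr
        ((IsLocalRing.residue_eq_zero_iff (R := A) ⟨_, hm1⟩).mp ?_))
      rw [hm2, h0', HahnSeries.coeff_zero]
    have hH := hh1.mul (hh0.pow (n - 1))
    have hser := hasQSeries_mul_seriesToC hf1 (hasQSeries_pow_seriesToC hf0 (n - 1))
    have hred2 : HasRed A ((seriesConj σ' f0 * f0 ^ (n - 1)) ^ n) (Φ ^ n) := by
      rw [mul_pow, ← pow_mul, mul_comm (n - 1), pow_mul]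
      have := hred1.mul (hΦ.pow (n - 1))
      rwa [← pow_succ', Nat.sub_add_cancel (NeZero.pos n)] at this
    have hmod := isModFun_pow_rep hh0 hf0
    have key := GalRep.Model.kummerReduction_exact hℓ p.2 hn hA hH hser hmod.1 hmod.2 hred2.integral hΦ.integral ⟨m, hm⟩
      (hred2.congr (hΦ.pow n))
    rwa [show K.galois σ' χ + (n - 1) • χ = K.galois σ' χ - χ by
      rw [eq_neg_of_add_eq_zero_right (add_pred_nsmul_eq_zero χ), ← sub_eq_add_neg]] at key
  · intro σ hσ χ χ' hT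
    obtain ⟨hdec, hfrob⟩ := hσ
    obtain ⟨h0, f0, hh0, hf0, hint, m, hm⟩ := exists_integral_rep hℓ hA χ
    obtain ⟨Φ, hΦ⟩ := exists_hasRed hint
    obtain ⟨h1, hh1, hf1⟩ := K.galois_spec σ χ h0 f0 hh0 hf0
    obtain ⟨h2, hh2, hf2⟩ := K.galois_spec σ _ h1 _ hh1 hf1
    set Fr := frobenius (IsLocalRing.ResidueField A) ℓ with hFr
    have hconj : ∀ {f : LaurentSeries ℚb} {F : LaurentSeries (IsLocalRing.ResidueField A)},
        HasRed A (f ^ n) F → HasRed A (seriesConj σ f ^ n) (lmap Fr F) := fun {f F} h => by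
      have h' := h.conj hdec (ρ := Fr) fun x => by rw [hfrob, hFr, frobenius_def]
      rwa [seriesConj_eq_lmap, map_pow, ← seriesConj_eq_lmap] at h'
    have hψ := hconj hΦ
    have hφ2 := hconj hψ
    -- the transfer
    have hg : GoodIndex N ℓ := goodIndex p
    have hTh := heckeProd_rep hg hh1 hT
    obtain ⟨uC, huC, -⟩ := hTh.exists_series_one
    have hexp : expand ℓ (NeZero.ne ℓ) uC = seriesToC (heckeSeriesA ℓ (seriesConj σ f0)) := by
      have := huC.refine_width one_pos ℓ (NeZero.ne ℓ)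
      rw [one_mul] at this
      rw [seriesToC_heckeSeriesA]
      exact this.unique (NeZero.pos ℓ) (hasQSeries_heckeProd hg hf1)
    obtain ⟨u, rfl⟩ : ∃ u, seriesToC u = uC := exists_seriesToC_eq fun j => by
      rw [← expand_coeff_mul ℓ (NeZero.ne ℓ) uC j, hexp]
      exact (Algebra.IsAlgebraic.isAlgebraic _).algHom qbarToC.toRatAlgHom
    have hu : expand ℓ (NeZero.ne ℓ) u = heckeSeriesA ℓ (seriesConj σ f0) :=
      seriesToC_injective (by rw [← hexp, seriesToC_eq_lmap, lmap_expand]; rfl)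
    obtain ⟨U, hU⟩ : ∃ U : LaurentSeries (IsLocalRing.ResidueField A),
        U = Φ ^ ℓ * lmap Fr (lmap Fr Φ) := ⟨_, rfl⟩
    have hured : HasRed A (u ^ n) U := by
      refine HasRed.of_expand ℓ (NeZero.ne ℓ) ?_
      have h := hψ.heckeSeriesA ℓ
      rw [heckeSeriesA_pow, ← hu, ← map_pow] at h
      rw [hU, map_mul, pow_char_eq_expand Φ]
      rw [pow_char_eq_expand (lmap Fr Φ)] at h
      exact h
    have hΦ0 : Φ ≠ 0 := by
      intro h0'
      obtain ⟨hm1, hm2⟩ := hΦ m
      refine hm (ValuationSubring.coe_mem_nonunits_iff.mpr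
        ((IsLocalRing.residue_eq_zero_iff (R := A) ⟨_, hm1⟩).mp ?_))
      rw [hm2, h0', HahnSeries.coeff_zero]
    have hU0 : U ≠ 0 := by
      rw [hU]
      refine mul_ne_zero (pow_ne_zero _ hΦ0) fun h => hΦ0 ?_
      have hi := lmap_injective (φ := Fr) Fr.injective
      exact hi (hi (by rw [h, map_zero, map_zero]))
    have hH := (hh2.mul (hh0.pow ℓ)).mul (hTh.pow (n - 1))
    have hser := hasQSeries_mul_seriesToC (hasQSeries_mul_seriesToC hf2 (hasQSeries_pow_seriesToC hf0 ℓ))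
      (hasQSeries_pow_seriesToC huC (n - 1))
    have hred2 : HasRed A ((seriesConj σ (seriesConj σ f0) * f0 ^ ℓ * u ^ (n - 1)) ^ n) (U ^ n) := by
      rw [mul_pow, mul_pow, ← pow_mul, mul_comm ℓ, pow_mul, ← pow_mul u, mul_comm (n - 1), pow_mul]
      have := (hφ2.mul (hΦ.pow ℓ)).mul (hured.pow (n - 1))
      rwa [mul_comm (lmap Fr (lmap Fr Φ)), ← hU, ← pow_succ', Nat.sub_add_cancel (NeZero.pos n)] at this
    have hmod := isModFun_pow_rep hTh huC
    have key := GalRep.Model.kummerReduction_exact hℓ p.2 hn hA hH hser hmod.1 hmod.2 hred2.integral hured.integral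
      (hured.exists_unit hU0) (hred2.congr (hured.pow n))
    rwa [show K.galois σ (K.galois σ χ) + ℓ • χ + (n - 1) • χ' =
        K.galois σ (K.galois σ χ) - χ' + ℓ • χ by
      rw [eq_neg_of_add_eq_zero_right (add_pred_nsmul_eq_zero χ')]; abel] at key

end Fermat.Agent.R59.NoSq
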