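import Fermat.Agent.R59.Mazur.Basic
import Fermat.Agent.R59.NoSq.Exact
import Fermat.Agent.GalRep.Level.Galois
import Fermat.Agent.GalRep.Assembly

/-!
# S59, unit A: classes with the relations of `W[p]`
-/

set_option autoImplicit false
set_option linter.style.haveILetI false
set_option linter.unusedSectionVars false

noncomputable section

namespace Fermat.Agent.R59.NoSq

open CongruenceSubgroup
open WeierstrassCurve WeierstrassCurve.Affine.Point
open scoped WeierstrassCurve.Affine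
open Fermat.Agent.GalRep Fermat.Agent.GalRep.Level
open Fermat.Agent.Galois (GQ)
open scoped MatrixGroups

local notation "Qbar" => AlgebraicClosure ℚ

/-! ## Relations in a `p`-torsion module with an action -/

section Module

variable (W : WeierstrassCurve ℤ) (p : ℕ) [Fact p.Prime] {M : Type} [AddCommGroup M]
  (ρ : GQ →* Module.End ℤ M)

/-- The operator `g + ω(g) g⁻¹`. -/
def zOp (g : GQ) : M →+ M :=
  (ρ g).toAddMonoidHom + (omg p g).val • (ρ g⁻¹).toAddMonoidHom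

theorem zOp_apply (g : GQ) (x : M) : zOp p ρ g x = ρ g x + (omg p g).val • ρ g⁻¹ x := rfl

/-- `x` satisfies the relations of `W[p]`. -/
def IsRho (x : M) : Prop := ∀ g : GQ, zOp p ρ g x = (trE W p g).val • x

variable {W p ρ}

theorem smul_inv_smul (g : GQ) (x : M) : ρ g (ρ g⁻¹ x) = x := by
  rw [← Module.End.mul_apply, ← map_mul, mul_inv_cancel, map_one, Module.End.one_apply]

theorem inv_smul_smul' (g : GQ) (x : M) : ρ g⁻¹ (ρ g x) = x := by
  rw [← Module.End.mul_apply, ← map_mul, inv_mul_cancel, map_one, Module.End.one_apply]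

theorem isRho_zero : IsRho W p ρ (0 : M) := fun g => by rw [_root_.map_zero, smul_zero]

theorem IsRho.add {x y : M} (hx : IsRho W p ρ x) (hy : IsRho W p ρ y) : IsRho W p ρ (x + y) :=
  fun g => by rw [map_add, smul_add, hx g, hy g]

theorem IsRho.neg {x : M} (hx : IsRho W p ρ x) : IsRho W p ρ (-x) :=
  fun g => by rw [map_neg, smul_neg, hx g]

theorem IsRho.sub {x y : M} (hx : IsRho W p ρ x) (hy : IsRho W p ρ y) : IsRho W p ρ (x - y) := by
  rw [sub_eq_add_neg]; exact hx.add hy.neg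

theorem IsRho.nsmul {x : M} (hx : IsRho W p ρ x) (k : ℕ) : IsRho W p ρ (k • x) := by
  induction k with
  | zero => rw [zero_smul]; exact isRho_zero
  | succ k ih => rw [succ_nsmul]; exact ih.add hx

theorem IsRho.sum {ι : Type*} {s : Finset ι} {x : ι → M} (h : ∀ i ∈ s, IsRho W p ρ (x i)) :
    IsRho W p ρ (∑ i ∈ s, x i) := fun g => by
  rw [map_sum, Finset.smul_sum]
  exact Finset.sum_congr rfl fun i hi => h i hi g

theorem IsRho.galois {x : M} (hx : IsRho W p ρ x) (h : GQ) : IsRho W p ρ (ρ h x) := fun g => by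
  have h1 := congrArg (ρ h) (hx (h⁻¹ * g * h))
  rw [zOp_apply, map_add, map_nsmul, map_nsmul, omg_conj, trE_conj] at h1
  rw [zOp_apply, ← h1]
  simp only [← Module.End.mul_apply, ← map_mul]
  rw [show h * (h⁻¹ * g * h) = g * h by group, show h * (h⁻¹ * g * h)⁻¹ = g⁻¹ * h by group]

theorem IsRho.map {M' : Type} [AddCommGroup M'] {ρ' : GQ →* Module.End ℤ M'} {x : M}
    (hx : IsRho W p ρ x) (f : M →+ M') (hf : ∀ g y, f (ρ g y) = ρ' g (f y)) :
    IsRho W p ρ' (f x) := fun g => by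
  rw [zOp_apply, ← hf, ← hf, ← map_nsmul, ← map_add, ← zOp_apply, hx g, map_nsmul]

theorem IsRho.of_map {M' : Type} [AddCommGroup M'] {ρ' : GQ →* Module.End ℤ M'} {x : M}
    (f : M →+ M') (hinj : Function.Injective f) (hf : ∀ g y, f (ρ g y) = ρ' g (f y))
    (hx : IsRho W p ρ' (f x)) : IsRho W p ρ x := fun g => hinj (by
  rw [map_nsmul, ← hx g, zOp_apply, zOp_apply, map_add, map_nsmul, hf, hf])

theorem smul_congr (hM : ∀ x : M, p • x = 0) {a b : ℕ} (h : (a : ZMod p) = b) (x : M) :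
    a • x = b • x := by
  have h' : a % p = b % p := (ZMod.natCast_eq_natCast_iff a b p).mp h
  rw [← Nat.div_add_mod a p, ← Nat.div_add_mod b p, add_nsmul, add_nsmul, mul_nsmul', mul_nsmul',
    hM, hM, h']

theorem val_smul_natCast (hM : ∀ x : M, p • x = 0) (a : ℕ) (x : M) :
    (a : ZMod p).val • x = a • x :=
  smul_congr hM (ZMod.natCast_zmod_val _) x

theorem val_smul_intCast (hM : ∀ x : M, p • x = 0) (a : ℤ) (x : M) :
    (a : ZMod p).val • x = a • x := by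
  have h : (p : ℤ) ∣ a - ((a : ZMod p).val : ℕ) :=
    (ZMod.intCast_eq_intCast_iff_dvd_sub _ _ _).mp (by push_cast; rw [ZMod.natCast_zmod_val])
  obtain ⟨c, hc⟩ := h
  rw [← natCast_zsmul, ← sub_eq_zero, ← sub_smul,
    show ((a : ZMod p).val : ℤ) - a = (p : ℤ) * (-c) by linear_combination (-1 : ℤ) * hc,
    mul_smul, natCast_zsmul, hM]

theorem eq_zero_of_val_smul (hM : ∀ x : M, p • x = 0) {c : ZMod p} (hc : c ≠ 0) {x : M}
    (h : c.val • x = 0) : x = 0 := by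
  have h1 : (c⁻¹).val • c.val • x = 0 := by rw [h, smul_zero]
  rw [← mul_nsmul', smul_congr hM (b := 1) (by
    rw [Nat.cast_mul, ZMod.natCast_zmod_val, ZMod.natCast_zmod_val, Nat.cast_one,
      inv_mul_cancel₀ hc]), one_smul] at h1
  exact h1

/-- The vanishing of a class fixed by an element of trace `≠ 2` and cyclotomic value `1`. -/
theorem eq_zero_of_fixed (hM : ∀ x : M, p • x = 0) {s : GQ} (hω : omg p s = 1)
    (ht : trE W p s ≠ 2) {y : M} (hy : zOp p ρ s y = (trE W p s).val • y) (hfix : ρ s y = y) :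
    y = 0 := by
  haveI : Fact (1 < p) := ⟨(Fact.out : p.Prime).one_lt⟩
  rw [zOp_apply, hω, ZMod.val_one, one_smul] at hy
  have hinv : ρ s⁻¹ y = y := by
    conv_lhs => rw [← hfix]
    exact inv_smul_smul' s y
  rw [hfix, hinv] at hy
  refine eq_zero_of_val_smul hM (sub_ne_zero.mpr ht) ?_
  have h2 : (trE W p s - 2).val • y + 2 • y = (trE W p s).val • y := by
    rw [← add_smul]
    exact smul_congr hM (by
      rw [Nat.cast_add, ZMod.natCast_zmod_val, ZMod.natCast_zmod_val]; norm_num) y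
  rw [← hy, two_nsmul] at h2
  exact add_eq_right.mp h2

/-- `σ + ℓ σ⁻¹ = T` determines the operator of an element acting as a power of `σ`. -/
theorem zOp_eq_frobPoly (hM : ∀ x : M, p • x = 0) {g σ : GQ} {b l : ℕ} {T : Module.End ℤ M}
    (hg : ρ g = ρ (σ ^ b)) (hg' : ρ g⁻¹ = ρ (σ⁻¹ ^ b)) (hω : omg p g = (l : ZMod p) ^ b)
    (hrel : ∀ y, ρ σ y + l • ρ σ⁻¹ y = T y) (x : M) :
    zOp p ρ g x = (frobPoly T (l : Module.End ℤ M) b) x := by
  have h1 : ρ σ + (l : Module.End ℤ M) * ρ σ⁻¹ = T := LinearMap.ext fun y => by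
    rw [LinearMap.add_apply, Module.End.mul_apply, Module.End.natCast_apply]
    exact hrel y
  have hpoly := pow_add_pow_eq_frobPoly (F := ρ σ) (G := ρ σ⁻¹)
    (by rw [← map_mul, mul_inv_cancel, map_one]) (by rw [← map_mul, inv_mul_cancel, map_one]) h1 b
  rw [← map_pow, ← map_pow, ← Nat.cast_pow] at hpoly
  rw [zOp_apply, hg, hg', hω, ← Nat.cast_pow, val_smul_natCast hM, ← hpoly, LinearMap.add_apply,
    Module.End.mul_apply, Module.End.natCast_apply]

end Module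

/-! ## Classes modulo `p` -/

theorem nsmul_parG {G : Subgroup SL(2, ℤ)} {n : ℕ} (x : ParG G (ZMod n)) : n • x = 0 :=
  Subtype.ext (AddMonoidHom.ext fun z => by simp)

variable {N : ℕ} [NeZero N] (W : WeierstrassCurve ℤ) (p : ℕ) [Fact p.Prime]

local notation "Φ" => GalRep.KummerGalois.galois (kummerGalois N p)

theorem galois_comm (ℓ : GoodPrime N) (h : GQ) (x : ParHom N (ZMod p)) :
    heckeHomAt ℓ (Φ h x) = Φ h (heckeHomAt ℓ x) :=
  (eq_heckeHom (goodIndex ℓ) (kummerHeckeComm N p (kummerGalois N p) ℓ h _ _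
    (isHeckeTransfer_heckeHom (goodIndex ℓ) x))).symm

/-- `σ + ℓ σ⁻¹ = T_ℓ`. -/
theorem frobenius_rel {ℓ : GoodPrime N} (hℓp : ((ℓ : Nat.Primes) : ℕ) ≠ p)
    {A : ValuationSubring Qbar} (hA : A.LiesOverPrime ((ℓ : Nat.Primes) : ℕ)) {σ : GQ}
    (hσ : A.IsFrobeniusAt σ ((ℓ : Nat.Primes) : ℕ)) (x : ParHom N (ZMod p)) :
    Φ σ x + ((ℓ : Nat.Primes) : ℕ) • Φ σ⁻¹ x = heckeHomAt ℓ x := by
  have hn : ¬ ((ℓ : Nat.Primes) : ℕ) ∣ p := fun h =>
    hℓp ((Nat.prime_dvd_prime_iff_eq ℓ.1.2 Fact.out).mp h)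
  have h1 := (congr_exact ℓ hn (kummerGalois N p) hA).2 σ hσ x _
    (isHeckeTransfer_heckeHom (goodIndex ℓ) (Φ σ x))
  have h2 : Φ σ (Φ σ x) + ((ℓ : Nat.Primes) : ℕ) • x = Φ σ (heckeHomAt ℓ x) := by
    rw [← sub_eq_zero, ← galois_comm]
    rw [sub_add_eq_add_sub] at h1
    exact h1
  have h3 := congrArg (Φ σ⁻¹) h2
  rw [map_add, map_nsmul, inv_smul_smul', inv_smul_smul'] at h3
  exact h3

variable [((W.map (Int.castRingHom ℚ))⁄Qbar).IsElliptic] (hp2 : p ≠ 2) (hΔ : W.Δ ≠ 0)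
include hp2 hΔ

theorem frobenius_trE {ℓ : ℕ} (hℓ : ℓ.Prime) (hgood : W.IsGoodPrimeFor ℓ) (hℓp : ℓ ≠ p)
    {A : ValuationSubring Qbar} (hA : A.LiesOverPrime ℓ) {σ : GQ} (hσ : A.IsFrobeniusAt σ ℓ) :
    trE W p σ = (W.apOfModel ℓ : ZMod p) ∧ omg p σ = (ℓ : ZMod p) :=
  trE_frobenius p W hp2 hΔ hℓ hgood hℓp hA hσ

/-- The operators `g + ω(g) g⁻¹` are polynomials in a Hecke operator. -/
theorem exists_zOp_eq (g : GQ) (bad : Finset ℕ) :
    ∃ (ℓ : GoodPrime N) (b : ℕ), ((ℓ : Nat.Primes) : ℕ) ∉ bad ∧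
      W.IsGoodPrimeFor ((ℓ : Nat.Primes) : ℕ) ∧ ((ℓ : Nat.Primes) : ℕ) ≠ p ∧
      trE W p g = frobPoly (W.apOfModel ((ℓ : Nat.Primes) : ℕ) : ZMod p)
        (((ℓ : Nat.Primes) : ℕ) : ZMod p) b ∧
      ∀ x : ParHom N (ZMod p), zOp p Φ g x =
        (frobPoly (heckeHomAt ℓ : Module.End ℤ (ParHom N (ZMod p)))
          ((((ℓ : Nat.Primes) : ℕ) : ℕ) : Module.End ℤ (ParHom N (ZMod p))) b) x := by
  classical
  haveI : NeZero p := ⟨(Fact.out : p.Prime).ne_zero⟩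
  obtain ⟨F₁, hF₁, hfix₁⟩ := galG_continuous (isLevel_gamma0 N) (n := p)
  obtain ⟨F₂, hF₂, hfix₂⟩ := exists_eLevel p W
  obtain ⟨ℓ, hℓ, hbad, A, hA, σ, hσ, b, hb⟩ := frobeniusPowDensity (F₁ ⊔ F₂)
    (bad ∪ N.primeFactors ∪ W.Δ.natAbs.primeFactors ∪ {p}) g
  simp only [Finset.mem_union, not_or, Finset.mem_singleton] at hbad
  have hℓN : ¬ ℓ ∣ N := fun h => hbad.1.1.2 (Nat.mem_primeFactors.mpr ⟨hℓ, h, NeZero.ne N⟩)
  have hgood : W.IsGoodPrimeFor ℓ := fun h => hbad.1.2 (Nat.mem_primeFactors.mpr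
    ⟨hℓ, Int.natCast_dvd.mp h, Int.natAbs_ne_zero.mpr hΔ⟩)
  have hℓp : ℓ ≠ p := hbad.2
  obtain ⟨hta, htω⟩ := frobenius_trE W p hp2 hΔ hℓ hgood hℓp hA hσ
  have hagree : ∀ x ∈ F₁ ⊔ F₂, ((σ ^ b)⁻¹ * g) x = x := fun x hx => by
    rw [AlgEquiv.mul_apply, ← hb x hx]
    exact (σ ^ b).symm_apply_apply x
  have hker : (σ ^ b)⁻¹ * g ∈ eKer p W := hfix₂ ((IntermediateField.mem_fixingSubgroup_iff _ _).mpr
    fun x hx => hagree x ((le_sup_right : F₂ ≤ F₁ ⊔ F₂) hx))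
  have hg : g = σ ^ b * ((σ ^ b)⁻¹ * g) := (mul_inv_cancel_left _ _).symm
  have hω : omg p g = (ℓ : ZMod p) ^ b := by
    rw [hg, omg_mul, omg_of_mem_eKer p W hp2 hΔ hker, mul_one, omg_pow, htω]
  have htr : trE W p g = trE W p (σ ^ b) := by
    conv_lhs => rw [hg]
    rw [trE, trE, galoisTrace_def, galoisTrace_def,
      (galoisRepModuleEnd (K := Qbar) ℚ (W.map (Int.castRingHom ℚ)).toAffine p).map_mul,
      show galoisRepModuleEnd (K := Qbar) ℚ (W.map (Int.castRingHom ℚ)).toAffine p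
        ((σ ^ b)⁻¹ * g) = 1 from LinearMap.ext fun x => hker x, mul_one]
  have hΦ : Φ g = Φ (σ ^ b) := by
    have h1 : Φ ((σ ^ b)⁻¹ * g) = 1 := by
      refine LinearMap.ext fun x => ?_
      rw [← galG_eq_kummer, hfix₁ _ fun y hy => hagree y ((le_sup_left : F₁ ≤ F₁ ⊔ F₂) hy)]
    conv_lhs => rw [hg, map_mul, h1, mul_one]
  have hΦ' : Φ g⁻¹ = Φ (σ⁻¹ ^ b) := by
    have e : Φ g⁻¹ * Φ g = 1 := by rw [← map_mul, inv_mul_cancel, map_one]
    calc Φ g⁻¹ = Φ g⁻¹ * (Φ (σ ^ b) * Φ (σ⁻¹ ^ b)) := by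
          rw [← map_mul (Φ), inv_pow, mul_inv_cancel, map_one, mul_one]
      _ = Φ (σ⁻¹ ^ b) := by rw [← mul_assoc, ← hΦ, e, one_mul]
  refine ⟨⟨⟨ℓ, hℓ⟩, hℓN⟩, b, hbad.1.1.1, hgood, hℓp, ?_, fun x => ?_⟩
  · rw [htr]; exact trE_pow p W hp2 hΔ hta htω b
  · exact zOp_eq_frobPoly nsmul_parG hΦ hΦ' hω
      (fun y => frobenius_rel p (ℓ := ⟨⟨ℓ, hℓ⟩, hℓN⟩) hℓp hA hσ y) x

/-- `g + ω(g) g⁻¹` commutes with the Galois action. -/
theorem galois_zOp (g h : GQ) (x : ParHom N (ZMod p)) :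
    Φ h (zOp p Φ g x) = zOp p Φ g (Φ h x) := by
  obtain ⟨ℓ, b, -, -, -, -, hz⟩ := exists_zOp_eq (N := N) W p hp2 hΔ g ∅
  rw [hz, hz]
  set T : Module.End ℤ (ParHom N (ZMod p)) := heckeHomAt ℓ
  set l : ℕ := ((ℓ : Nat.Primes) : ℕ)
  have hc : ∀ k, Commute (Φ h) (frobPoly T (l : Module.End ℤ (ParHom N (ZMod p))) k) := by
    have hT : Commute (Φ h) T := LinearMap.ext fun y => (galois_comm p ℓ h y).symm
    intro k
    induction k using Nat.twoStepInduction with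
    | zero => simp only [frobPoly]; exact Commute.ofNat_right _ 2
    | one => simp only [frobPoly]; exact hT
    | more k h1 h2 => exact (hT.mul_right h2).sub_right ((Nat.cast_commute l _).symm.mul_right h1)
  exact LinearMap.congr_fun (hc b).eq x

/-- A Hecke eigenclass satisfies the relations. -/
theorem isRho_of_hecke (S : Finset ℕ) {x : ParHom N (ZMod p)}
    (hx : ∀ ℓ : GoodPrime N, ((ℓ : Nat.Primes) : ℕ) ∉ S →
      W.IsGoodPrimeFor ((ℓ : Nat.Primes) : ℕ) → ((ℓ : Nat.Primes) : ℕ) ≠ p →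
      heckeHomAt ℓ x = W.apOfModel ((ℓ : Nat.Primes) : ℕ) • x) :
    IsRho W p Φ x := by
  intro g
  obtain ⟨ℓ, b, hS, hgood, hℓp, htr, hz⟩ := exists_zOp_eq (N := N) W p hp2 hΔ g S
  rw [hz, htr]
  have hT := hx ℓ hS hgood hℓp
  set T : Module.End ℤ (ParHom N (ZMod p)) := heckeHomAt ℓ
  set l : ℕ := ((ℓ : Nat.Primes) : ℕ)
  set a : ℤ := W.apOfModel l
  have key : ∀ k, frobPoly T (l : Module.End ℤ (ParHom N (ZMod p))) k x =
      (frobPoly a (l : ℤ) k) • x := by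
    intro k
    induction k using Nat.twoStepInduction with
    | zero => simp only [frobPoly]; rw [Module.End.ofNat_apply]; norm_cast
    | one => simp only [frobPoly]; exact hT
    | more k h1 h2 =>
      simp only [frobPoly] at *
      rw [LinearMap.sub_apply, Module.End.mul_apply, Module.End.mul_apply, h1, h2,
        map_zsmul, hT, Module.End.natCast_apply, ← natCast_zsmul, smul_smul, smul_smul, ← sub_smul]
      ring_nf
  rw [key, ← val_smul_intCast (p := p) nsmul_parG]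
  have e := map_frobPoly (Int.castRingHom (ZMod p)) a (l : ℤ) b
  simp only [eq_intCast, Int.cast_natCast] at e
  rw [e]

/-- A class with the relations is a Hecke eigenclass. -/
theorem hecke_of_isRho {x : ParHom N (ZMod p)} (hx : IsRho W p Φ x) (ℓ : GoodPrime N)
    (hgood : W.IsGoodPrimeFor ((ℓ : Nat.Primes) : ℕ)) (hℓp : ((ℓ : Nat.Primes) : ℕ) ≠ p) :
    heckeHomAt ℓ x = W.apOfModel ((ℓ : Nat.Primes) : ℕ) • x := by
  obtain ⟨A, hA⟩ := Fermat.Agent.Galois.exists_liesOverPrime ℓ.1.2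
  obtain ⟨σ, hσ⟩ := Fermat.Agent.Galois.exists_isFrobeniusAt ℓ.1.2 hA
  obtain ⟨hta, htω⟩ := frobenius_trE W p hp2 hΔ ℓ.1.2 hgood hℓp hA hσ
  have h := hx σ
  rw [zOp_apply, hta, htω, val_smul_natCast nsmul_parG, val_smul_intCast nsmul_parG] at h
  rw [← frobenius_rel p hℓp hA hσ x]
  exact h

end Fermat.Agent.R59.NoSq
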