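import Fermat.Agent.R59.NoSq.Coboundary
import Fermat.Agent.R59.NoSq.Basic
import Fermat.Agent.NewVec.HeckeMid
import Fermat.Agent.DS.Reps
import Fermat.Agent.GalRep.Level.Conj
import Fermat.Agent.Raise.Galois

/-!
# S59, unit A: from a coboundary of homomorphisms to one of parabolic classes

For a prime `ℓ ≡ 1` modulo `qm` the operator `T_ℓ` on all homomorphisms of the middle group
commutes with the translates and is `ℓ + 1` at parabolic elements.
-/

set_option autoImplicit false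
set_option linter.style.haveILetI false
set_option linter.unusedSectionVars false

noncomputable section

namespace Fermat.Agent.R59.NoSq

open CongruenceSubgroup
open Fermat.Agent.GalRep Fermat.Agent.GalRep.Level Fermat.Agent.NewVec
open Fermat.Agent.DS (IsReps)
open scoped MatrixGroups

variable {q m ℓ : ℕ} [NeZero q] [NeZero m] [NeZero (q * m)] [Fact (Nat.Coprime q m)]

theorem gamma_le_mid {g : SL(2, ℤ)} (hg : g ∈ Gamma (q * m)) : g ∈ midGroup q m := by
  have h := red_eq_one_iff.mpr hg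
  refine (mem_mid q m).mpr ⟨?_, ?_⟩
  · ext i j
    have hij := congrArg (fun z : SL(2, ZMod (q * m)) => z i j) h
    have := congrArg (ZMod.castHom (dvd_mul_right q m) (ZMod q)) hij
    fin_cases i <;> fin_cases j <;> simpa [red_apply] using this
  · have hij := congrArg (fun z : SL(2, ZMod (q * m)) => z 1 0) h
    simpa [red_apply] using congrArg (ZMod.castHom (dvd_mul_left m q) (ZMod m)) hij

/-- The representatives of `T_ℓ` normalise the middle group. -/
theorem isReps_mid (hℓ : ℓ.Prime) (h1 : (ℓ : ZMod (q * m)) = 1) :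
    IsReps (midGroup q m) (heckeRepG (q * m) ℓ 1) := by
  have hℓM : ¬ ℓ ∣ q * m := fun hd => by
    haveI := Fact.mk hℓ
    have := congrArg (ZMod.castHom (dvd_refl (q * m)) (ZMod (q * m))) h1
    have h2 : (ℓ : ℕ) ∣ 1 := by
      have e := (ZMod.natCast_eq_natCast_iff' ℓ 1 (q * m)).mp (by simpa using h1)
      have hl : ℓ ∣ 1 % (q * m) := by
        rw [← e]; exact (Nat.dvd_mod_iff hd).mpr dvd_rfl
      exact (Nat.dvd_mod_iff hd).mp hl
    exact hℓ.not_dvd_one h2
  have hR : IsDiamond (q * m) ℓ 1 := ⟨by simp [h1], by simp, by simp, by simp [h1]⟩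
  refine ⟨fun i => ?_, fun γ i => ?_, fun i j g hij => DS.heckeRepG_sep hℓ hℓM hR g hij⟩
  · rw [det_heckeRepG]; exact_mod_cast hℓ.ne_zero
  · obtain ⟨e, -, he⟩ := exists_perm_shift hℓ h1 (γ : SL(2, ℤ))
    obtain ⟨g, hg, hgi⟩ := he i
    exact ⟨e i, ⟨g * γ, (midGroup q m).mul_mem (gamma_le_mid hg) γ.2⟩, hgi⟩

variable {p : ℕ} [Fact p.Prime] (hℓ : ℓ.Prime) (h1 : (ℓ : ZMod (q * m)) = 1)

/-- `T_ℓ` on all homomorphisms of the middle group. -/
abbrev shiftT : HomA q m p →+ HomA q m p := (isReps_mid hℓ h1).transfer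

section

include hℓ h1

/-- Splitting a shifted representative. -/
theorem exists_shift (δ : SL(2, ℤ)) :
    ∃ (e : Equiv.Perm (Option (Fin ℓ))) (C : Option (Fin ℓ) → midGroup q m),
      (∀ i, heckeRepG (q * m) ℓ 1 i * (δ : IMat) =
        (((C i : SL(2, ℤ)) * δ : SL(2, ℤ)) : IMat) * heckeRepG (q * m) ℓ 1 (e i)) ∧
      ∀ i, heckeRepG (q * m) ℓ 1 (e i) * ((δ⁻¹ : SL(2, ℤ)) : IMat) =
        ((δ⁻¹ * (C i : SL(2, ℤ))⁻¹ : SL(2, ℤ)) : IMat) * heckeRepG (q * m) ℓ 1 i := by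
  obtain ⟨e, heb, he⟩ := exists_perm_shift (M := q * m) hℓ h1 δ
  choose C hC hCe using he
  refine ⟨Equiv.ofBijective e heb, fun i => ⟨C i, gamma_le_mid (hC i)⟩, hCe, fun i => ?_⟩
  have h := congrArg (fun X : IMat => ((δ⁻¹ * (C i)⁻¹ : SL(2, ℤ)) : IMat) * X *
    ((δ⁻¹ : SL(2, ℤ)) : IMat)) (hCe i)
  simp only [← mul_assoc, ← Matrix.SpecialLinearGroup.coe_mul] at h
  simp only [mul_assoc, mul_inv_cancel, inv_mul_cancel,
    Matrix.SpecialLinearGroup.coe_one, one_mul, mul_one, ← Matrix.SpecialLinearGroup.coe_mul] at h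
  exact h.symm

end

/-- `T_ℓ` commutes with translates. -/
theorem shiftT_actL (x : SL(2, ZMod q)) (χ : HomA q m p) :
    shiftT hℓ h1 (actL x χ) = actL x (shiftT hℓ h1 χ) := by
  refine AddMonoidHom.ext fun z => ?_
  obtain ⟨γ, rfl⟩ := Additive.ofMul.surjective z
  set δ : SL(2, ℤ) := liftQ q m x
  have hδ : δ ∈ Gamma0 m := liftQ_mem q m x
  set hT := isReps_mid (q := q) (m := m) hℓ h1
  obtain ⟨e, C, hC, hC'⟩ := exists_shift hℓ h1 δ
  let kk : Option (Fin ℓ) → Option (Fin ℓ) := fun i => e.symm (hT.idx γ (e i))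
  have hco : ∀ i, hT.coef (conjMid q m ⟨δ, hδ⟩ γ) i =
      C i * conjMid q m ⟨δ, hδ⟩ (hT.coef γ (e i)) * (C (kk i))⁻¹ := fun i => by
    refine (hT.unique (j := kk i) ?_).2
    have h2 := hC' (kk i)
    simp only [kk, Equiv.apply_symm_apply] at h2
    show heckeRepG (q * m) ℓ 1 i * ((δ * (γ : SL(2, ℤ)) * δ⁻¹ : SL(2, ℤ)) : IMat) =
      (((C i : SL(2, ℤ)) * (δ * (hT.coef γ (e i) : SL(2, ℤ)) * δ⁻¹) * (C (kk i) : SL(2, ℤ))⁻¹ :
        SL(2, ℤ)) : IMat) * heckeRepG (q * m) ℓ 1 (kk i)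
    rw [Matrix.SpecialLinearGroup.coe_mul, Matrix.SpecialLinearGroup.coe_mul, ← mul_assoc,
      ← mul_assoc, hC i, mul_assoc (((C i : SL(2, ℤ)) * δ : SL(2, ℤ)) : IMat), hT.spec γ (e i),
      ← mul_assoc, mul_assoc, h2, ← mul_assoc]
    simp only [← Matrix.SpecialLinearGroup.coe_mul]
    simp only [kk, mul_assoc]
  show ∑ i, actL x χ (Additive.ofMul (hT.coef γ i)) = shiftT hℓ h1 χ (Additive.ofMul (conjMid q m ⟨δ, hδ⟩ γ))
  rw [DS.IsReps.transfer_apply]
  simp only [hco, ofMul_mul, ofMul_inv, map_add, map_neg, Finset.sum_add_distrib,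
    Finset.sum_neg_distrib]
  have hk : Function.Bijective kk := (e.trans ((hT.perm γ).trans e.symm)).bijective
  have h3 : ∑ i, χ (Additive.ofMul (C (kk i))) = ∑ i, χ (Additive.ofMul (C i)) :=
    hk.sum_comp fun i => χ (Additive.ofMul (C i))
  have h4 : ∑ i, χ (Additive.ofMul (conjMid q m ⟨δ, hδ⟩ (hT.coef γ (e i)))) =
      ∑ i, χ (Additive.ofMul (conjMid q m ⟨δ, hδ⟩ (hT.coef γ i))) :=
    Equiv.sum_comp e fun i => χ (Additive.ofMul (conjMid q m ⟨δ, hδ⟩ (hT.coef γ i)))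
  rw [h3, h4, add_neg_cancel_comm]
  rfl

/-- `T_ℓ` is `ℓ + 1` at parabolic elements. -/
theorem shiftT_parabolic (hp2 : p ≠ 2) (x : HomA q m p) (γ : midGroup q m)
    (hγ : ((γ : SL(2, ℤ)) : Matrix (Fin 2) (Fin 2) ℤ).trace ^ 2 = 4) :
    shiftT hℓ h1 x (Additive.ofMul γ) = ((ℓ : ZMod p) + 1) * x (Additive.ofMul γ) := by
  haveI : NeZero ℓ := ⟨hℓ.ne_zero⟩
  obtain ⟨δ, k, hk⟩ := exists_conj_T hγ
  have hsq : ((γ ^ 2 : midGroup q m) : SL(2, ℤ)) = δ * ModularGroup.T ^ (2 * k) * δ⁻¹ := by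
    rw [SubgroupClass.coe_pow, two_mul, zpow_add, pow_two]
    rcases hk with hk | hk <;> rw [hk]
    · group
    · rw [neg_mul_neg]; group
  have h2 : (2 : ZMod p) ≠ 0 := fun h => hp2 ((Nat.prime_dvd_prime_iff_eq Fact.out Nat.prime_two).mp
    ((ZMod.natCast_eq_zero_iff 2 p).mp (by exact_mod_cast h)))
  suffices h : shiftT hℓ h1 x (Additive.ofMul (γ ^ 2)) =
      ((ℓ : ZMod p) + 1) * x (Additive.ofMul (γ ^ 2)) by
    rw [ofMul_pow, map_nsmul, map_nsmul, nsmul_eq_mul, nsmul_eq_mul, Nat.cast_ofNat,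
      mul_left_comm] at h
    exact mul_left_cancel₀ h2 h
  clear hk
  set s : ℤ := 2 * k
  -- the exponents staying in the middle group
  let S : AddSubgroup ℤ :=
    { carrier := {r | δ * ModularGroup.T ^ r * δ⁻¹ ∈ midGroup q m}
      zero_mem' := by simp
      add_mem' := fun {a b} ha hb => by
        show _ ∈ midGroup q m
        rw [zpow_add, show δ * (ModularGroup.T ^ a * ModularGroup.T ^ b) * δ⁻¹ =
          δ * ModularGroup.T ^ a * δ⁻¹ * (δ * ModularGroup.T ^ b * δ⁻¹) by group]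
        exact (midGroup q m).mul_mem ha hb
      neg_mem' := fun {a} ha => by
        show _ ∈ midGroup q m
        rw [zpow_neg, show δ * (ModularGroup.T ^ a)⁻¹ * δ⁻¹ = (δ * ModularGroup.T ^ a * δ⁻¹)⁻¹ by group]
        exact (midGroup q m).inv_mem ha }
  let Λ : S →+ ZMod p := AddMonoidHom.mk' (fun r => x (Additive.ofMul ⟨_, r.2⟩)) fun a b => by
    rw [← map_add, ← ofMul_mul]
    refine congrArg x (congrArg Additive.ofMul (Subtype.ext ?_))
    show δ * ModularGroup.T ^ ((a : ℤ) + b) * δ⁻¹ = _ * _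
    rw [zpow_add]
    group
  have hM : ∀ r : ℤ, ((r : ℤ) : ZMod (q * m)) = 0 → r ∈ S := fun r hr => by
    refine gamma_le_mid ((Gamma_normal (q * m)).conj_mem _ (Gamma_mem.mpr ?_) δ)
    simp [ModularGroup.coe_T_zpow, hr]
  have hsS : s ∈ S := by
    show _ ∈ midGroup q m
    rw [← hsq]
    exact (γ ^ 2).2
  -- the exponents and indices
  have hstep : ∀ i : Option (Fin ℓ), ∃ (r : S) (j : Option (Fin ℓ)),
      heckeRepG (q * m) ℓ 1 i * ((ModularGroup.T ^ s : SL(2, ℤ)) : IMat) =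
        ((ModularGroup.T ^ (r : ℤ) : SL(2, ℤ)) : IMat) * heckeRepG (q * m) ℓ 1 j ∧
      i.elim ((r : ℤ) = ℓ * s ∧ j = none) (fun b => ∃ b' : Fin ℓ, j = some b' ∧
        s + (b : ℤ) * (q * m : ℕ) = (b' : ℤ) * (q * m : ℕ) + (r : ℤ) * ℓ) := by
    rintro (_ | b)
    · refine ⟨⟨ℓ * s, by simpa using S.zsmul_mem hsS (ℓ : ℤ)⟩, none, ?_, rfl, rfl⟩
      simp only [heckeRepG, ModularGroup.coe_T_zpow]
      ext a a'
      fin_cases a <;> fin_cases a' <;> simp [Matrix.mul_apply, Fin.sum_univ_two]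
    · haveI := Fact.mk hℓ
      have hMℓ : ((q * m : ℕ) : ZMod ℓ) ≠ 0 := fun h => by
        have hd := (ZMod.natCast_eq_zero_iff _ _).mp h
        have e := (ZMod.natCast_eq_natCast_iff' ℓ 1 (q * m)).mp (by simpa using h1)
        have hl : ℓ ∣ 1 % (q * m) := by
          rw [← e]; exact (Nat.dvd_mod_iff hd).mpr dvd_rfl
        exact hℓ.not_dvd_one ((Nat.dvd_mod_iff hd).mp hl)
      set z : ZMod ℓ := ((s : ZMod ℓ) + (b : ℕ) * ((q * m : ℕ) : ZMod ℓ)) / ((q * m : ℕ) : ZMod ℓ)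
      let b' : Fin ℓ := ⟨z.val, z.val_lt⟩
      obtain ⟨r, hr⟩ : (ℓ : ℤ) ∣ s + (b : ℤ) * (q * m : ℕ) - (b' : ℤ) * (q * m : ℕ) := by
        rw [← ZMod.intCast_zmod_eq_zero_iff_dvd]
        simp only [Int.cast_sub, Int.cast_add, Int.cast_mul, Int.cast_natCast]
        rw [show (((b' : ℕ)) : ZMod ℓ) = z from ZMod.natCast_zmod_val z]
        simp only [z]
        field_simp
        ring
      have hrS : r ∈ S := by
        have h0 : r - s ∈ S := hM _ (by
          have := congrArg (fun t : ℤ => (t : ZMod (q * m))) hr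
          simp only [Int.cast_sub, Int.cast_add, Int.cast_mul, Int.cast_natCast, ZMod.natCast_self,
            mul_zero, add_zero, sub_zero, h1, one_mul] at this
          rw [Int.cast_sub, this, sub_self])
        simpa using S.add_mem h0 hsS
      refine ⟨⟨r, hrS⟩, some b', ?_, b', rfl, by linear_combination hr⟩
      simp only [heckeRepG, ModularGroup.coe_T_zpow]
      ext a a'
      fin_cases a <;> fin_cases a' <;> simp [Matrix.mul_apply, Fin.sum_univ_two]
      push_cast at hr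
      linear_combination hr
  choose r jj hjj hrel using hstep
  obtain ⟨e, C, hC, hC'⟩ := exists_shift hℓ h1 δ
  set hT := isReps_mid (q := q) (m := m) hℓ h1
  let kk : Option (Fin ℓ) → Option (Fin ℓ) := fun i => e.symm (jj (e i))
  have hco : ∀ i, hT.idx (γ ^ 2) i = kk i ∧ hT.coef (γ ^ 2) i =
      C i * ⟨_, (r (e i)).2⟩ * (C (kk i))⁻¹ := fun i => by
    refine hT.unique ?_
    have h3 := hC' (kk i)
    simp only [kk, Equiv.apply_symm_apply] at h3
    rw [hsq]
    show heckeRepG (q * m) ℓ 1 i * ((δ * ModularGroup.T ^ s * δ⁻¹ : SL(2, ℤ)) : IMat) =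
      (((C i : SL(2, ℤ)) * (δ * ModularGroup.T ^ (r (e i) : ℤ) * δ⁻¹) * (C (kk i) : SL(2, ℤ))⁻¹ :
        SL(2, ℤ)) : IMat) * heckeRepG (q * m) ℓ 1 (kk i)
    rw [Matrix.SpecialLinearGroup.coe_mul, Matrix.SpecialLinearGroup.coe_mul, ← mul_assoc,
      ← mul_assoc, hC i, mul_assoc (((C i : SL(2, ℤ)) * δ : SL(2, ℤ)) : IMat), hjj,
      ← mul_assoc, mul_assoc, h3, ← mul_assoc]
    simp only [← Matrix.SpecialLinearGroup.coe_mul]
    simp only [kk, mul_assoc]
  have hk : Function.Bijective kk := by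
    have : kk = hT.perm (γ ^ 2) := funext fun i => ((hco i).1).symm
    rw [this]
    exact (hT.perm (γ ^ 2)).bijective
  rw [show shiftT hℓ h1 x (Additive.ofMul (γ ^ 2)) = ∑ i, x (Additive.ofMul (hT.coef (γ ^ 2) i))
    from rfl]
  simp only [fun i => (hco i).2, ofMul_mul, ofMul_inv, map_add, map_neg, Finset.sum_add_distrib,
    Finset.sum_neg_distrib]
  rw [hk.sum_comp fun i => x (Additive.ofMul (C i)), add_neg_cancel_comm]
  have h5 : ∑ i, r i = (⟨ℓ * s, by simpa using S.zsmul_mem hsS (ℓ : ℤ)⟩ : S) + ⟨s, hsS⟩ := by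
    refine Subtype.ext ?_
    rw [AddSubgroup.val_finsetSum, Fintype.sum_option, AddSubgroup.coe_add]
    have hn := hrel none
    rw [Option.elim_none] at hn
    rw [hn.1]
    refine congrArg (((ℓ : ℤ) * s) + ·) (mul_right_cancel₀ (b := (ℓ : ℤ))
      (by exact_mod_cast hℓ.ne_zero) ?_)
    have hb : ∀ b : Fin ℓ, ∃ b' : Fin ℓ, jj (some b) = some b' ∧
        s + (b : ℤ) * (q * m : ℕ) = (b' : ℤ) * (q * m : ℕ) + (r (some b) : ℤ) * ℓ :=
      fun b => hrel (some b)
    choose f hf1 hf2 using hb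
    have hjb : Function.Bijective jj := by
      have : jj = fun i => e (kk (e.symm i)) := funext fun i => by simp [kk]
      rw [this]
      exact e.bijective.comp (hk.comp e.symm.bijective)
    have hfb : Function.Bijective f := Finite.injective_iff_bijective.mp fun a b hab =>
      Option.some_injective _ (hjb.1 (by rw [hf1, hf1, hab]))
    have hsum := Finset.sum_congr rfl fun b (_ : b ∈ (Finset.univ : Finset (Fin ℓ))) => hf2 b
    simp only [Finset.sum_add_distrib, Finset.sum_const, Finset.card_univ, Fintype.card_fin,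
      ← Finset.sum_mul] at hsum
    rw [hfb.sum_comp fun b : Fin ℓ => (b : ℤ)] at hsum
    rw [nsmul_eq_mul] at hsum
    linear_combination -hsum
  have h6 : ∑ i, x (Additive.ofMul (⟨_, (r (e i)).2⟩ : midGroup q m)) = Λ (∑ i, r i) := by
    rw [map_sum, ← Equiv.sum_comp e (fun i => Λ (r i))]
    rfl
  rw [h6, h5, map_add]
  have h7 : (⟨(ℓ : ℤ) * s, by simpa using S.zsmul_mem hsS (ℓ : ℤ)⟩ : S) = ℓ • (⟨s, hsS⟩ : S) :=
    Subtype.ext (by simp)
  rw [h7, map_nsmul, nsmul_eq_mul, add_mul, one_mul]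
  have h8 : x (Additive.ofMul (γ ^ 2)) = Λ ⟨s, hsS⟩ :=
    congrArg x (congrArg Additive.ofMul (Subtype.ext hsq))
  rw [h8]

/-- A coboundary of homomorphisms with values in the span of the translates of an eigenclass is
one of parabolic classes. -/
theorem exists_parG_coboundary {W : WeierstrassCurve ℤ} (hp2 : p ≠ 2) (hΔ : W.Δ ≠ 0)
    (hirr : W.ModRepIsIrreducible p) [NeZero (q * q * m)] {v : ParHom (q * q * m) (ZMod p)}
    (hv : IsRho W p (kummerGalois (q * q * m) p).galois v) (Y : SL(2, ZMod q) → HomA q m p)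
    (hY : ∀ g, Y g ∈ Submodule.span (ZMod p)
      (Set.range fun x => actL x ((pullQ q m v : ParG (midGroup q m) (ZMod p)) : HomA q m p)))
    {x : HomA q m p} (hx : ∀ g, actL g x - x = Y g) :
    ∃ x' : ParG (midGroup q m) (ZMod p), ∀ g, actL g (x' : HomA q m p) - x' = Y g := by
  haveI : (W.map (Int.castRingHom ℚ)).IsElliptic := by
    rw [WeierstrassCurve.isElliptic_iff, WeierstrassCurve.map_Δ, eq_intCast, isUnit_iff_ne_zero]
    exact_mod_cast hΔ
  haveI := isElliptic_generic W hΔ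
  obtain ⟨ℓ, hℓ, hℓS, hgood, hℓp, h1, hne⟩ := Raise.exists_prime_nonEis
    (W.map (Int.castRingHom ℚ)) (W := W) ⟨1, one_smul _ _⟩ p hp2 hirr (q * m)
    (q * q * m).primeFactors
  have hℓL : ¬ ℓ ∣ q * q * m := fun h =>
    hℓS (Nat.mem_primeFactors.mpr ⟨hℓ, h, NeZero.ne _⟩)
  let l : GoodPrime (q * q * m) := ⟨⟨ℓ, hℓ⟩, hℓL⟩
  set a : ZMod p := (W.apOfModel ℓ : ZMod p)
  set T := shiftT (p := p) hℓ h1
  have hTv : T (pullQ q m v : ParG (midGroup q m) (ZMod p)) =
      a • ((pullQ q m v : ParG (midGroup q m) (ZMod p)) : HomA q m p) := by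
    have hlN : Nat.Coprime m ℓ :=
      (hℓ.coprime_iff_not_dvd.mpr fun h => hℓL (h.mul_left _)).symm
    have hlq : (ℓ : ZMod q) = 1 := by
      simpa using congrArg (ZMod.castHom (dvd_mul_right q m) (ZMod q)) h1
    have h := (isReps_mid (q := q) (m := m) hℓ h1).eq_transfer
      (isTransfer_pullQ (M := q * m) rfl l hlN hlq v)
    rw [hecke_of_isRho (N := q * q * m) W p hp2 hΔ hv l hgood hℓp, map_zsmul] at h
    rw [show T (pullQ q m v : ParG (midGroup q m) (ZMod p)) = _ from h.symm]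
    exact AddMonoidHom.ext fun z => by simp [a, l]
  have hTY : ∀ y ∈ Submodule.span (ZMod p)
      (Set.range fun x => actL x ((pullQ q m v : ParG (midGroup q m) (ZMod p)) : HomA q m p)),
      T y = a • y := fun y hy => by
    induction hy using Submodule.span_induction with
    | mem y hy =>
      obtain ⟨z, rfl⟩ := hy
      rw [shiftT_actL, hTv, map_smul]
    | zero => rw [map_zero, smul_zero]
    | add y z _ _ h₁ h₂ => rw [map_add, h₁, h₂, smul_add]
    | smul r y _ h₁ =>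
      rw [ZMod.map_smul T r y, h₁, smul_comm]
  set c : ZMod p := (ℓ : ZMod p) + 1
  have hac : a - c ≠ 0 := sub_ne_zero.mpr hne
  have hpar : (a - c)⁻¹ • (T x - c • x) ∈ ParG (midGroup q m) (ZMod p) := fun γ hγ => by
    show (a - c)⁻¹ • ((T x - c • x) (Additive.ofMul γ)) = 0
    rw [AddMonoidHom.sub_apply, shiftT_parabolic hℓ h1 hp2 x γ hγ,
      show (c • x) (Additive.ofMul γ) = c * x (Additive.ofMul γ) from rfl, sub_self, smul_zero]
  refine ⟨⟨_, hpar⟩, fun g => ?_⟩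
  show actL g ((a - c)⁻¹ • (T x - c • x)) - (a - c)⁻¹ • (T x - c • x) = Y g
  rw [map_smul, map_sub, map_smul, ← shiftT_actL, ← smul_sub]
  have e : actL g x = x + Y g := by rw [← hx g, add_sub_cancel]
  rw [show T (actL g x) = T x + a • Y g by rw [e, map_add, hTY _ (hY g)], e, smul_add,
    show T x + a • Y g - (c • x + c • Y g) - (T x - c • x) = a • Y g - c • Y g by abel,
    ← sub_smul, smul_smul, inv_mul_cancel₀ hac, one_smul]

end Fermat.Agent.R59.NoSq
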