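import Fermat.Agent.R59.NoSq.Lines
import Mathlib.FieldTheory.Finite.GaloisField
import Mathlib.RingTheory.Norm.Defs

/-!
# S59, unit A: the Sylow subgroup of `SL₂(𝔽_q)` at an odd prime dividing `q + 1` is cyclic
-/

set_option autoImplicit false
set_option linter.style.haveILetI false
set_option linter.unusedSectionVars false

noncomputable section

namespace Fermat.Agent.R59.NoSq

open Fermat.Agent.GalRep Fermat.Agent.NewVec
open scoped MatrixGroups

variable {q : ℕ} [Fact q.Prime] [NeZero q]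

/-- The decomposition of `SL₂(𝔽_q)` into the Borel subgroup and its complement. -/
def cellMap : (ZMod q × (ZMod q)ˣ × ZMod q) ⊕ ((ZMod q)ˣ × ZMod q) → SL(2, ZMod q)
  | .inl (a, c, b) => unip q a * lowU (c : ZMod q) * unip q b
  | .inr (s, w) => torus q s * unip q w

theorem cellMap_inl (a : ZMod q) (c : (ZMod q)ˣ) (b : ZMod q) :
    (cellMap (.inl (a, c, b)) 1 0 = c) ∧ (cellMap (.inl (a, c, b)) 0 0 = 1 + a * c) ∧
      (cellMap (.inl (a, c, b)) 1 1 = c * b + 1) := by
  simp [cellMap, unip, lowU, Matrix.mul_apply, Fin.sum_univ_two]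

theorem cellMap_inr (s : (ZMod q)ˣ) (w : ZMod q) :
    (cellMap (.inr (s, w)) 1 0 = 0) ∧ (cellMap (.inr (s, w)) 0 0 = s) ∧
      (cellMap (.inr (s, w)) 0 1 = s * w) := by
  simp [cellMap, unip, torus, Matrix.mul_apply, Fin.sum_univ_two, -ZMod.inv_coe_unit]

theorem cellMap_bijective : Function.Bijective (cellMap (q := q)) := by
  refine ⟨?_, fun g => ?_⟩
  · rintro (⟨a, c, b⟩ | ⟨s, w⟩) (⟨a', c', b'⟩ | ⟨s', w'⟩) h
    · obtain ⟨e1, e2, e3⟩ := cellMap_inl a c b
      rw [h, (cellMap_inl a' c' b').1] at e1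
      rw [h, (cellMap_inl a' c' b').2.1] at e2
      rw [h, (cellMap_inl a' c' b').2.2] at e3
      obtain rfl := Units.ext e1
      obtain rfl : a' = a := mul_right_cancel₀ c'.ne_zero (add_left_cancel e2)
      obtain rfl : b' = b := mul_left_cancel₀ c'.ne_zero (add_right_cancel e3)
      rfl
    · have e1 := (cellMap_inl a c b).1
      rw [h, (cellMap_inr s' w').1] at e1
      exact absurd e1.symm c.ne_zero
    · have e1 := (cellMap_inr s w).1
      rw [h, (cellMap_inl a' c' b').1] at e1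
      exact absurd e1 c'.ne_zero
    · obtain ⟨-, e2, e3⟩ := cellMap_inr s w
      rw [h, (cellMap_inr s' w').2.1] at e2
      rw [h, (cellMap_inr s' w').2.2] at e3
      obtain rfl := Units.ext e2
      obtain rfl : w' = w := mul_left_cancel₀ s'.ne_zero e3
      rfl
  · by_cases hg : g 1 0 = 0
    · have hd : g 0 0 * g 1 1 = 1 := by
        have := g.2
        rw [Matrix.det_fin_two, hg, mul_zero, sub_zero] at this
        exact this
      have h0 := left_ne_zero_of_mul_eq_one hd
      refine ⟨.inr (Units.mk0 _ h0, g 0 1 / g 0 0), ?_⟩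
      ext i j
      fin_cases i <;> fin_cases j <;>
        simp [cellMap, unip, torus, Matrix.mul_apply, Fin.sum_univ_two, hg, -ZMod.inv_coe_unit] <;> field_simp
      linear_combination -hd
    · exact ⟨.inl (_, Units.mk0 _ hg, _), (eq_unip_low_unip hg).symm⟩

theorem card_SL2 : Nat.card SL(2, ZMod q) = q * (q - 1) * (q + 1) := by
  simp only [← Nat.card_eq_of_bijective _ cellMap_bijective, Nat.card_sum, Nat.card_prod,
    Nat.card_units, Nat.card_zmod]
  ring

/-- An element generating a Sylow subgroup. -/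
theorem exists_sylow_gen {p : ℕ} (hp : p.Prime) (hp2 : p ≠ 2) (hdvd : p ∣ q + 1) :
    ∃ (c : SL(2, ZMod q)) (k : ℕ), 0 < k ∧ orderOf c = p ^ k ∧
      ¬ p ∣ (Subgroup.zpowers c).index := by
  have hq : q.Prime := Fact.out
  have hpq1 : ¬ p ∣ q - 1 := fun h => by
    have h2 : p ∣ 2 := by
      have := Nat.dvd_sub hdvd h
      rwa [show q + 1 - (q - 1) = 2 by have := hq.two_le; omega] at this
    exact hp2 ((Nat.prime_dvd_prime_iff_eq hp Nat.prime_two).mp h2)
  have hpq : ¬ p ∣ q := fun h => by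
    have h1 : p ∣ 1 := (Nat.dvd_add_right h).mp hdvd
    exact hp.one_lt.ne' (Nat.dvd_one.mp h1)
  set k := (q + 1).factorization p with hk
  have hk0 : 0 < k := hp.factorization_pos_of_dvd (by omega) hdvd
  have hP : p ^ k ∣ q + 1 := Nat.ordProj_dvd _ _
  let K := GaloisField q 2
  letI : Fintype K := Fintype.ofFinite K
  have hKcard : Nat.card Kˣ = q ^ 2 - 1 := by
    rw [Nat.card_units, GaloisField.card q 2 (by norm_num)]
  obtain ⟨u, hu⟩ := IsCyclic.exists_generator (α := Kˣ)
  have hou : orderOf u = q ^ 2 - 1 := by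
    rw [orderOf_eq_card_of_forall_mem_zpowers hu, hKcard]
  have hsq : q ^ 2 - 1 = (q + 1) * (q - 1) := by
    rw [show q ^ 2 - 1 = q ^ 2 - 1 ^ 2 by norm_num, Nat.sq_sub_sq]
  have hPd : p ^ k ∣ q ^ 2 - 1 := hsq ▸ hP.mul_right _
  have hn0 : q ^ 2 - 1 ≠ 0 := by
    rw [hsq]; exact mul_ne_zero (by omega) (by have := hq.two_le; omega)
  set v := u ^ ((q ^ 2 - 1) / p ^ k)
  have hov : orderOf v = p ^ k := by
    rw [orderOf_pow_of_dvd (Nat.div_pos (Nat.le_of_dvd (Nat.pos_of_ne_zero hn0) hPd)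
      (pow_pos hp.pos _)).ne' (by rw [hou]; exact Nat.div_dvd_of_dvd hPd), hou, Nat.div_div_self hPd hn0]
  let b : Module.Basis (Fin 2) (ZMod q) K :=
    (Module.finBasis (ZMod q) K).reindex (finCongr (GaloisField.finrank q (by norm_num)))
  let φ : Kˣ →* Matrix (Fin 2) (Fin 2) (ZMod q) :=
    ((Algebra.leftMulMatrix b).toRingHom : K →* Matrix (Fin 2) (Fin 2) (ZMod q)).comp (Units.coeHom K)
  have hdet : (φ v).det = 1 := by
    have h1 : (φ v).det ^ p ^ k = 1 := by
      rw [← Matrix.det_pow, ← map_pow, ← hov, pow_orderOf_eq_one, map_one, Matrix.det_one]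
    have h0 : (φ v).det ≠ 0 := fun h => by
      rw [h, zero_pow (pow_ne_zero _ hp.ne_zero)] at h1
      exact zero_ne_one h1
    have h2 := ZMod.pow_card_sub_one_eq_one h0
    have h3 := (pow_gcd_eq_one (m := p ^ k) (n := q - 1)).mpr ⟨h1, h2⟩
    rwa [((hp.coprime_iff_not_dvd.mpr hpq1).pow_left k).gcd_eq_one, pow_one] at h3
  let c : SL(2, ZMod q) := ⟨φ v, hdet⟩
  let ι : SL(2, ZMod q) →* Matrix (Fin 2) (Fin 2) (ZMod q) :=
    { toFun := fun g => (g : Matrix (Fin 2) (Fin 2) (ZMod q))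
      map_one' := Matrix.SpecialLinearGroup.coe_one
      map_mul' := fun a b => Matrix.SpecialLinearGroup.coe_mul a b }
  have hc : orderOf c = p ^ k := by
    rw [← hov, ← orderOf_injective ι (fun x y h => Subtype.ext h) c, show ι c = φ v from rfl,
      orderOf_injective φ (fun x y h => Units.ext (Algebra.leftMulMatrix_injective b h)) v]
  refine ⟨c, k, hk0, hc, fun h => ?_⟩
  have hmul := (Subgroup.zpowers c).card_mul_index
  rw [Nat.card_zpowers, hc, card_SL2] at hmul
  have h4 : p ^ (k + 1) ∣ q * (q - 1) * (q + 1) := by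
    rw [pow_succ, ← hmul]; exact mul_dvd_mul_left _ h
  have h5 : p ^ (k + 1) ∣ q + 1 :=
    ((hp.coprime_iff_not_dvd.mpr fun h => (hp.dvd_mul.mp h).elim hpq hpq1).pow_left _).dvd_of_dvd_mul_left h4
  exact Nat.pow_succ_factorization_not_dvd (by omega) hp h5

end Fermat.Agent.R59.NoSq
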