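import Fermat.Agent.R59.NoSq.Descent
import Fermat.Agent.R59.NoSq.LineFun
import Fermat.Agent.R59.NoSq.Torus
import Fermat.Agent.R59.NoSq.Shift
import Fermat.Agent.GalRep.KummerGalois

/-!
# S59, unit A: classes satisfying the relations of the lines vanish when `p ∣ q + 1`
-/

set_option autoImplicit false
set_option linter.style.haveILetI false
set_option linter.unusedSectionVars false

noncomputable section

namespace Fermat.Agent.R59.NoSq

open CongruenceSubgroup
open Fermat.Agent.GalRep Fermat.Agent.GalRep.Level Fermat.Agent.NewVec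
open Fermat.Agent.Galois (GQ)
open scoped MatrixGroups

local notation "Qbar" => AlgebraicClosure ℚ

theorem exists_pow_idem {K : Type} [Monoid K] [Finite K] (a : K) :
    ∃ n, 0 < n ∧ a ^ n * a ^ n = a ^ n := by
  obtain ⟨i, j, hne, he⟩ := Finite.exists_ne_map_eq_of_infinite fun n : ℕ => a ^ n
  wlog hij : i < j generalizing i j
  · exact this j i hne.symm he.symm (by omega)
  obtain ⟨d, rfl⟩ := Nat.exists_eq_add_of_le hij.le
  have hd : 0 < d := by omega
  have hper : ∀ t n, i ≤ n → a ^ (n + t * d) = a ^ n := fun t n hn => by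
    induction t with
    | zero => simp
    | succ t ih =>
      obtain ⟨k, rfl⟩ := Nat.exists_eq_add_of_le hn
      rw [show i + k + (t + 1) * d = i + d + (k + t * d) by ring, pow_add, ← he, ← pow_add,
        ← add_assoc, ih]
  refine ⟨(i + 1) * d, by positivity, ?_⟩
  rw [← pow_add]
  exact hper (i + 1) _ (le_trans (Nat.le_succ i) (Nat.le_mul_of_pos_right _ hd))

/-- Commuting operators without common kernel detect a stable submodule. -/
theorem mem_of_forall_mem {R ι : Type} [AddCommGroup R] [Finite R] (Z : ι → Module.End ℤ R)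
    (hcomm : ∀ i j, Commute (Z i) (Z j)) (hnone : ∀ u, (∀ i, Z i u = 0) → u = 0)
    {K₀ : AddSubgroup R} (hst : ∀ i, ∀ u ∈ K₀, Z i u ∈ K₀) {χ : R} (hχ : ∀ i, Z i χ ∈ K₀) :
    χ ∈ K₀ := by
  classical
  haveI : Finite (Module.End ℤ R) := Finite.of_injective _ DFunLike.coe_injective
  let S : Finset (Module.End ℤ R) := (Set.toFinite (Set.range Z)).toFinset
  have hS : ∀ i, Z i ∈ S := fun i => (Set.toFinite (Set.range Z)).mem_toFinset.mpr ⟨i, rfl⟩
  have hSi : ∀ f ∈ S, ∃ i, Z i = f := fun f hf => (Set.toFinite (Set.range Z)).mem_toFinset.mp hf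
  -- strip off the idempotent parts
  have h1 : ∀ T : Finset (Module.End ℤ R), T ⊆ S → ∃ u, u - χ ∈ K₀ ∧
      ∀ f ∈ T, ∃ n, (f ^ n) u = 0 := fun T hT => by
    induction T using Finset.induction_on with
    | empty => exact ⟨χ, by simp, by simp⟩
    | @insert f T hf ih =>
      obtain ⟨u, hu, hun⟩ := ih ((Finset.subset_insert _ _).trans hT)
      obtain ⟨n, hn, hidem⟩ := exists_pow_idem f
      obtain ⟨i, hi⟩ := hSi f (hT (Finset.mem_insert_self f T))
      have hfu : (f ^ n) u ∈ K₀ := by
        obtain ⟨k, rfl⟩ : ∃ k, n = k + 1 := ⟨n - 1, by omega⟩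
        rw [pow_succ, Module.End.mul_apply]
        have h2 : f u ∈ K₀ := by
          rw [show u = (u - χ) + χ by abel, map_add, ← hi]
          exact K₀.add_mem (hst i _ hu) (hχ i)
        clear hidem hn
        induction k with
        | zero => simpa using h2
        | succ k ih =>
          rw [pow_succ', Module.End.mul_apply, ← hi]
          rw [← hi] at ih
          exact hst i _ ih
      refine ⟨u - (f ^ n) u, ?_, fun g hg => ?_⟩
      · rw [show u - (f ^ n) u - χ = (u - χ) - (f ^ n) u by abel]
        exact K₀.sub_mem hu hfu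
      · rcases Finset.mem_insert.mp hg with rfl | hg'
        · exact ⟨n, by rw [map_sub, ← Module.End.mul_apply, hidem, sub_self]⟩
        · obtain ⟨k, hk⟩ := hun g hg'
          obtain ⟨j, hj⟩ := hSi g (hT hg)
          refine ⟨k, ?_⟩
          have hc : g ^ k * f ^ n = f ^ n * g ^ k := by
            rw [← hi, ← hj]; exact ((hcomm j i).pow_pow k n).eq
          rw [map_sub, hk, ← Module.End.mul_apply, hc, Module.End.mul_apply, hk, map_zero, sub_zero]
  obtain ⟨u, hu, hun⟩ := h1 S subset_rfl
  -- the rest is nilpotent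
  have h2 : ∀ T : Finset (Module.End ℤ R), T ⊆ S → ∀ w : R, (∀ f ∈ S, ∃ n, (f ^ n) w = 0) → w ≠ 0 →
      ∃ y : R, y ≠ 0 ∧ (∀ f ∈ S, ∃ n, (f ^ n) y = 0) ∧ ∀ f ∈ T, f y = 0 := fun T hT => by
    induction T using Finset.induction_on with
    | empty => exact fun w hw hw0 => ⟨w, hw0, hw, by simp⟩
    | @insert f T hf ih =>
      intro w hw hw0
      obtain ⟨y, hy0, hy, hyT⟩ := ih ((Finset.subset_insert _ _).trans hT) w hw hw0
      have hex := hy f (hT (Finset.mem_insert_self f T))
      set n := Nat.find hex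
      have hn : n ≠ 0 := fun h => hy0 (by
        have := Nat.find_spec hex
        rw [show Nat.find hex = 0 from h] at this
        simpa using this)
      have hz : (f ^ (n - 1)) y ≠ 0 := Nat.find_min hex (show n - 1 < n by omega)
      have hcf : ∀ g ∈ S, ∀ k, g ^ k * f ^ (n - 1) = f ^ (n - 1) * g ^ k := fun g hg k => by
        obtain ⟨i, hi⟩ := hSi f (hT (Finset.mem_insert_self f T))
        obtain ⟨j, hj⟩ := hSi g hg
        rw [← hi, ← hj]; exact ((hcomm j i).pow_pow k (n - 1)).eq
      refine ⟨(f ^ (n - 1)) y, hz, fun g hg => ?_, fun g hg => ?_⟩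
      · obtain ⟨k, hk⟩ := hy g hg
        exact ⟨k, by rw [← Module.End.mul_apply, hcf g hg k, Module.End.mul_apply, hk, map_zero]⟩
      · rcases Finset.mem_insert.mp hg with rfl | hg'
        · rw [← Module.End.mul_apply, ← pow_succ', Nat.sub_add_cancel (by omega : 1 ≤ n)]
          exact Nat.find_spec hex
        · have e := hcf g (hT hg) 1
          rw [pow_one] at e
          rw [← Module.End.mul_apply, e, Module.End.mul_apply, hyT g hg', map_zero]
  by_contra hχ0
  have hu0 : u ≠ 0 := fun h => hχ0 (by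
    rw [h, zero_sub, neg_mem_iff] at hu
    exact hu)
  obtain ⟨y, hy0, -, hyk⟩ := h2 S subset_rfl u hun hu0
  exact hy0 (hnone y fun i => hyk _ (hS i))

section Cocycle

variable {q m p : ℕ} [Fact q.Prime] [NeZero q] [NeZero m] [Fact (Nat.Coprime q m)] [Fact p.Prime]

/-- The translate attached to a line. -/
def lineTr (L : LineA q) : SL(2, ZMod q) := (lineEquiv.symm L).elim 1 fun r => unip q (-r)

/-- The sign attached to a line. -/
def lineSgn (L : LineA q) : ℤ := (lineEquiv.symm L).elim 0 fun _ => 1

open scoped Classical in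
theorem lineSgn_mul_zLine (L M : LineA q) :
    lineSgn L * zLine (lineAct q (SemidirectProduct.inl (lineTr L)) M) =
      (if M = infA then 1 else 0) - (if M = L then 1 else 0) := by
  obtain ⟨_ | r, rfl⟩ := lineEquiv.surjective L
  · rw [lineSgn, Equiv.symm_apply_apply, Option.elim_none, zero_mul, lineEquiv_none, sub_self]
  · have hs : (SemidirectProduct.inl (unip q (-r)) : SymA q) ∈ stabInf q := by
      show (SemidirectProduct.inl (unip q (-r)) : SymA q).left 1 0 = 0
      simp [unip]
    have hne : ∀ w, (pntA w : LineA q) ≠ infA := fun w h => by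
      simpa using lineEquiv.injective (a₁ := some w) (a₂ := none) h
    have hinj : ∀ w w' : ZMod q, (pntA w : LineA q) = pntA w' ↔ w = w' := fun w w' =>
      ⟨fun h => by simpa using lineEquiv.injective (a₁ := some w) (a₂ := some w') h, fun h => by rw [h]⟩
    simp only [lineSgn, lineTr, Equiv.symm_apply_apply, Option.elim_some, one_mul]
    obtain ⟨_ | w, rfl⟩ := lineEquiv.surjective M
    · rw [lineEquiv_none, lineEquiv_some, lineAct_inf hs, zLine, if_pos rfl, if_pos rfl,
        if_neg (hne r).symm, sub_zero]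
    · rw [lineEquiv_some, lineEquiv_some, lineAct_pnt _ hs, zLine, if_neg (hne _), if_neg (hne _)]
      simp only [SemidirectProduct.left_inl, SemidirectProduct.right_inl]
      simp only [hinj]
      have e : (unip q (-r)) 0 0 * ((1 : (ZMod q)ˣ) : ZMod q) * w / (unip q (-r)) 1 1 +
          (unip q (-r)) 0 1 / (unip q (-r)) 1 1 = w - r := by
        simp [unip, sub_eq_add_neg]
      rw [e]
      by_cases hw : w = r
      · rw [if_pos (sub_eq_zero.mpr hw), if_pos hw]; norm_num
      · rw [if_neg fun h => hw (sub_eq_zero.mp h), if_neg hw]; norm_num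

/-- The class attached to a line. -/
def lineVal (P : ParG (midGroup q m) (ZMod p)) (L : LineA q) : ParG (midGroup q m) (ZMod p) :=
  lineSgn L • act q m (lineTr L) P

variable {P : ParG (midGroup q m) (ZMod p)}
  (hrel : ∀ {α : Type} [Fintype α] (x : α → SL(2, ZMod q)),
    (∀ L L' : LineA q, (p : ℤ) ∣ (∑ a, zLine (lineAct q (SemidirectProduct.inl (x a)) L)) -
      ∑ a, zLine (lineAct q (SemidirectProduct.inl (x a)) L')) → ∑ a, act q m (x a) P = 0)

include hrel in
theorem sum_zsmul_eq_zero {ι : Type} [Fintype ι] (n : ι → ℤ) (x : ι → SL(2, ZMod q))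
    (h : ∀ L L' : LineA q, (p : ℤ) ∣ (∑ i, n i * zLine (lineAct q (SemidirectProduct.inl (x i)) L)) -
      ∑ i, n i * zLine (lineAct q (SemidirectProduct.inl (x i)) L')) :
    ∑ i, n i • act q m (x i) P = 0 := by
  have h1 := hrel (α := Σ i, Fin ((n i : ZMod p).val)) (fun a => x a.1) fun L L' => by
    simp only [Fintype.sum_sigma, Finset.sum_const, Finset.card_univ, Fintype.card_fin]
    rw [← ZMod.intCast_zmod_eq_zero_iff_dvd]
    have h2 := (ZMod.intCast_zmod_eq_zero_iff_dvd _ _).mpr (h L L')
    push_cast at h2 ⊢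
    simpa using h2
  simp only [Fintype.sum_sigma, Finset.sum_const, Finset.card_univ, Fintype.card_fin] at h1
  rw [← h1]
  exact Finset.sum_congr rfl fun i _ => (val_smul_intCast nsmul_parG (n i) _).symm

include hrel in
/-- The translates of the classes of the lines. -/
theorem act_lineVal (g : SL(2, ZMod q)) (L : LineA q) :
    act q m g (lineVal P L) =
      lineVal P (lineAct q (SemidirectProduct.inl g⁻¹) L) -
        lineVal P (lineAct q (SemidirectProduct.inl g⁻¹) infA) := by
  classical
  set A := lineAct q (SemidirectProduct.inl g⁻¹) L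
  set B := lineAct q (SemidirectProduct.inl g⁻¹) (infA : LineA q)
  have h := sum_zsmul_eq_zero hrel ![lineSgn L, -lineSgn A, lineSgn B]
    ![lineTr L * g, lineTr A, lineTr B] fun M M' => by
      suffices h : ∀ M, ∑ i, ![lineSgn L, -lineSgn A, lineSgn B] i * zLine (lineAct q
          (SemidirectProduct.inl (![lineTr L * g, lineTr A, lineTr B] i)) M) = 0 by
        rw [h, h, sub_self]; exact dvd_zero _
      intro M
      simp only [Fin.sum_univ_three, Matrix.cons_val_zero, Matrix.cons_val_one, Matrix.cons_val]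
      rw [neg_mul, map_mul, map_mul, Equiv.Perm.mul_apply, lineSgn_mul_zLine, lineSgn_mul_zLine,
        lineSgn_mul_zLine]
      have e : ∀ L₀ : LineA q, (lineAct q (SemidirectProduct.inl g) M = L₀ ↔
          M = lineAct q (SemidirectProduct.inl g⁻¹) L₀) := fun L₀ => by
        rw [map_inv, map_inv]
        exact (Equiv.eq_symm_apply (lineAct q (SemidirectProduct.inl g))).symm
      simp only [e]
      abel
  simp only [Fin.sum_univ_three, Matrix.cons_val_zero, Matrix.cons_val_one, Matrix.cons_val,
    neg_smul] at h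
  rw [lineVal, map_zsmul, act_act, ← sub_eq_zero]
  rw [← h, lineVal, lineVal]
  abel

/-- The cocycle. -/
def cocA (P : ParG (midGroup q m) (ZMod p)) (g : SL(2, ZMod q)) : ParG (midGroup q m) (ZMod p) :=
  lineVal P (lineAct q (SemidirectProduct.inl g⁻¹) infA)

theorem lineVal_inf : lineVal P (infA : LineA q) = 0 := by
  rw [lineVal, show lineSgn (infA : LineA q) = 0 by
    rw [lineSgn, show (infA : LineA q) = lineEquiv none from rfl, Equiv.symm_apply_apply]; rfl,
    zero_smul]

theorem lineVal_pnt (r : ZMod q) : lineVal P (pntA r) = act q m (unip q (-r)) P := by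
  rw [lineVal, lineSgn, lineTr, show (pntA r : LineA q) = lineEquiv (some r) from rfl,
    Equiv.symm_apply_apply, Option.elim_some, Option.elim_some, one_smul]

include hrel in
theorem cocA_mul (h g : SL(2, ZMod q)) : cocA P (h * g) = act q m g (cocA P h) + cocA P g := by
  rw [cocA, cocA, cocA, act_lineVal hrel, sub_add_cancel, mul_inv_rev, map_mul, map_mul,
    Equiv.Perm.mul_apply]

theorem cocA_borel {g : SL(2, ZMod q)} (hg : g 1 0 = 0) : cocA P g = 0 := by
  rw [cocA, lineAct_inf, lineVal_inf]
  show (SemidirectProduct.inl g⁻¹ : SymA q).left 1 0 = 0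
  simp [Matrix.SpecialLinearGroup.coe_inv, Matrix.adjugate_fin_two, hg]

include hrel in
theorem cocA_one : cocA P 1 = 0 := cocA_borel (by simp)

include hrel in
theorem sum_act_cocA (c : SL(2, ZMod q)) {n : ℕ} (hn : c ^ n = 1) :
    ∑ i ∈ Finset.range n, act q m (c ^ i) (cocA P c) = 0 := by
  have h : ∀ k, ∑ i ∈ Finset.range k, act q m (c ^ i) (cocA P c) = cocA P (c ^ k) := fun k => by
    induction k with
    | zero => rw [Finset.sum_range_zero, pow_zero, cocA_one hrel]
    | succ k ih => rw [Finset.sum_range_succ, ih, pow_succ', cocA_mul hrel c (c ^ k), add_comm]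
  rw [h n, hn, cocA_one hrel]

theorem cocA_mem_span (g : SL(2, ZMod q)) :
    ((cocA P g : ParG (midGroup q m) (ZMod p)) : HomA q m p) ∈ Submodule.span (ZMod p)
      (Set.range fun x => actL x (P : HomA q m p)) := by
  rw [cocA, lineVal, AddSubgroupClass.coe_zsmul, coe_act]
  exact zsmul_mem (Submodule.subset_span (Set.mem_range_self _)) _

/-- The action of Galois elements on the classes of the lines. -/
theorem galG_lineVal (h : GQ) (v : ParHom (q * q * m) (ZMod p)) (L : LineA q) :
    galG (isLevel_mid q m) p h (lineVal (pullQ q m v) L) =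
      lineVal (pullQ q m ((kummerGalois (q * q * m) p).galois h v))
        (lineAct q (SemidirectProduct.inr (cycM q h)) L) := by
  have hs : (SemidirectProduct.inr (cycM q h) : SymA q) ∈ stabInf q := by
    show (SemidirectProduct.inr (cycM q h) : SymA q).left 1 0 = 0
    simp
  obtain ⟨_ | r, rfl⟩ := lineEquiv.surjective L
  · rw [lineEquiv_none, lineAct_inf hs, lineVal_inf, lineVal_inf, map_zero]
  · rw [lineEquiv_some, lineVal_pnt, act_galG, pullQ_galG, lineAct_pnt _ hs, lineVal_pnt]
    congr 2
    ext i j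
    fin_cases i <;> fin_cases j <;> simp [unip, conjA_apply, -ZMod.inv_coe_unit]

theorem lineVal_lin (u w : ParG (midGroup q m) (ZMod p)) (L : LineA q) :
    lineVal (u + w) L = lineVal u L + lineVal w L := by
  rw [lineVal, lineVal, lineVal, map_add, smul_add]

theorem lineVal_nsmul (k : ℕ) (u : ParG (midGroup q m) (ZMod p)) (L : LineA q) :
    lineVal (k • u) L = k • lineVal u L := by
  rw [lineVal, lineVal, map_nsmul, smul_comm]

/-- The twisted point. -/
theorem inr_act_inf (a : (ZMod q)ˣ) (g : SL(2, ZMod q)) :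
    lineAct q (SemidirectProduct.inr a) (lineAct q (SemidirectProduct.inl (conjA a⁻¹ g)⁻¹) infA) =
      lineAct q (SemidirectProduct.inl g⁻¹) infA := by
  have hs : (SemidirectProduct.inr a : SymA q) ∈ stabInf q := by
    show (SemidirectProduct.inr a : SymA q).left 1 0 = 0
    simp
  have e : (SemidirectProduct.inr a : SymA q) * SemidirectProduct.inl (conjA a⁻¹ g)⁻¹ =
      SemidirectProduct.inl g⁻¹ * SemidirectProduct.inr a := by
    refine SemidirectProduct.ext ?_ ?_
    · rw [← map_inv (conjA a⁻¹) g, mul_left_eq, mul_left_eq]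
      simp only [SemidirectProduct.left_inr, SemidirectProduct.right_inr,
        SemidirectProduct.left_inl, SemidirectProduct.right_inl, conjA_one, one_mul, mul_one,
        conjA_conjA, mul_inv_cancel]
    · simp
  rw [← Equiv.Perm.mul_apply, ← map_mul, e, map_mul, Equiv.Perm.mul_apply, lineAct_inf hs]

attribute [local irreducible] Fermat.Agent.GalRep.Level.galG Fermat.Agent.NewVec.act

theorem act_galG_inv (h : GQ) (g : SL(2, ZMod q)) (y : ParG (midGroup q m) (ZMod p)) :
    act q m g (galG (isLevel_mid q m) p h y) =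
      galG (isLevel_mid q m) p h (act q m (conjA (cycM q h)⁻¹ g) y) := by
  rw [act_galG, conjA_conjA, mul_inv_cancel, conjA_one]

/-- The operators preserve invariant classes. -/
theorem act_zOp_of_fixed {y : ParG (midGroup q m) (ZMod p)} (hy : ∀ g, act q m g y = y) (h : GQ)
    (g : SL(2, ZMod q)) :
    act q m g (zOp p (galG (isLevel_mid q m) p) h y) = zOp p (galG (isLevel_mid q m) p) h y := by
  simp only [zOp_apply, map_add, map_nsmul]
  rw [act_galG_inv h, act_galG_inv h⁻¹, hy, hy]

theorem combine_eq {K : Type} [AddCommGroup K] {a b A B C D E : K} (h₁ : a = A + C)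
    (h₂ : b = B + D) {k : ℕ} (h₃ : E = C + k • D) (k' : ℕ) (hk : k' = k := by rfl) :
    a + k' • b = (A + k • B) + E := by
  subst hk
  rw [h₁, h₂, h₃, smul_add]
  abel

/-- The operators act on the coboundaries through the class. -/
theorem act_zOp_of_coboundary {v : ParHom (q * q * m) (ZMod p)} [NeZero (q * q * m)]
    {x : ParG (midGroup q m) (ZMod p)}
    (hx : ∀ g, act q m g x = x + cocA (pullQ q m v) g) (h : GQ) (g : SL(2, ZMod q)) :
    act q m g (zOp p (galG (isLevel_mid q m) p) h x) = zOp p (galG (isLevel_mid q m) p) h x +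
      cocA (pullQ q m (zOp p (kummerGalois (q * q * m) p).galois h v)) g := by
  have e2 : ∀ h : GQ, galG (isLevel_mid q m) p h (cocA (pullQ q m v) (conjA (cycM q h)⁻¹ g)) =
      cocA (pullQ q m ((kummerGalois (q * q * m) p).galois h v)) g := fun h => by
    simp only [cocA]
    rw [galG_lineVal, inr_act_inf]
  have e3 : cocA (pullQ q m (zOp p (kummerGalois (q * q * m) p).galois h v)) g =
      cocA (pullQ q m ((kummerGalois (q * q * m) p).galois h v)) g + (omg p h).val •
        cocA (pullQ q m ((kummerGalois (q * q * m) p).galois h⁻¹ v)) g := by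
    simp only [cocA]
    rw [zOp_apply, map_add, map_nsmul, lineVal_lin, lineVal_nsmul]
  have a1 : ∀ h : GQ, act q m g (galG (isLevel_mid q m) p h x) =
      galG (isLevel_mid q m) p h x +
        cocA (pullQ q m ((kummerGalois (q * q * m) p).galois h v)) g := fun h => by
    rw [act_galG_inv h, hx, map_add (galG (isLevel_mid q m) p h)]
    exact congrArg _ (e2 h)
  refine Eq.trans ?_ (combine_eq (a1 h) (a1 h⁻¹) e3 (omg p h).val)
  rw [zOp_apply, map_add, map_nsmul]

end Cocycle

section Vanish

attribute [local irreducible] Fermat.Agent.GalRep.Level.galG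

variable {W : WeierstrassCurve ℤ} {p q m : ℕ} [Fact p.Prime] [Fact q.Prime] [NeZero q] [NeZero m]
  [Fact (Nat.Coprime q m)] {s₀ : GQ}

set_option maxHeartbeats 1600000 in
/-- A class whose translates satisfy the relations of the lines has trivial pullback. -/
theorem Setting.pullQ_eq_zero (S : Setting W p q m s₀) (hirr : W.ModRepIsIrreducible p)
    (h3 : p = 3 → ∃ r : ℕ, r.Prime ∧ r ∣ m ∧ r % 3 = 2) (hdvd : p ∣ q + 1)
    {v : ParHom (q * q * m) (ZMod p)} (hv : IsRho W p (kummerGalois (q * q * m) p).galois v)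
    (hrel : ∀ {α : Type} [Fintype α] (x : α → SL(2, ZMod q)),
      (∀ L L' : LineA q, (p : ℤ) ∣ (∑ a, zLine (lineAct q (SemidirectProduct.inl (x a)) L)) -
        ∑ a, zLine (lineAct q (SemidirectProduct.inl (x a)) L')) →
      ∑ a, act q m (x a) (pullQ q m v) = 0) :
    pullQ q m v = 0 := by
  classical
  haveI := isElliptic_generic W S.delta
  haveI : NeZero (q * m) := ⟨mul_ne_zero (NeZero.ne q) (NeZero.ne m)⟩
  haveI : NeZero (q * q * m) :=
    ⟨mul_ne_zero (mul_ne_zero (NeZero.ne q) (NeZero.ne q)) (NeZero.ne m)⟩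
  have hp : p.Prime := Fact.out
  have hq : q.Prime := Fact.out
  set P := pullQ q m v with hP
  -- the cyclic Sylow subgroup
  obtain ⟨c, k, -, hc, hidx⟩ := exists_sylow_gen (q := q) hp S.p_ne_two hdvd
  obtain ⟨g, hgc, hg⟩ : ∃ g : SL(2, ℤ), red q g = c ∧ g ∈ Gamma0 m :=
    ⟨_, red_liftQ q m c, liftQ_mem q m c⟩
  have hN : ∑ i ∈ Finset.range (p ^ k), act q m (c ^ i) (cocA P c) = 0 :=
    sum_act_cocA hrel c (by rw [← hc, pow_orderOf_eq_one])
  -- the relation at `s₀`
  have hvs := congrArg (pullQ q m) (hv s₀)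
  rw [zOp_apply, S.omg_eq] at hvs
  haveI : Fact (1 < p) := ⟨hp.one_lt⟩
  rw [ZMod.val_one, one_smul, map_add, map_nsmul, ← pullQ_galG, ← pullQ_galG] at hvs
  have hY0 : galG (isLevel_mid q m) p s₀ (cocA P c) + galG (isLevel_mid q m) p s₀⁻¹ (cocA P c) =
      (trE W p s₀).val • cocA P c := by
    rw [cocA, lineVal, map_zsmul, map_zsmul, S.cycq _ _ s₀ (Or.inl rfl),
      S.cycq _ _ s₀⁻¹ (Or.inr rfl), ← smul_add, ← map_add, hP, hvs, map_nsmul, smul_comm]
  have hα : (cocA P c : Additive (midGroup q m) →+ ZMod p)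
      (Additive.ofMul ⟨g ^ (p ^ k), pow_mem_mid hc hg hgc⟩) = 0 := by
    have hsum : ∑ i ∈ Finset.range (p ^ k), act q m (red q g ^ i) (cocA P c) = 0 := by
      rw [hgc]; exact hN
    have h1 := galG_cycle_value (cocA P c) S.cyc S.roots hg (pow_mem_mid hc hg hgc) hsum
    have h2 := galG_cycle_value (cocA P c) (s := s₀⁻¹) (by rw [map_inv, S.cyc, inv_one])
      (fun z hz => by
        conv_lhs => rw [← S.roots z hz]
        exact s₀.symm_apply_apply z) hg (pow_mem_mid hc hg hgc) hsum
    have h4 := congrArg (fun y : ParG (midGroup q m) (ZMod p) =>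
      (y : Additive (midGroup q m) →+ ZMod p) (Additive.ofMul ⟨g ^ (p ^ k), pow_mem_mid hc hg hgc⟩)) hY0
    simp only [Submodule.coe_add, AddMonoidHom.add_apply, h1, h2,
      Submodule.coe_smul_of_tower] at h4
    set α := (cocA P c : Additive (midGroup q m) →+ ZMod p)
      (Additive.ofMul ⟨g ^ (p ^ k), pow_mem_mid hc hg hgc⟩)
    change α + α = (trE W p s₀).val • α at h4
    rw [nsmul_eq_mul, ZMod.natCast_zmod_val] at h4
    exact (mul_eq_zero.mp (by linear_combination h4 : (2 - trE W p s₀) * α = 0)).resolve_left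
      (sub_ne_zero.mpr S.tr_ne.symm)
  -- the coboundary
  obtain ⟨x₀, hx₀⟩ := exists_coboundary S.p_ne_two h3 hc hg hgc
    ((cocA P c : ParG (midGroup q m) (ZMod p)) : HomA q m p) (by
      simpa only [AddSubmonoidClass.coe_finsetSum, coe_act, ZeroMemClass.coe_zero] using
        congrArg (Subtype.val : ParG (midGroup q m) (ZMod p) → HomA q m p) hN) hα
  obtain ⟨x₁, hx₁⟩ := exists_coboundary_of_index (fun g => ((cocA P g : ParG (midGroup q m) (ZMod p)) : HomA q m p))
    (fun a b => by
      have := congrArg (Subtype.val : ParG (midGroup q m) (ZMod p) → HomA q m p)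
        (cocA_mul hrel a b)
      simpa [coe_act] using this) hidx hx₀
  obtain ⟨x, hx⟩ := exists_parG_coboundary S.p_ne_two S.delta hirr hv _ cocA_mem_span hx₁
  have hxY : ∀ g, act q m g x - x = cocA P g := fun g => Subtype.ext (by
    rw [AddSubgroupClass.coe_sub, coe_act]; exact hx g)
  -- descent to level `qm`
  have hbor : ∀ (y : (ZMod q)ˣ × ZMod q), act q m (torus q y.1 * unip q y.2) x = x := fun y => by
    rw [← sub_eq_zero, hxY, cocA_borel]
    simp [torus, unip, Matrix.mul_apply, Fin.sum_univ_two, -ZMod.inv_coe_unit]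
  set r := Fintype.card ((ZMod q)ˣ × ZMod q) with hr
  have hr0 : (r : ZMod p) ≠ 0 := fun h => by
    rw [hr, Fintype.card_prod, ZMod.card_units, ZMod.card, ZMod.natCast_eq_zero_iff] at h
    rcases hp.dvd_mul.mp h with h' | h'
    · have h2 : p ∣ 2 := by
        have := Nat.dvd_sub hdvd h'
        rwa [show q + 1 - (q - 1) = 2 by have := hq.two_le; omega] at this
      exact S.p_ne_two ((Nat.prime_dvd_prime_iff_eq hp Nat.prime_two).mp h2)
    · exact S.q_ne ((Nat.prime_dvd_prime_iff_eq hp hq).mp h').symm
  set χ : ParHom (q * m) (ZMod p) := ((r : ZMod p)⁻¹).val • corH q m x with hχ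
  have hres : resH q m χ = x := by
    rw [hχ, map_nsmul, resH_corH, sumBorel, AddMonoidHom.finsetSum_apply,
      Finset.sum_congr rfl fun y _ => hbor y, Finset.sum_const, Finset.card_univ, ← hr, ← mul_smul]
    conv_rhs => rw [← one_smul ℕ x]
    exact smul_congr nsmul_parG (by
      rw [Nat.cast_mul, ZMod.natCast_zmod_val, inv_mul_cancel₀ hr0, Nat.cast_one]) _
  clear_value χ
  clear hχ
  -- the classes with invariant restriction
  let K₀ : AddSubgroup (ParHom (q * m) (ZMod p)) :=
    { carrier := {u | ∀ g, act q m g (resH q m u) = resH q m u}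
      zero_mem' := fun g => by simp
      add_mem' := fun ha hb g => by rw [map_add, map_add, ha g, hb g]
      neg_mem' := fun ha g => by rw [map_neg, map_neg, ha g] }
  let Z : GQ → Module.End ℤ (ParHom (q * m) (ZMod p)) := fun h =>
    (zOp p (kummerGalois (q * m) p).galois h).toIntLinearMap -
      ((trE W p h).val : Module.End ℤ (ParHom (q * m) (ZMod p)))
  have hZ : ∀ h u, Z h u = zOp p (kummerGalois (q * m) p).galois h u - (trE W p h).val • u :=
    fun h u => rfl
  have hmem : χ ∈ K₀ := by
    refine mem_of_forall_mem Z (fun a b => ?_) (fun u hu => S.none u fun h => ?_) ?_ fun h => ?_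
    · refine Commute.sub_left (Commute.sub_right ?_ (Nat.cast_commute _ _).symm) (Nat.cast_commute _ _)
      exact LinearMap.ext fun u => by
        have hg := galois_zOp (N := q * m) W p S.p_ne_two S.delta b
        simp only [Module.End.mul_apply, AddMonoidHom.coe_toIntLinearMap]
        rw [zOp_apply p _ a, zOp_apply p _ a, hg, hg,
          ← map_nsmul, ← map_add]
    · have := hu h
      rwa [hZ, sub_eq_zero] at this
    · intro h u hu g
      rw [hZ, map_sub, map_nsmul, resH_zOp, map_sub, map_nsmul, act_zOp_of_fixed hu h g, hu g]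
    · intro g
      have e : ∀ g, act q m g x = x + cocA (pullQ q m v) g := fun g => by
        rw [← hxY g, add_sub_cancel]
      have e3 : cocA (pullQ q m (zOp p (kummerGalois (q * q * m) p).galois h v)) g =
          (trE W p h).val • cocA (pullQ q m v) g := by
        rw [hv h, map_nsmul, cocA, cocA, lineVal_nsmul]
      rw [hZ, map_sub, map_nsmul, resH_zOp, hres, map_sub, map_nsmul,
        act_zOp_of_coboundary e h g, e g, e3, smul_add]
      abel
  -- conclusion
  have hcoc : ∀ g, cocA P g = 0 := fun g => by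
    rw [← hxY g, ← hres, hmem g, sub_self]
  let S₁ : SL(2, ZMod q) := ⟨!![0, -1; 1, 0], by simp [Matrix.det_fin_two_of]⟩
  have hpt : lineAct q (SemidirectProduct.inl (unip q 0 * S₁)) (infA : LineA q) = pntA 0 := by
    rw [infA, lineAct_mk, mul_one]
    rfl
  have h0 := hcoc (unip q 0 * S₁)⁻¹
  rwa [cocA, inv_inv, hpt, lineVal_pnt, neg_zero, unip_zero, act_one] at h0

end Vanish

end Fermat.Agent.R59.NoSq
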