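/-
S59, unit A: a square factor of the level away from `p` can be removed.

For a semistable `W` the representation on `W[p]` is unipotent on inertia at every `q ≠ p`, so an
eigenclass modulo `p` of level `q²m` yields one that is fixed by inertia at `q`; the regular model
of the curve of full level `q` then pushes the system of eigenvalues down to level `qm`.
-/
import Fermat.Agent.R59.NoSq.Pi
import Fermat.Agent.R59.NoSq.Level
import Fermat.Agent.R59.Mazur.Eigen
import Fermat.Agent.R59.Mazur.Three.Lift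
import Fermat.Prelude.Def_FLTPrelim_ModularRep

set_option autoImplicit false
set_option linter.style.haveILetI false

namespace Fermat.Agent.R59

open WeierstrassCurve WeierstrassCurve.Affine.Point
open scoped WeierstrassCurve.Affine
open Fermat.Agent.GalRep Fermat.Agent.GalRep.Level Fermat.Agent.NewVec
open Fermat.Agent.Galois (GQ)
open Fermat.Agent.R59.NoSq (Setting IsRho)

/-- A nonzero class with the relations gives residual modularity. -/
theorem isResiduallyModular_of_isRho (W : WeierstrassCurve ℤ) (hΔ : W.Δ ≠ 0)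
    {p : ℕ} [Fact p.Prime] (hp2 : p ≠ 2) {L : ℕ} [NeZero L]
    (h3 : p = 3 → ∃ r, r.Prime ∧ r ∣ L ∧ r % 3 = 2)
    {y : ParHom L (ZMod p)} (hy : IsRho W p (kummerGalois L p).galois y) (hy0 : y ≠ 0) :
    W.IsResiduallyModularOfLevel p L := by
  classical
  have hp : p.Prime := Fact.out
  haveI : NeZero p := ⟨hp.ne_zero⟩
  haveI := isElliptic_generic W hΔ
  set S : Finset ℕ := insert p (W.Δ.natAbs.primeFactors ∪ L.primeFactors) with hSdef
  have hmS : ∀ r : ℕ, r.Prime → r ∣ L → r ∈ S := fun r hr hrL =>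
    Finset.mem_insert_of_mem (Finset.mem_union_right _
      (Nat.mem_primeFactors.mpr ⟨hr, hrL, NeZero.ne L⟩))
  have hS : ∀ r : ℕ, r.Prime → r ∉ S → W.IsGoodPrimeFor r ∧ r ≠ p := fun r hr hrS =>
    ⟨fun h => hrS (Finset.mem_insert_of_mem (Finset.mem_union_left _
      (Nat.mem_primeFactors.mpr ⟨hr, Int.natCast_dvd.mp h, Int.natAbs_ne_zero.mpr hΔ⟩))),
      fun h => hrS (h ▸ Finset.mem_insert_self _ _)⟩
  have heig : ∀ l : GoodPrime L, (l : ℕ) ∉ S → heckeHomAt l y = W.apOfModel (l : ℕ) • y :=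
    fun l hl => NoSq.hecke_of_isRho W p hp2 hΔ hy l (hS _ l.1.2 hl).1 (hS _ l.1.2 hl).2
  obtain ⟨θ, hθ⟩ : ∃ θ : CuspForm.heckeAlgebra L 2 (↑S : Set ℕ) →+* ZMod p,
      ∀ (r : ℕ) (hr : r.Prime) (hrm : ¬ r ∣ L) (hrS : r ∉ (↑S : Set ℕ)),
        θ (CuspForm.heckeAlgebra.T hr hrm hrS) = (W.apOfModel r : ZMod p) := by
    by_cases hp3 : p = 3
    · obtain ⟨r, hr, hrL, hr3⟩ := h3 hp3
      exact exists_theta_of_eigen_noTors S hmS W.apOfModel hy0 (noTors_of_neat hr hrL hr3 hp2) heig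
    · have hp5 : 5 ≤ p := by
        have := hp.two_le
        by_contra h
        interval_cases p <;> first | omega | exact absurd hp (by decide)
      exact LL.Mazur.exists_theta_of_eigen hp5 S hmS W.apOfModel hy0 heig
  exact residuallyModular_of_theta p W hp2 hΔ S hS hmS θ hθ

/-- **Unit A.** A residually modular system of level `q²m` occurs at level `qm`. -/
theorem isResiduallyModular_of_sq_level (W : WeierstrassCurve ℤ) (hΔ : W.Δ ≠ 0)
    (hW : W.IsSemistableModel) {p : ℕ} [Fact p.Prime] (hp2 : p ≠ 2)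
    (hirr : W.ModRepIsIrreducible p) {q m : ℕ} (hq : q.Prime) (hqp : q ≠ p) (hqm : ¬ q ∣ m)
    (h3 : p = 3 → ∃ r, r.Prime ∧ r ∣ m ∧ r % 3 = 2)
    (hres : W.IsResiduallyModularOfLevel p (q * q * m)) :
    W.IsResiduallyModularOfLevel p (q * m) := by
  classical
  haveI : Fact q.Prime := ⟨hq⟩
  haveI : NeZero q := ⟨hq.ne_zero⟩
  have hm : m ≠ 0 := fun h => hqm (h ▸ dvd_zero q)
  haveI : NeZero m := ⟨hm⟩
  haveI : Fact (Nat.Coprime q m) := ⟨hq.coprime_iff_not_dvd.mpr hqm⟩
  haveI : NeZero (q * m) := ⟨mul_ne_zero hq.ne_zero hm⟩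
  haveI : NeZero (q * q * m) := ⟨mul_ne_zero (mul_ne_zero hq.ne_zero hq.ne_zero) hm⟩
  by_contra hcon
  have hnone : ∀ y : ParHom (q * m) (ZMod p),
      IsRho W p (kummerGalois (q * m) p).galois y → y = 0 := fun y hy => by
    by_contra hy0
    refine hcon (isResiduallyModular_of_isRho W hΔ hp2 (fun h => ?_) hy hy0)
    obtain ⟨r, hr, hrm, hr3⟩ := h3 h
    exact ⟨r, hr, hrm.mul_left q, hr3⟩
  -- a class fixed by inertia
  obtain ⟨A, hA⟩ := Galois.exists_liesOverPrime hq
  obtain ⟨x, hx, hx0⟩ := NoSq.exists_isRho W p hp2 hΔ hres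
  obtain ⟨v, hv, hv0, hfix⟩ := NoSq.exists_fixed_isRho W p hp2 hΔ hW hq hqp hA
    (fun z : ParHom (q * q * m) (ZMod p) => NoSq.nsmul_parG z) hx hx0
  -- the auxiliary level and the element `s₀`
  obtain ⟨N, hN, hcomb⟩ := NoSq.exists_comb_level (W := W) (p := p) (q := q) (m := m) hA hirr
  haveI := hN
  haveI : NeZero (q * (q * q * m)) := ⟨mul_ne_zero hq.ne_zero (NeZero.ne _)⟩
  haveI : NeZero (q * N * (q * (q * q * m))) := ⟨mul_ne_zero (NeZero.ne _) (NeZero.ne _)⟩
  obtain ⟨s₀, hs, hω, htr, hroots⟩ :=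
    NoSq.exists_s0 W p hp2 hΔ hirr (q * N * (q * (q * q * m)))
  have hsd : ∀ d : ℕ, [NeZero d] → d ∣ q * N * (q * (q * q * m)) → cycM d s₀ = 1 :=
    fun d _ hd => by rw [← cycM_castHom hd s₀, hs, map_one]
  have S : Setting W p q m s₀ :=
    { p_ne_two := hp2
      delta := hΔ
      q_prime := hq
      q_ne := hqp
      cyc := hsd _ (dvd_mul_of_dvd_right (dvd_mul_left _ _) _)
      roots := hroots
      omg_eq := hω
      tr_ne := htr
      none := hnone }
  -- the pullback vanishes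
  have hpull : pullQ q m v = 0 := by
    by_cases hdvd : p ∣ q + 1
    · exact S.pullQ_eq_zero hirr h3 hdvd hv fun x hθ =>
        hcomb S (hsd _ (dvd_mul_right _ _)) hv hfix x (Or.inr hθ)
    · have h := hcomb S (hsd _ (dvd_mul_right _ _)) hv hfix (fun _ : Unit => 1) (Or.inl hdvd)
      rwa [Finset.sum_const, Finset.card_univ, Fintype.card_unit, one_smul, act_one] at h
  exact hv0 (NoSq.eq_zero_of_pullQ_eq_zero S (hsd _ (dvd_mul_left _ _)) hv hpull)

end Fermat.Agent.R59
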