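import Fermat.Agent.R59.NoSq.Descent
import Mathlib.GroupTheory.PGroup

/-!
# S59, unit A: the sums over the Borel orbits of a class with the relations vanish
-/

set_option autoImplicit false
set_option linter.style.haveILetI false
set_option linter.unusedSectionVars false

noncomputable section

namespace Fermat.Agent.R59.NoSq

open CongruenceSubgroup
open Fermat.Agent.GalRep Fermat.Agent.GalRep.Level Fermat.Agent.NewVec
open Fermat.Agent.Galois (GQ)
open scoped MatrixGroups

variable {W : WeierstrassCurve ℤ} {p q m : ℕ} [Fact p.Prime] [NeZero q] [NeZero m]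
  [Fact (Nat.Coprime q m)] {s₀ : GQ}

/-- The exponent of the prime-to-`p` part of `(ℤ/q)ˣ`. -/
def coExp (q p : ℕ) : ℕ := (q - 1) / p ^ (q - 1).factorization p

/-- The prime-to-`p` part of `(ℤ/q)ˣ`. -/
def coPart (q p : ℕ) [NeZero q] : Finset (ZMod q)ˣ :=
  Finset.univ.filter fun a => a ^ coExp q p = 1

theorem mem_coPart {a : (ZMod q)ˣ} : a ∈ coPart q p ↔ a ^ coExp q p = 1 := by
  simp [coPart]

variable (p) in
theorem coprime_coExp (hq : q.Prime) : (p ^ (q - 1).factorization p).Coprime (coExp q p) :=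
  ((Nat.coprime_ordCompl Fact.out (by have := hq.two_le; omega : q - 1 ≠ 0))).pow_left _

variable (p) in
/-- Every unit is a `p`-part element times a prime-to-`p` element. -/
theorem exists_mul_coPart (hq : q.Prime) (a : (ZMod q)ˣ) : ∃ b c : (ZMod q)ˣ,
    b ^ (p ^ (q - 1).factorization p) = 1 ∧ c ∈ coPart q p ∧ b * c = a := by
  haveI : Fact q.Prime := ⟨hq⟩
  set P := p ^ (q - 1).factorization p with hP
  set r := coExp q p with hr
  have hPr : P * r = q - 1 := Nat.mul_div_cancel' (Nat.ordProj_dvd (q - 1) p)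
  obtain ⟨u, v, huv⟩ := Nat.isCoprime_iff_coprime.mpr (coprime_coExp p hq)
  have h1 : a ^ (q - 1) = 1 := ZMod.units_pow_card_sub_one_eq_one q a
  refine ⟨a ^ (v * r), a ^ (u * P), ?_, ?_, ?_⟩
  · rw [← zpow_natCast, ← zpow_mul, show v * r * P = ((P * r : ℕ) : ℤ) * v by push_cast; ring, zpow_mul,
      zpow_natCast, hPr, h1, one_zpow]
  · rw [mem_coPart, ← zpow_natCast, ← zpow_mul,
      show u * P * (coExp q p : ℕ) = ((P * r : ℕ) : ℤ) * u by push_cast [← hr]; ring, zpow_mul,
      zpow_natCast, hPr, h1, one_zpow]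
  · rw [← zpow_add, add_comm, huv, zpow_one]

/-- The orbit sum attached to `v`, `g` and a class of units. -/
def psiA (v : ParHom (q * q * m) (ZMod p)) (g : SL(2, ZMod q)) (a : (ZMod q)ˣ) :
    ParG (midGroup q m) (ZMod p) :=
  ∑ w : ZMod q, ∑ a' ∈ coPart q p, act q m (conjA (a * a') g * unip q w) (pullQ q m v)

theorem conjA_unip (b : (ZMod q)ˣ) (w : ZMod q) :
    conjA b (unip q w) = unip q ((b : ZMod q) * w) := by
  ext i j
  fin_cases i <;> fin_cases j <;> simp [conjA, unip]

theorem galG_psiA (s : GQ) (v : ParHom (q * q * m) (ZMod p)) (g : SL(2, ZMod q)) (a : (ZMod q)ˣ) :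
    galG (isLevel_mid q m) p s (psiA v g a) =
      psiA ((kummerGalois (q * q * m) p).galois s v) g (cycM q s * a) := by
  simp only [psiA, map_sum, act_galG, pullQ_galG, map_mul, conjA_unip, conjA_conjA]
  refine Fintype.sum_equiv (Units.mulLeft (cycM q s)) _ _ fun w => ?_
  refine Finset.sum_congr rfl fun a' _ => ?_
  rw [Units.mulLeft_apply, ← mul_assoc]

theorem psiA_add (v v' : ParHom (q * q * m) (ZMod p)) (g : SL(2, ZMod q)) (a : (ZMod q)ˣ) :
    psiA (v + v') g a = psiA v g a + psiA v' g a := by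
  simp only [psiA, map_add, Finset.sum_add_distrib]

theorem psiA_nsmul (k : ℕ) (v : ParHom (q * q * m) (ZMod p)) (g : SL(2, ZMod q)) (a : (ZMod q)ˣ) :
    psiA (k • v) g a = k • psiA v g a := by
  simp only [psiA, map_nsmul, Finset.smul_sum]

theorem act_unip_psiA (u : ZMod q) (v : ParHom (q * q * m) (ZMod p)) (g : SL(2, ZMod q))
    (a : (ZMod q)ˣ) : act q m (unip q u) (psiA v g a) = psiA v g a := by
  simp only [psiA, map_sum, act_act, mul_assoc, ← unip_add]
  exact Fintype.sum_equiv (Equiv.addRight u) _ _ fun w => rfl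

theorem conjA_torus (s a : (ZMod q)ˣ) (g : SL(2, ZMod q)) (w : ZMod q) :
    conjA a g * unip q w * torus q s =
      torus q s * (conjA ((s * s)⁻¹ * a) g * unip q ((((s * s)⁻¹ : (ZMod q)ˣ) : ZMod q) * w)) := by
  ext i j
  fin_cases i <;> fin_cases j <;>
    simp [torus, unip, conjA, Matrix.mul_apply, Fin.sum_univ_two, mul_inv_rev] <;>
    generalize hs : (s : ZMod q) = S at * <;>
    generalize hi : ((s⁻¹ : (ZMod q)ˣ) : ZMod q) = I at * <;>
    have h1 : S * I = 1 := by rw [← hs, ← hi]; exact Units.mul_inv s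
  · linear_combination (0 : ZMod q) * h1
  · linear_combination (-(I * g 0 0 * w) - I * (a : ZMod q) * g 0 1) * h1
  · linear_combination (-(((a⁻¹ : (ZMod q)ˣ) : ZMod q) * g 1 0 * S)) * h1
  · linear_combination (-(((a⁻¹ : (ZMod q)ˣ) : ZMod q) * g 1 0 * w * I) -
      ((a⁻¹ : (ZMod q)ˣ) : ZMod q) * g 1 0 * w * I ^ 2 * S) * h1

theorem act_torus_psiA (s : (ZMod q)ˣ) (v : ParHom (q * q * m) (ZMod p)) (g : SL(2, ZMod q))
    (a : (ZMod q)ˣ) : act q m (torus q s) (psiA v g a) = psiA v g ((s * s)⁻¹ * a) := by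
  simp only [psiA, map_sum, act_act]
  refine Fintype.sum_equiv (Units.mulLeft (s * s)⁻¹) _ _
    fun w => ?_
  refine Finset.sum_congr rfl fun a' _ => ?_
  rw [conjA_torus, ← act_act, act_pullQ_of_diag q m (torus q s) rfl rfl, Units.mulLeft_apply,
    mul_assoc _ a a']

theorem psiA_mul_coPart {c : (ZMod q)ˣ} (hc : c ∈ coPart q p)
    (v : ParHom (q * q * m) (ZMod p)) (g : SL(2, ZMod q)) (a : (ZMod q)ˣ) :
    psiA v g (a * c) = psiA v g a := by
  simp only [psiA, mul_assoc]
  refine Finset.sum_congr rfl fun w _ => ?_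
  rw [mem_coPart] at hc
  refine Finset.sum_equiv (Equiv.mulLeft c) (fun x => ?_) fun x _ => rfl
  simp [mem_coPart, mul_pow, hc]

variable (W) in
/-- Functions on units behaving like the orbit sums of a class with the relations. -/
def orbFns : AddSubgroup ((ZMod q)ˣ → ParG (midGroup q m) (ZMod p)) where
  carrier := {f | (∀ (h : GQ) (a : (ZMod q)ˣ),
      galG (isLevel_mid q m) p h (f ((cycM q h)⁻¹ * a)) +
        (omg p h).val • galG (isLevel_mid q m) p h⁻¹ (f (cycM q h * a)) = (trE W p h).val • f a) ∧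
      (∀ u a, act q m (unip q u) (f a) = f a) ∧
      (∀ s a, act q m (torus q s) (f a) = f ((s * s)⁻¹ * a)) ∧
      ∀ a c, c ∈ coPart q p → f (a * c) = f a}
  add_mem' := fun {f f'} hf hf' => ⟨fun h a => by
      simp only [Pi.add_apply, map_add, smul_add]
      rw [← hf.1 h a, ← hf'.1 h a]; abel,
    fun u a => by simp only [Pi.add_apply, map_add, hf.2.1, hf'.2.1],
    fun s a => by simp only [Pi.add_apply, map_add, hf.2.2.1, hf'.2.2.1],
    fun a c hc => by simp only [Pi.add_apply, hf.2.2.2 a c hc, hf'.2.2.2 a c hc]⟩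
  zero_mem' := ⟨fun h a => by simp, fun u a => by simp, fun s a => by simp, fun a c _ => rfl⟩
  neg_mem' := fun {f} hf => ⟨fun h a => by
      simp only [Pi.neg_apply, map_neg, smul_neg]
      rw [← hf.1 h a]; abel,
    fun u a => by simp only [Pi.neg_apply, map_neg, hf.2.1],
    fun s a => by simp only [Pi.neg_apply, map_neg, hf.2.2.1],
    fun a c hc => by simp only [Pi.neg_apply, hf.2.2.2 a c hc]⟩

theorem psiA_mem {v : ParHom (q * q * m) (ZMod p)}
    (hv : IsRho W p (kummerGalois (q * q * m) p).galois v) (g : SL(2, ZMod q)) :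
    psiA v g ∈ orbFns W (p := p) (q := q) (m := m) := by
  refine ⟨fun h a => ?_, fun u a => act_unip_psiA u v g a, fun s a => act_torus_psiA s v g a,
    fun a c hc => psiA_mul_coPart hc v g a⟩
  rw [galG_psiA, galG_psiA, mul_inv_cancel_left, map_inv (cycM q), inv_mul_cancel_left, ← psiA_nsmul,
    ← psiA_nsmul, ← psiA_add]
  exact congrArg (fun z => psiA z g a) (hv h)

/-- A constant such function vanishes. -/
theorem Setting.orbFns_const (S : Setting W p q m s₀)
    {f : (ZMod q)ˣ → ParG (midGroup q m) (ZMod p)}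
    (hf : f ∈ orbFns W (p := p) (q := q) (m := m)) (hc : ∀ a, f a = f 1) : f = 0 := by
  have h0 : f 1 = 0 := S.descent (fun h => by
    have := hf.1 h 1
    rw [hc ((cycM q h)⁻¹ * 1), hc (cycM q h * 1)] at this
    exact this) fun s w => by
      rw [← act_act, hf.2.2.1, hc ((s * s)⁻¹ * 1), hf.2.1]
  exact funext fun a => (hc a).trans h0

/-- The orbit sums vanish. -/
theorem Setting.psiA_eq_zero (S : Setting W p q m s₀) {v : ParHom (q * q * m) (ZMod p)}
    (hv : IsRho W p (kummerGalois (q * q * m) p).galois v) (g : SL(2, ZMod q)) (a : (ZMod q)ˣ) :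
    psiA v g a = 0 := by
  classical
  set P := p ^ (q - 1).factorization p
  let Pp : Subgroup (ZMod q)ˣ := (powMonoidHom P).ker
  let X := orbFns W (p := p) (q := q) (m := m)
  haveI : NeZero (q * q * m) := inferInstance
  haveI : Finite (ParG (midGroup q m) (ZMod p)) := finite_parG (isLevel_mid q m)
  have hmem : ∀ (b : (ZMod q)ˣ) (f : (ZMod q)ˣ → ParG (midGroup q m) (ZMod p)), f ∈ X →
      (fun a => f (a * b)) ∈ X := fun b f hf => ⟨fun h a => by
      simpa only [mul_assoc] using hf.1 h (a * b),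
    fun u a => hf.2.1 u _, fun s a => by simp only [mul_assoc]; exact hf.2.2.1 s _,
    fun a c hc => by
      show f (a * c * b) = f (a * b)
      rw [mul_right_comm, hf.2.2.2 _ c hc]⟩
  letI act' : MulAction Pp X :=
    { smul := fun b f => ⟨fun a => f.1 (a * (b : (ZMod q)ˣ)), hmem b f.1 f.2⟩
      one_smul := fun f => Subtype.ext (funext fun a => by show f.1 (a * 1) = _; rw [mul_one])
      mul_smul := fun b b' f => Subtype.ext (funext fun a => by
        show f.1 (a * ((b : (ZMod q)ˣ) * b')) = f.1 (a * b * b'); rw [mul_assoc]) }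
  by_contra hne
  set f₀ : X := ⟨psiA v g, psiA_mem hv g⟩
  have hf₀ : f₀ ≠ 0 := fun h => hne (congrFun (congrArg Subtype.val h) a)
  have hdvd : p ∣ Nat.card X := by
    have hp0 : p • f₀ = 0 := Subtype.ext (funext fun a => nsmul_parG _)
    have hord : addOrderOf f₀ = p := addOrderOf_eq_prime hp0 hf₀
    exact (dvd_of_eq hord.symm).trans (addOrderOf_dvd_natCard f₀)
  have hP : IsPGroup p Pp := fun b => ⟨(q - 1).factorization p, Subtype.ext b.2⟩
  have h00 : (0 : X) ∈ MulAction.fixedPoints Pp X := fun b => Subtype.ext (funext fun a => rfl)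
  obtain ⟨f, hfix, hf0⟩ := hP.exists_fixed_point_of_prime_dvd_card_of_fixed_point X hdvd h00
  refine hf0 (Subtype.ext (S.orbFns_const f.2 fun a => ?_)).symm
  obtain ⟨b, c, hb, hc, rfl⟩ := exists_mul_coPart p S.q_prime a
  rw [f.2.2.2.2 b c hc]
  have := congrFun (congrArg Subtype.val (hfix ⟨b, hb⟩)) 1
  rw [← this]
  show f.1 b = f.1 (1 * b)
  rw [one_mul]

end Fermat.Agent.R59.NoSq
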