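import Mathlib

/-!
# S59, unit A: branch values with trivial norms along the components

A function on the branches is a function of points plus a function of components as soon as it
kills every cycle. Cycles are cut along the lines of the components, and the norm relations control
the pairing with the pieces.
-/

set_option autoImplicit false
set_option linter.unusedSectionVars false

noncomputable section

namespace Fermat.Agent.R59.NoSq

variable {Br Pt ι Li G K : Type} [Fintype Br] [Fintype Li] [Group G] [AddCommGroup K]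

/-- The pairing of a chain with a function. -/
def pairC (c : Br → ℤ) (f : Br → K) : K := ∑ b, c b • f b

theorem pairC_add (c c' : Br → ℤ) (f : Br → K) :
    pairC (c + c') f = pairC c f + pairC c' f := by
  simp only [pairC, Pi.add_apply, add_smul, Finset.sum_add_distrib]

theorem pairC_sub (c c' : Br → ℤ) (f : Br → K) :
    pairC (c - c') f = pairC c f - pairC c' f := by
  simp only [pairC, Pi.sub_apply, sub_smul, Finset.sum_sub_distrib]

theorem pairC_sum {α : Type} (s : Finset α) (c : α → Br → ℤ) (f : Br → K) :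
    pairC (fun b => ∑ a ∈ s, c a b) f = ∑ a ∈ s, pairC (c a) f := by
  simp only [pairC, Finset.sum_smul]
  exact Finset.sum_comm

theorem pairC_fsum {α : Type} (s : Finset α) (c : Br → ℤ) (f : α → Br → K) :
    pairC c (fun b => ∑ a ∈ s, f a b) = ∑ a ∈ s, pairC c (f a) := by
  simp only [pairC, Finset.smul_sum]
  exact Finset.sum_comm

omit [Fintype Br] in
theorem sig_inv (σ : G →* Equiv.Perm Br) (g : G) (b : Br) : σ g⁻¹ (σ g b) = b := by
  rw [← Equiv.Perm.mul_apply, ← map_mul, inv_mul_cancel, map_one]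
  rfl

omit [Fintype Br] in
theorem sig_inv' (σ : G →* Equiv.Perm Br) (g : G) (b : Br) : σ g (σ g⁻¹ b) = b := by
  rw [← Equiv.Perm.mul_apply, ← map_mul, mul_inv_cancel, map_one]
  rfl

open scoped Classical in
theorem sum_ite_sub (P : Br → Prop) (f g : Br → ℤ) :
    (∑ b, if P b then f b - g b else 0) =
      (∑ b, if P b then f b else 0) - ∑ b, if P b then g b else 0 := by
  rw [← Finset.sum_sub_distrib]
  exact Finset.sum_congr rfl fun b _ => by split_ifs <;> simp

/-- The translate of a chain. -/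
def moveC (σ : G →* Equiv.Perm Br) (g : G) (c : Br → ℤ) : Br → ℤ := fun b => c (σ g⁻¹ b)

theorem pairC_moveC (σ : G →* Equiv.Perm Br) (g : G) (c : Br → ℤ) (f : Br → K) :
    pairC (moveC σ g c) f = pairC c fun b => f (σ g b) := by
  simp only [pairC, moveC]
  rw [← Equiv.sum_comp (σ g)]
  refine Finset.sum_congr rfl fun b _ => ?_
  rw [sig_inv]

omit [Fintype Br] in
theorem moveC_moveC (σ : G →* Equiv.Perm Br) (g g' : G) (c : Br → ℤ) :
    moveC σ g (moveC σ g' c) = moveC σ (g * g') c := funext fun b => by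
  simp only [moveC, mul_inv_rev, map_mul]
  rfl

variable (pt : Br → Pt) (comp : Br → ι)

open scoped Classical in
/-- The boundary of a chain on the points. -/
def ptBd (c : Br → ℤ) (x : Pt) : ℤ := ∑ b, if pt b = x then c b else 0

open scoped Classical in
/-- The boundary of a chain on the components. -/
def compBd (c : Br → ℤ) (i : ι) : ℤ := ∑ b, if comp b = i then c b else 0

theorem pairC_pt [Fintype Pt] (c : Br → ℤ) (φ : Pt → K) :
    pairC c (fun b => φ (pt b)) = ∑ x, ptBd pt c x • φ x := by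
  classical
  simp only [pairC, ptBd, Finset.sum_smul]
  rw [Finset.sum_comm]
  refine Finset.sum_congr rfl fun b _ => ?_
  rw [Finset.sum_eq_single (pt b)]
  · rw [if_pos rfl]
  · intro x _ hx; rw [if_neg (Ne.symm hx), zero_smul]
  · intro h; exact absurd (Finset.mem_univ _) h

theorem pairC_comp [Fintype ι] (c : Br → ℤ) (ψ : ι → K) :
    pairC c (fun b => ψ (comp b)) = ∑ i, compBd comp c i • ψ i :=
  pairC_pt comp c ψ

/-- Functions of points plus functions of components. -/
def IsSplit (f : Br → K) : Prop :=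
  ∃ (φ : Pt → K) (ψ : ι → K), ∀ b, f b = φ (pt b) + ψ (comp b)

theorem pairC_of_isSplit [Fintype Pt] [Fintype ι] {c : Br → ℤ} {f : Br → K}
    (hc : compBd comp c = 0) (φ : Pt → K) (ψ : ι → K) (h : ∀ b, f b = φ (pt b) + ψ (comp b)) :
    pairC c f = ∑ x, ptBd pt c x • φ x := by
  rw [← pairC_pt, show pairC c f = pairC c (fun b => φ (pt b)) + pairC c (fun b => ψ (comp b)) by
    simp only [pairC, h, smul_add, Finset.sum_add_distrib]]
  rw [pairC_comp comp c ψ, hc]
  simp

/-- A function killing all cycles is split. -/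
theorem isSplit_of_pairC (f : Br → K)
    (h : ∀ c, ptBd pt c = 0 → compBd comp c = 0 → pairC c f = 0) : IsSplit pt comp f := by
  classical
  let V := Pt ⊕ ι
  let δ : (Br → ℤ) → V → ℤ := fun c => Sum.elim (ptBd pt c) (fun i => -compBd comp c i)
  have hδa : ∀ c c', δ (c + c') = δ c + δ c' := fun c c' => funext fun v => by
    cases v <;> simp only [δ, ptBd, compBd, Sum.elim_inl, Sum.elim_inr, Pi.add_apply, ← neg_add,
      ← Finset.sum_add_distrib]
    · exact Finset.sum_congr rfl fun b _ => by split_ifs <;> simp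
    · exact congrArg Neg.neg (Finset.sum_congr rfl fun b _ => by split_ifs <;> simp)
  have hδn : ∀ c, δ (-c) = -δ c := fun c => funext fun v => by
    cases v <;> simp [δ, ptBd, compBd, ← Finset.sum_neg_distrib, apply_ite]
  let S : Setoid V :=
    { r := fun v w => ∃ c, δ c = Pi.single v 1 - Pi.single w 1
      iseqv :=
        { refl := fun v => ⟨0, funext fun u => by cases u <;> simp [δ, ptBd, compBd]⟩
          symm := fun ⟨c, hc⟩ => ⟨-c, by rw [hδn, hc, neg_sub]⟩
          trans := fun ⟨c, hc⟩ ⟨c', hc'⟩ => ⟨c + c', by rw [hδa, hc, hc', sub_add_sub_cancel]⟩ } }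
  choose γ hγ using fun v : V => (S.symm (Quotient.mk_out (s := S) v) :
    ∃ c, δ c = Pi.single v 1 - Pi.single (Quotient.out (Quotient.mk S v)) 1)
  refine ⟨fun x => pairC (γ (Sum.inl x)) f, fun i => -pairC (γ (Sum.inr i)) f, fun b => ?_⟩
  have hb : δ (Pi.single b 1) = Pi.single (Sum.inl (pt b)) 1 - Pi.single (Sum.inr (comp b)) 1 :=
    funext fun v => by
      rcases v with x | i
      · simp only [δ, Sum.elim_inl, ptBd, Pi.sub_apply, Pi.single_apply, Sum.inl.injEq]
        rw [Finset.sum_eq_single b]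
        · by_cases hx : pt b = x
          · simp [hx]
          · simp [hx, Ne.symm hx]
        · intro c _ hc; simp [hc]
        · simp
      · simp only [δ, Sum.elim_inr, compBd, Pi.sub_apply, Pi.single_apply, Sum.inr.injEq]
        rw [Finset.sum_eq_single b]
        · by_cases hx : comp b = i
          · simp [hx]
          · simp [hx, Ne.symm hx]
        · intro c _ hc; simp [hc]
        · simp
  have hroot : Quotient.mk S (Sum.inl (pt b)) = Quotient.mk S (Sum.inr (comp b)) :=
    Quotient.sound ⟨_, hb⟩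
  set z : Br → ℤ := Pi.single b 1 - γ (Sum.inl (pt b)) + γ (Sum.inr (comp b)) with hz
  have hz0 : δ z = 0 := by
    rw [hz, hδa, sub_eq_add_neg, hδa, hδn, hb, hγ, hγ, hroot]
    abel
  have h0 := h z (funext fun x => congrFun hz0 (Sum.inl x))
    (funext fun i => neg_eq_zero.mp (congrFun hz0 (Sum.inr i)))
  rw [hz, pairC_add, pairC_sub] at h0
  have h1 : pairC (Pi.single b 1) f = f b := by
    simp only [pairC, Pi.single_apply, ite_smul, one_smul, zero_smul, Finset.sum_ite_eq',
      Finset.mem_univ, if_true]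
  rw [h1] at h0
  rw [← sub_eq_zero, ← h0]
  simp only [sub_add_eq_sub_sub, sub_neg_eq_add]

variable {pt comp}

/-- The hypotheses on the branches, the lines of the components and the automorphisms fixing
them. -/
structure Net (pt : Br → Pt) (comp : Br → ι) (line : ι → Li) (σ : G →* Equiv.Perm Br)
    (ρ : G →* Equiv.Perm Li) (R : Subgroup G) (F : Li → Set G) : Prop where
  pt_congr : ∀ g b b', pt b = pt b' → pt (σ g b) = pt (σ g b')
  comp_congr : ∀ g b b', comp b = comp b' → comp (σ g b) = comp (σ g b')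
  line_act : ∀ g b, line (comp (σ g b)) = ρ g (line (comp b))
  fix : ∀ b, ∀ h ∈ F (line (comp b)), σ h b = b
  gen : ∀ L L', L ≠ L' → R ≤ Subgroup.closure (F L ∪ F L')
  trans : ∀ L L', ∃ g ∈ R, ρ g L = L'

/-- Supported on one line, without boundary on the components, with boundary in points moved
by no good automorphism. -/
def IsPiece (pt : Br → Pt) (comp : Br → ι) (line : ι → Li) (σ : G →* Equiv.Perm Br)
    (good : Subgroup G) (L : Li) (c : Br → ℤ) : Prop :=
  (∀ b, c b ≠ 0 → line (comp b) = L) ∧ compBd comp c = 0 ∧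
    ∀ x, ptBd pt c x ≠ 0 → ∀ g ∈ good, ∀ b, pt b = x → pt (σ g b) = x

namespace Net

variable {line : ι → Li} {σ : G →* Equiv.Perm Br} {ρ : G →* Equiv.Perm Li} {R : Subgroup G}
  {F : Li → Set G} (N : Net pt comp line σ ρ R F)

include N

theorem compBd_moveC {c : Br → ℤ} (hc : compBd comp c = 0) (g : G) :
    compBd comp (moveC σ g c) = 0 := by
  classical
  funext i
  simp only [compBd, moveC, Pi.zero_apply]
  rw [← Equiv.sum_comp (σ g)]
  simp only [sig_inv]
  by_cases h : ∃ b, comp (σ g b) = i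
  · obtain ⟨b₀, hb₀⟩ := h
    refine Eq.trans (Finset.sum_congr rfl fun b _ => ?_) (congrFun hc (comp b₀))
    refine if_congr ⟨fun hb => ?_, fun hb => ?_⟩ rfl rfl
    · have := N.comp_congr g⁻¹ _ _ (hb.trans hb₀.symm)
      simpa only [sig_inv] using this
    · rw [N.comp_congr g b b₀ hb, hb₀]
  · push Not at h
    exact Finset.sum_eq_zero fun b _ => if_neg (h b)

theorem ptBd_moveC {good : Subgroup G} {c : Br → ℤ}
    (hc : ∀ x, ptBd pt c x ≠ 0 → ∀ g ∈ good, ∀ b, pt b = x → pt (σ g b) = x) {g : G}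
    (hg : g ∈ good) : ptBd pt (moveC σ g c) = ptBd pt c := by
  classical
  funext x
  have key : ptBd pt (moveC σ g c) x = ∑ b, if pt (σ g b) = x then c b else 0 := by
    simp only [ptBd, moveC]
    rw [← Equiv.sum_comp (σ g)]
    simp only [sig_inv]
  rw [key]
  by_cases h : ∃ b, pt (σ g b) = x
  · obtain ⟨b₀, hb₀⟩ := h
    have e : (∑ b, if pt (σ g b) = x then c b else 0) = ptBd pt c (pt b₀) := by
      refine Finset.sum_congr rfl fun b _ => if_congr ⟨fun hb => ?_, fun hb => ?_⟩ rfl rfl
      · have := N.pt_congr g⁻¹ _ _ (hb.trans hb₀.symm)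
        simpa only [sig_inv] using this
      · rw [N.pt_congr g b b₀ hb, hb₀]
    rw [e]
    by_cases h0 : ptBd pt c (pt b₀) = 0
    · rw [h0]
      by_contra hx
      obtain ⟨b, -, hb⟩ := Finset.exists_ne_zero_of_sum_ne_zero (Ne.symm hx)
      obtain ⟨hbx, -⟩ : pt b = x ∧ c b ≠ 0 := by
        by_cases hbx : pt b = x
        · exact ⟨hbx, by simpa [hbx] using hb⟩
        · simp [hbx] at hb
      have h1 := hc x (Ne.symm hx) g⁻¹ (inv_mem hg) b hbx
      have h2 := N.pt_congr g⁻¹ (σ g b₀) b (hb₀.trans hbx.symm)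
      rw [h1] at h2
      simp only [sig_inv] at h2
      rw [h2] at h0
      exact hx h0.symm
    · have := hc _ h0 g hg b₀ rfl
      rw [← hb₀, this]
  · push Not at h
    rw [Finset.sum_eq_zero fun b _ => if_neg (h b)]
    by_contra hx
    obtain ⟨b, -, hb⟩ := Finset.exists_ne_zero_of_sum_ne_zero (Ne.symm hx)
    have hbx : pt b = x := by by_contra hbx; simp [hbx] at hb
    exact h b (hc x (Ne.symm hx) g hg b hbx)

theorem isPiece_moveC {good : Subgroup G} {L : Li} {c : Br → ℤ}
    (h : IsPiece pt comp line σ good L c) {g : G} (hg : g ∈ good) :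
    IsPiece pt comp line σ good (ρ g L) (moveC σ g c) := by
  refine ⟨fun b hb => ?_, N.compBd_moveC h.2.1 g, by rw [N.ptBd_moveC h.2.2 hg]; exact h.2.2⟩
  rw [← h.1 _ hb, ← N.line_act, sig_inv']

variable {p d : ℕ} {β : Br → K} {π₀ : Pt → K} {H : Li → Finset G}
  (hcop : Nat.Coprime d p) (hp : ∀ b, p • β b = π₀ (pt b))
  (hH : ∀ L, ∀ h ∈ H L, h ∈ F L) (hcard : ∀ L, (H L).card = d)
  (hnorm : ∀ L, IsSplit pt comp fun b => ∑ h ∈ H L, β (σ h⁻¹ b))

include hp in
theorem nsmul_pairC [Fintype Pt] (c : Br → ℤ) : p • pairC c β = ∑ x, ptBd pt c x • π₀ x := by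
  rw [← pairC_pt, pairC, Finset.smul_sum]
  exact Finset.sum_congr rfl fun b _ => by show _ = c b • π₀ (pt b); rw [← hp, smul_comm]

include hcop hp hH hcard hnorm in
/-- Cycles on one line pair to zero. -/
theorem pairC_line_eq_zero [Fintype Pt] [Fintype ι] {L : Li} {c : Br → ℤ}
    (hs : ∀ b, c b ≠ 0 → line (comp b) = L) (hc : compBd comp c = 0) (hx : ptBd pt c = 0) :
    pairC c β = 0 := by
  have h1 : p • pairC c β = 0 := by rw [N.nsmul_pairC hp, hx]; simp
  obtain ⟨φ, ψ, h⟩ := hnorm L
  have h2 : d • pairC c β = 0 := by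
    have e := pairC_of_isSplit pt comp hc φ ψ h
    rw [hx, pairC_fsum] at e
    simp only [Pi.zero_apply, zero_smul, Finset.sum_const_zero] at e
    rw [← e, ← hcard L, ← Finset.sum_const]
    refine Finset.sum_congr rfl fun k hk => Finset.sum_congr rfl fun b _ => ?_
    by_cases hb : c b = 0
    · simp [hb]
    · have := N.fix b k (hs b hb ▸ hH L k hk)
      have e2 : σ k⁻¹ b = b := by conv_lhs => rw [← this, sig_inv]
      simp only [e2]
  have h3 := Nat.gcd_eq_gcd_ab d p
  rw [hcop.gcd_eq_one, Nat.cast_one] at h3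
  rw [← one_smul ℤ (pairC c β), h3, add_smul, mul_comm, mul_smul, natCast_zsmul, h2, smul_zero,
    mul_comm, mul_smul, natCast_zsmul, h1, smul_zero, add_zero]

include hcop hp hH hcard hnorm in
/-- **Main lemma.** A combination of translates killing every admissible function of lines gives
a split function. -/
theorem isSplit_sum [Fintype Pt] [Fintype ι] [Nontrivial Li] {A : Set G}
    (hA : ∀ a ∈ A, a ∈ Subgroup.closure (⋃ L, F L))
    (hinv : ∀ a ∈ A, IsSplit pt comp fun b => β (σ a⁻¹ b) - β b)
    {α : Type} [Fintype α] (g : α → G) (hg : ∀ a, g a ∈ R)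
    (hθ : ∀ D : Li → K, (∀ L, p • D L = 0) →
      (∀ M, ∃ C, ∀ L, ∑ h ∈ H M, D (ρ h⁻¹ L) = C) →
      (∀ a ∈ A, ∃ C, ∀ L, D (ρ a⁻¹ L) = D L + C) →
      ∃ C, ∀ L, ∑ a, D (ρ (g a)⁻¹ L) = C) :
    IsSplit pt comp fun b => ∑ a, β (σ (g a)⁻¹ b) := by
  classical
  set good := Subgroup.closure (⋃ L, F L) with hgood
  have hF : ∀ L, F L ⊆ good := fun L h hh => Subgroup.subset_closure (Set.mem_iUnion.mpr ⟨L, hh⟩)
  have hR : R ≤ good := by
    obtain ⟨L, L', hLL⟩ := exists_pair_ne Li
    exact (N.gen L L' hLL).trans ((Subgroup.closure_le _).mpr (Set.union_subset (hF L) (hF L')))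
  obtain ⟨L₀⟩ : Nonempty Li := inferInstance
  refine isSplit_of_pairC pt comp _ fun c hpc hcc => ?_
  -- the pieces
  let cL : Li → Br → ℤ := fun L b => if line (comp b) = L then c b else 0
  have hcL : ∀ b, ∑ L, cL L b = c b := fun b => by simp [cL]
  have hfull : ∀ L, IsPiece pt comp line σ good L (cL L) := by
    refine fun L => ⟨fun b hb => ?_, funext fun i => ?_, fun x hx => ?_⟩
    · by_contra h; simp [cL, h] at hb
    · by_cases hi : line i = L
      · refine Eq.trans (Finset.sum_congr rfl fun b _ => ?_) (congrFun hcc i)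
        by_cases hb : comp b = i
        · simp [cL, hb, hi]
        · simp [hb]
      · refine Finset.sum_eq_zero fun b _ => ?_
        by_cases hb : comp b = i
        · simp [cL, hb, hi]
        · simp [hb]
    · obtain ⟨b₁, -, hb₁⟩ := Finset.exists_ne_zero_of_sum_ne_zero hx
      obtain ⟨hx₁, hL₁⟩ : pt b₁ = x ∧ line (comp b₁) = L := by
        by_contra h
        rcases not_and_or.mp h with h | h <;> simp [cL, h] at hb₁
      obtain ⟨b₂, hx₂, hL₂⟩ : ∃ b, pt b = x ∧ line (comp b) ≠ L := by
        by_contra h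
        push Not at h
        refine hx (Eq.trans (Finset.sum_congr rfl fun b _ => ?_) (congrFun hpc x))
        by_cases hb : pt b = x
        · simp [cL, hb, h b hb]
        · simp [hb]
      let S : Subgroup G :=
        { carrier := {k | ∀ b, pt b = x → pt (σ k b) = x}
          one_mem' := fun b hb => by simpa using hb
          mul_mem' := fun {k k'} hk hk' b hb => by
            rw [map_mul]
            exact hk _ (hk' b hb)
          inv_mem' := fun {k} hk b hb => by
            have h1 := hk b₁ hx₁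
            have h2 := N.pt_congr k⁻¹ b (σ k b₁) (hb.trans h1.symm)
            rw [h2, sig_inv, hx₁] }
      have hS : ∀ b, pt b = x → F (line (comp b)) ⊆ S := fun b hb h hh b' hb' => by
        rw [N.pt_congr h b' b (hb'.trans hb.symm), N.fix b h hh, hb]
      have hRS : R ≤ S := (N.gen L _ (Ne.symm hL₂)).trans ((Subgroup.closure_le _).mpr
        (Set.union_subset (hL₁ ▸ hS b₁ hx₁) (hS b₂ hx₂)))
      have hgS : good ≤ S := (Subgroup.closure_le _).mpr (Set.iUnion_subset fun M => by
        obtain ⟨r, hr, hrM⟩ := N.trans L M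
        have := hS (σ r b₁) (hRS hr b₁ hx₁)
        rwa [N.line_act, hL₁, hrM] at this)
      exact fun k hk => hgS hk
  -- moving the pieces
  choose r hrR hrρ using N.trans
  have hline : ∀ {L L' : Li} {c₁ c₂ : Br → ℤ}, IsPiece pt comp line σ good L c₁ →
      IsPiece pt comp line σ good L' c₂ → L = L' → ptBd pt c₁ = ptBd pt c₂ →
      pairC c₁ β = pairC c₂ β := fun {L L' c₁ c₂} h₁ h₂ hLL hv => by
    subst hLL
    rw [← sub_eq_zero, ← pairC_sub]
    refine N.pairC_line_eq_zero hcop hp hH hcard hnorm (L := L) (fun b hb => ?_) ?_ ?_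
    · by_cases h : c₁ b = 0
      · exact h₂.1 b fun h' => hb (by simp [h, h'])
      · exact h₁.1 b h
    · funext i
      have e₁ := congrFun h₁.2.1 i
      have e₂ := congrFun h₂.2.1 i
      simp only [compBd, Pi.sub_apply, Pi.zero_apply] at e₁ e₂ ⊢
      rw [sum_ite_sub, e₁, e₂, sub_zero]
    · funext x
      have e := congrFun hv x
      simp only [ptBd, Pi.sub_apply, Pi.zero_apply] at e ⊢
      rw [sum_ite_sub, e, sub_self]
  have hconst : ∀ L M M', ∑ a, pairC (moveC σ (g a)⁻¹ (moveC σ (r L M) (cL L))) β =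
      ∑ a, pairC (moveC σ (g a)⁻¹ (moveC σ (r L M') (cL L))) β := by
    intro L M M'
    set D₁ : Li → K := fun M => pairC (moveC σ (r L M) (cL L)) β
    have hmv : ∀ k ∈ good, ∀ M, pairC (moveC σ k (moveC σ (r L M) (cL L))) β = D₁ (ρ k M) :=
      fun k hk M => hline (N.isPiece_moveC (N.isPiece_moveC (hfull L) (hR (hrR L M))) hk)
        (N.isPiece_moveC (hfull L) (hR (hrR L (ρ k M)))) (by rw [hrρ, hrρ])
        (by rw [N.ptBd_moveC (N.isPiece_moveC (hfull L) (hR (hrR L M))).2.2 hk,
          N.ptBd_moveC (hfull L).2.2 (hR (hrR L M)),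
          N.ptBd_moveC (hfull L).2.2 (hR (hrR L (ρ k M)))])
    have hsplit : ∀ (f : Br → K), IsSplit pt comp f → ∃ C, ∀ M,
        pairC (moveC σ (r L M) (cL L)) f = C := fun f ⟨φ, ψ, hf⟩ => ⟨∑ x, ptBd pt (cL L) x • φ x,
      fun M => by
        rw [pairC_of_isSplit pt comp (N.compBd_moveC (hfull L).2.1 _) φ ψ hf,
          N.ptBd_moveC (hfull L).2.2 (hR (hrR L M))]⟩
    have h := hθ (fun M => D₁ M - D₁ L₀) (fun M => by
        rw [smul_sub, N.nsmul_pairC hp, N.nsmul_pairC hp, N.ptBd_moveC (hfull L).2.2 (hR (hrR L M)),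
          N.ptBd_moveC (hfull L).2.2 (hR (hrR L L₀)), sub_self])
      (fun M₀ => by
        obtain ⟨C, hC⟩ := hsplit _ (hnorm M₀)
        refine ⟨C - d • D₁ L₀, fun M => ?_⟩
        rw [Finset.sum_sub_distrib, Finset.sum_const, hcard, ← hC M, pairC_fsum]
        congr 1
        refine Finset.sum_congr rfl fun h hh => ?_
        rw [← hmv h⁻¹ (inv_mem (hF M₀ (hH M₀ h hh))), pairC_moveC])
      (fun a ha => by
        obtain ⟨C, hC⟩ := hsplit _ (hinv a ha)
        refine ⟨C, fun M => ?_⟩
        have e : pairC (moveC σ (r L M) (cL L)) (fun b => β (σ a⁻¹ b) - β b) =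
            D₁ (ρ a⁻¹ M) - D₁ M := by
          rw [← hmv a⁻¹ (inv_mem (hA a ha)), pairC_moveC σ a⁻¹]
          simp only [D₁, pairC, smul_sub, Finset.sum_sub_distrib]
        rw [← hC M, e]
        abel)
    obtain ⟨C, hC⟩ := h
    have e : ∀ M, ∑ a, pairC (moveC σ (g a)⁻¹ (moveC σ (r L M) (cL L))) β =
        C + Fintype.card α • D₁ L₀ := fun M => by
      rw [← hC M, Finset.sum_sub_distrib, Finset.sum_const, Finset.card_univ, sub_add_cancel]
      exact Finset.sum_congr rfl fun a _ => hmv _ (inv_mem (hR (hg a))) M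
    rw [e, e]
  -- everything on one line
  rw [pairC_fsum]
  calc ∑ a, pairC c (fun b => β (σ (g a)⁻¹ b))
      = ∑ L, ∑ a, pairC (moveC σ (g a)⁻¹ (cL L)) β := by
        rw [Finset.sum_comm]
        refine Finset.sum_congr rfl fun a _ => ?_
        simp only [pairC_moveC]
        rw [← pairC_sum]
        simp only [hcL]
    _ = ∑ L, ∑ a, pairC (moveC σ (g a)⁻¹ (moveC σ (r L L) (cL L))) β := by
        refine Finset.sum_congr rfl fun L _ => Finset.sum_congr rfl fun a _ => ?_
        exact hline (N.isPiece_moveC (hfull L) (inv_mem (hR (hg a))))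
          (N.isPiece_moveC (N.isPiece_moveC (hfull L) (hR (hrR L L))) (inv_mem (hR (hg a))))
          (by rw [hrρ]) (by
            rw [N.ptBd_moveC (hfull L).2.2 (inv_mem (hR (hg a))),
              N.ptBd_moveC (N.isPiece_moveC (hfull L) (hR (hrR L L))).2.2 (inv_mem (hR (hg a))),
              N.ptBd_moveC (hfull L).2.2 (hR (hrR L L))])
    _ = ∑ L, ∑ a, pairC (moveC σ (g a)⁻¹ (moveC σ (r L L₀) (cL L))) β :=
        Finset.sum_congr rfl fun L _ => hconst L L L₀
    _ = 0 := by
      rw [Finset.sum_comm]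
      refine Finset.sum_eq_zero fun a _ => ?_
      have hP := fun L => N.isPiece_moveC (N.isPiece_moveC (hfull L) (hR (hrR L L₀)))
        (inv_mem (hR (hg a)))
      rw [← pairC_sum]
      refine N.pairC_line_eq_zero hcop hp hH hcard hnorm (L := ρ (g a)⁻¹ L₀) (fun b hb => ?_) ?_ ?_
      · obtain ⟨L, -, hL⟩ := Finset.exists_ne_zero_of_sum_ne_zero hb
        rw [(hP L).1 b hL, hrρ]
      · funext i
        simp only [compBd, Finset.ite_sum_zero]
        rw [Finset.sum_comm]
        exact Finset.sum_eq_zero fun L _ => congrFun (hP L).2.1 i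
      · funext x
        simp only [ptBd, Finset.ite_sum_zero]
        rw [Finset.sum_comm, Pi.zero_apply]
        rw [Finset.sum_congr rfl fun L _ => show
          (∑ b, if pt b = x then moveC σ (g a)⁻¹ (moveC σ (r L L₀) (cL L)) b else 0) =
            ptBd pt (cL L) x from (congrFun
            (N.ptBd_moveC (N.isPiece_moveC (hfull L) (hR (hrR L L₀))).2.2 (inv_mem (hR (hg a)))) x).trans
            (congrFun (N.ptBd_moveC (hfull L).2.2 (hR (hrR L L₀))) x)]
        simp only [ptBd]
        rw [Finset.sum_comm]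
        refine Eq.trans (Finset.sum_congr rfl fun b _ => ?_) (congrFun hpc x)
        split_ifs with hb
        · exact hcL b
        · simp

end Net

end Fermat.Agent.R59.NoSq
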