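import Fermat.Agent.R59.NoSq.Extend
import Fermat.Agent.R59.Levels.Neat
import Fermat.Agent.NewVec.Psi
import Mathlib.Algebra.Polynomial.Expand
import Mathlib.Algebra.CharP.Lemmas

/-!
# S59, unit A: cocycles on `SL₂(𝔽_q)` with values in all homomorphisms of the middle group
-/

set_option autoImplicit false
set_option linter.style.haveILetI false
set_option linter.unusedSectionVars false

noncomputable section

namespace Fermat.Agent.R59.NoSq

open CongruenceSubgroup Polynomial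
open Fermat.Agent.Auto Fermat.Agent.NewVec
open Fermat.Agent.GalRep.Level (red red_apply)
open scoped MatrixGroups

variable {q m p : ℕ} [NeZero q] [NeZero m] [Fact (Nat.Coprime q m)] [Fact p.Prime]

/-- All homomorphisms of the middle group. -/
abbrev HomA (q m p : ℕ) [NeZero q] [NeZero m] : Type :=
  Additive (midGroup q m) →+ ZMod p

/-- Translates of homomorphisms. -/
def actL (x : SL(2, ZMod q)) : Module.End (ZMod p) (HomA q m p) where
  toFun χ := χ.comp (conjMid q m ⟨liftQ q m x, liftQ_mem q m x⟩).toAdditive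
  map_add' _ _ := rfl
  map_smul' _ _ := rfl

theorem coe_act (x : SL(2, ZMod q)) (χ : GalRep.Level.ParG (midGroup q m) (ZMod p)) :
    ((act q m x χ : GalRep.Level.ParG (midGroup q m) (ZMod p)) : HomA q m p) = actL x χ := rfl

/-- A translate is computed by any lift. -/
theorem actL_apply (x : SL(2, ZMod q)) {g : SL(2, ℤ)} (hg : g ∈ Gamma0 m) (hx : red q g = x)
    (χ : HomA q m p) (γ : midGroup q m) :
    actL x χ (Additive.ofMul γ) = χ (Additive.ofMul (conjMid q m ⟨g, hg⟩ γ)) := by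
  have hn : (liftQ q m x)⁻¹ * g ∈ midGroup q m := by
    rw [mem_mid]
    refine ⟨by rw [map_mul, map_inv, red_liftQ, hx, inv_mul_cancel], Gamma0_mem.mp ?_⟩
    exact (Gamma0 m).mul_mem ((Gamma0 m).inv_mem (liftQ_mem q m x)) hg
  set n : midGroup q m := ⟨_, hn⟩
  set l : Gamma0 m := ⟨liftQ q m x, liftQ_mem q m x⟩
  have e : conjMid q m ⟨g, hg⟩ γ =
      conjMid q m l n * conjMid q m l γ * (conjMid q m l n)⁻¹ := by
    rw [← map_mul, ← map_inv, ← map_mul]
    refine Subtype.ext ?_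
    show g * γ * g⁻¹ = (l : SL(2, ℤ)) * ((n : SL(2, ℤ)) * γ * (n : SL(2, ℤ))⁻¹) * (l : SL(2, ℤ))⁻¹
    simp only [n, l]
    group
  rw [e, ofMul_mul, ofMul_mul, ofMul_inv, map_add, map_add, map_neg, add_neg_cancel_comm]
  rfl

theorem actL_actL (x y : SL(2, ZMod q)) (χ : HomA q m p) :
    actL x (actL y χ) = actL (y * x) χ := by
  refine AddMonoidHom.ext fun z => ?_
  obtain ⟨γ, rfl⟩ := Additive.ofMul.surjective z
  rw [actL_apply (y * x) ((Gamma0 m).mul_mem (liftQ_mem q m y) (liftQ_mem q m x))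
    (by rw [map_mul, red_liftQ, red_liftQ])]
  show χ (Additive.ofMul (conjMid q m ⟨liftQ q m y, _⟩ (conjMid q m ⟨liftQ q m x, _⟩ γ))) = _
  refine congrArg _ (congrArg _ (Subtype.ext ?_))
  simp [conjMid, mul_assoc]

theorem actL_one : actL (q := q) (m := m) (p := p) 1 = 1 := by
  refine LinearMap.ext fun χ => AddMonoidHom.ext fun z => ?_
  obtain ⟨γ, rfl⟩ := Additive.ofMul.surjective z
  rw [actL_apply 1 (Gamma0 m).one_mem (map_one _)]
  exact congrArg _ (congrArg _ (Subtype.ext (by simp [conjMid])))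

theorem actL_pow (c : SL(2, ZMod q)) (i : ℕ) :
    (actL (q := q) (m := m) (p := p) c) ^ i = actL (c ^ i) := by
  induction i with
  | zero => rw [pow_zero, pow_zero, actL_one]
  | succ i ih =>
    refine LinearMap.ext fun χ => ?_
    rw [pow_succ, Module.End.mul_apply, ih, actL_actL, pow_succ']

theorem neg_mem_gamma0 {M : ℕ} {g : SL(2, ℤ)} (hg : g ∈ Gamma0 M) : -g ∈ Gamma0 M := by
  rw [Gamma0_mem] at hg ⊢
  simp [hg]

theorem red_neg (g : SL(2, ℤ)) : red q (-g) = -red q g := by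
  ext i j
  simp [red_apply]

theorem actL_neg (x : SL(2, ZMod q)) : actL (q := q) (m := m) (p := p) (-x) = actL x := by
  refine LinearMap.ext fun χ => AddMonoidHom.ext fun z => ?_
  obtain ⟨γ, rfl⟩ := Additive.ofMul.surjective z
  rw [actL_apply (-x) (neg_mem_gamma0 (liftQ_mem q m x)) (by rw [red_neg, red_liftQ])]
  refine congrArg _ (congrArg _ (Subtype.ext ?_))
  show -liftQ q m x * (γ : SL(2, ℤ)) * (-liftQ q m x)⁻¹ = _
  rw [inv_neg, neg_mul, neg_mul_neg]
  rfl

/-- The geometric sum in characteristic `p`. -/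
theorem geom_eq_pow (k : ℕ) :
    ∑ i ∈ Finset.range (p ^ k), (X : (ZMod p)[X]) ^ i = (X - 1) ^ (p ^ k - 1) := by
  have h0 : (X - 1 : (ZMod p)[X]) ≠ 0 := by
    simpa using X_sub_C_ne_zero (1 : ZMod p)
  refine mul_right_cancel₀ h0 ?_
  rw [geom_sum_mul, ← pow_succ,
    Nat.sub_add_cancel (Nat.one_le_pow _ _ (Fact.out : p.Prime).pos), sub_pow_char_pow, one_pow]

theorem sum_actL (c : SL(2, ZMod q)) (k : ℕ) (y : HomA q m p) :
    ∑ i ∈ Finset.range (p ^ k), actL (c ^ i) y =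
      ((actL (q := q) (m := m) (p := p) c - 1) ^ (p ^ k - 1)) y := by
  have h := congrArg (aeval (actL (q := q) (m := m) (p := p) c)) (geom_eq_pow (p := p) k)
  rw [map_sum, map_pow, map_sub, aeval_X, map_one] at h
  rw [← h, LinearMap.sum_apply]
  exact Finset.sum_congr rfl fun i _ => by rw [map_pow, aeval_X, actL_pow]

section Cyclic

variable (hp2 : p ≠ 2) (h3 : p = 3 → ∃ r : ℕ, r.Prime ∧ r ∣ m ∧ r % 3 = 2)
  {c : SL(2, ZMod q)} {k : ℕ} (hc : orderOf c = p ^ k)
  {g : SL(2, ℤ)} (hg : g ∈ Gamma0 m) (hgc : red q g = c)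

include hp2 in
theorem even_succ_pow : Even (p ^ k + 1) :=
  (((Fact.out : p.Prime).odd_of_ne_two hp2).pow).add_one

include hc hgc hg in
theorem pow_mem_mid : g ^ (p ^ k) ∈ midGroup q m := by
  rw [mem_mid]
  refine ⟨by rw [map_pow, hgc, ← hc, pow_orderOf_eq_one], Gamma0_mem.mp ?_⟩
  exact (Gamma0 m).pow_mem hg _

include hp2 h3 in
/-- An invariant homomorphism vanishing at `g ^ P` is a norm. -/
theorem exists_sum_eq (u : HomA q m p) (hu : actL c u = u)
    (hgP : u (Additive.ofMul ⟨g ^ (p ^ k), pow_mem_mid hc hg hgc⟩) = 0) :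
    ∃ w, ∑ i ∈ Finset.range (p ^ k), actL (c ^ i) w = u := by
  classical
  have hp : p.Prime := Fact.out
  set P := p ^ k with hP
  have hPpos : 0 < P := pow_pos hp.pos _
  have hev : Even (P + 1) := even_succ_pow hp2
  let G' : Subgroup SL(2, ℤ) := Gamma0 m ⊓ (Subgroup.zpowers (-c)).comap (red q)
  have hred : ∀ γ : G', ∃ n : ℕ, (red q (γ : SL(2, ℤ))) ^ (P + 1) = c ^ n ∧
      (red q (γ : SL(2, ℤ)) = c ^ n ∨ red q (γ : SL(2, ℤ)) = -c ^ n) := fun γ => by
    obtain ⟨n, hn⟩ := Submonoid.mem_powers_iff _ _ |>.mp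
      (mem_powers_iff_mem_zpowers.mpr (Subgroup.mem_comap.mp γ.2.2))
    refine ⟨n, ?_, ?_⟩
    · rw [← hn, ← pow_mul, Even.neg_pow (hev.mul_left n), mul_add, mul_one, pow_add, pow_mul',
        ← hc, pow_orderOf_eq_one, one_pow, one_mul]
    · rcases n.even_or_odd with h | h
      · exact Or.inl (by rw [← hn, h.neg_pow])
      · exact Or.inr (by rw [← hn, h.neg_pow])
  let toH : G' →* Subgroup.zpowers c :=
    MonoidHom.mk' (fun γ => ⟨(red q (γ : SL(2, ℤ))) ^ (P + 1), by
      obtain ⟨n, hn, -⟩ := hred γ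
      rw [hn]
      exact ⟨(n : ℤ), zpow_natCast c n⟩⟩) fun a b => Subtype.ext (by
      show _ = (red q (a : SL(2, ℤ))) ^ (P + 1) * (red q (b : SL(2, ℤ))) ^ (P + 1)
      obtain ⟨i, hi⟩ := Subgroup.mem_zpowers_iff.mp (Subgroup.mem_comap.mp a.2.2)
      obtain ⟨j, hj⟩ := Subgroup.mem_zpowers_iff.mp (Subgroup.mem_comap.mp b.2.2)
      show (red q ((a * b : G') : SL(2, ℤ))) ^ (P + 1) = _
      rw [Subgroup.coe_mul, map_mul, ← hi, ← hj, (Commute.zpow_zpow_self (-c) i j).mul_pow])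
  have hcmem : c ∈ Subgroup.zpowers (-c) :=
    ⟨((P + 1 : ℕ) : ℤ), by
      show (-c) ^ ((P + 1 : ℕ) : ℤ) = c
      rw [zpow_natCast, hev.neg_pow, pow_succ, ← hc, pow_orderOf_eq_one, one_mul]⟩
  have hg' : g ∈ G' := ⟨hg, Subgroup.mem_comap.mpr (hgc.symm ▸ hcmem)⟩
  let G : Subgroup SL(2, ℤ) := toH.ker.map G'.subtype
  let Q : LevQuot G G' (Subgroup.zpowers c) :=
    { toHom := toH
      le := fun x hx => by
        obtain ⟨y, -, rfl⟩ := hx
        exact y.2
      surj := fun δ => by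
        obtain ⟨n, hn⟩ := Submonoid.mem_powers_iff _ _ |>.mp
          (mem_powers_iff_mem_zpowers.mpr δ.2)
        refine ⟨⟨g, hg'⟩ ^ n, Subtype.ext ?_⟩
        show (red q (((⟨g, hg'⟩ : G') ^ n : G') : SL(2, ℤ))) ^ (P + 1) = _
        rw [SubgroupClass.coe_pow, map_pow, ← pow_mul, mul_comm, pow_mul, hgc, pow_succ, ← hc,
          pow_orderOf_eq_one, one_mul, hn]
      ker_iff := fun γ => by
        refine ⟨fun h => ⟨γ, h, rfl⟩, fun h => ?_⟩
        obtain ⟨y, hy, e⟩ := h
        rwa [← Subtype.ext e] }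
  have hneg : (-1 : SL(2, ℤ)) ∈ G := by
    refine ⟨⟨-1, neg_mem_gamma0 (Gamma0 m).one_mem, Subgroup.mem_comap.mpr
      ⟨(P : ℤ), ?_⟩⟩, Subtype.ext ?_, rfl⟩
    · show (-c) ^ (P : ℤ) = red q (-1)
      rw [zpow_natCast, red_neg, map_one, Odd.neg_pow (by simpa [hP] using
        (hp.odd_of_ne_two hp2).pow), ← hc, pow_orderOf_eq_one]
    · show (red q (-1 : SL(2, ℤ))) ^ (P + 1) = 1
      rw [red_neg, map_one, hev.neg_one_pow]
  have hmidG' : midGroup q m ≤ G' := fun γ hγ =>
    ⟨hγ.2, Subgroup.mem_comap.mpr (by rw [(mem_mid q m).mp hγ |>.1]; exact one_mem _)⟩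
  have hmidG : midGroup q m ≤ G := fun γ hγ => ⟨⟨γ, hmidG' hγ⟩, Subtype.ext (by
    show (red q γ) ^ (P + 1) = 1
    rw [(mem_mid q m).mp hγ |>.1, one_pow]), rfl⟩
  -- invariance
  have hfix : ∀ γ : G', actL (red q (γ : SL(2, ℤ))) u = u := fun γ => by
    obtain ⟨n, -, h | h⟩ := hred γ
    all_goals
      rw [h]
      try rw [actL_neg]
      rw [← actL_pow]
      clear h
      induction n with
      | zero => rfl
      | succ n ih => rw [pow_succ, Module.End.mul_apply, hu, ih]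
  -- extension to `G'`
  let f : G' →* SL(2, ZMod q) := (red q).comp G'.subtype
  have hH : (midGroup q m).subgroupOf G' = f.ker := by
    ext γ
    rw [Subgroup.mem_subgroupOf, mem_mid, MonoidHom.mem_ker]
    exact ⟨fun h => h.1, fun h => ⟨h, Gamma0_mem.mp γ.2.1⟩⟩
  haveI : ((midGroup q m).subgroupOf G').Normal := hH ▸ inferInstance
  have hrange : f.range = Subgroup.zpowers (-c) := by
    refine le_antisymm ?_ fun x hx => ?_
    · rintro x ⟨γ, rfl⟩
      exact γ.2.2
    · exact ⟨⟨liftQ q m x, liftQ_mem q m x,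
        Subgroup.mem_comap.mpr (by rwa [red_liftQ])⟩, red_liftQ q m x⟩
  have hindex : ((midGroup q m).subgroupOf G').index = orderOf (-c) := by
    rw [hH, Subgroup.index_ker, hrange, Nat.card_zpowers]
  haveI : ((midGroup q m).subgroupOf G').FiniteIndex := ⟨by
    rw [hindex]; exact (orderOf_pos (-c)).ne'⟩
  have hPn : P ∣ orderOf (-c) := by
    rw [← hc]
    exact orderOf_dvd_of_mem_zpowers hcmem
  obtain ⟨r, hr⟩ := hPn
  have hr2 : r ∣ 2 := by
    refine (Nat.mul_dvd_mul_iff_left hPpos).mp (hr ▸ ?_)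
    refine orderOf_dvd_of_pow_eq_one ?_
    rw [mul_comm, pow_mul, neg_sq, ← pow_mul, mul_comm, pow_mul, ← hc, pow_orderOf_eq_one, one_pow]
  have hrp : ¬ p ∣ r := fun h => hp2 ((Nat.prime_dvd_prime_iff_eq hp Nat.prime_two).mp (h.trans hr2))
  let e : (midGroup q m).subgroupOf G' →* midGroup q m :=
    MonoidHom.mk' (fun h => ⟨((h : G') : SL(2, ℤ)), h.2⟩) fun _ _ => rfl
  obtain ⟨φ, hφ⟩ := exists_hom_extend (H := (midGroup q m).subgroupOf G') (u.comp e.toAdditive)
    (fun γ h => by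
      have := DFunLike.congr_fun (hfix γ) (Additive.ofMul (e h))
      rwa [actL_apply _ γ.2.1 rfl] at this)
    (g := (⟨g, hg'⟩ : G')) (P := P) (r := r) (pow_mem_mid hc hg hgc)
    (fun i hi => by
      have h1 := ((mem_mid q m).mp hi).1
      rw [G'.subtype_apply, SubgroupClass.coe_zpow, map_zpow, hgc, ← orderOf_dvd_iff_zpow_eq_one, hc] at h1
      exact h1)
    hgP hPpos (hindex.trans hr) hrp
  -- the norm
  have h2 : Function.Bijective fun a : ZMod p => 2 • a := by
    simp only [nsmul_eq_mul, Nat.cast_ofNat]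
    refine mulLeft_bijective₀ (2 : ZMod p) fun h => hp2 ?_
    have : (p : ℕ) ∣ 2 := (ZMod.natCast_eq_zero_iff 2 p).mp (by exact_mod_cast h)
    exact (Nat.prime_dvd_prime_iff_eq hp Nat.prime_two).mp this
  haveI : Fintype (Subgroup.zpowers c) := Fintype.ofFinite _
  obtain ⟨χ, hχ⟩ : ∃ χ : Additive G →+ ZMod p, ∑ δ, Q.dia (ZMod p) δ χ = Q.res (ZMod p) φ := by
    by_cases h33 : p = 3
    · obtain ⟨r, hr, hrm, hr3⟩ := h3 h33
      exact Levels.exists_norm_eq_free Q (ZMod p) hneg h2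
        (fun y => Levels.uGen_smul_ne inf_le_left hr hrm hr3 y) φ
    · refine Q.exists_norm_eq (ZMod p) hneg h2 ?_ φ
      simp only [nsmul_eq_mul, Nat.cast_ofNat]
      refine mulLeft_bijective₀ (3 : ZMod p) fun h => h33 ?_
      have : (p : ℕ) ∣ 3 := (ZMod.natCast_eq_zero_iff 3 p).mp (by exact_mod_cast h)
      exact (Nat.prime_dvd_prime_iff_eq hp Nat.prime_three).mp this
  let w : HomA q m p := χ.comp (Subgroup.inclusion hmidG).toAdditive
  have hdia : ∀ (δ : Subgroup.zpowers c) (γ : midGroup q m),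
      Q.dia (ZMod p) δ χ (Additive.ofMul (Subgroup.inclusion hmidG γ)) =
        actL ((δ : SL(2, ZMod q))⁻¹) w (Additive.ofMul γ) := fun δ γ => by
    rw [LevQuot.dia_apply]
    set s : G' := Q.sec δ
    have hs : actL (q := q) (m := m) (p := p) ((δ : SL(2, ZMod q))⁻¹) =
        actL (red q ((s⁻¹ : G') : SL(2, ℤ))) := by
      obtain ⟨n, hn, h⟩ := hred s
      have hδ : (δ : SL(2, ZMod q)) = c ^ n := by
        rw [← hn]
        exact (congrArg Subtype.val (Q.toHom_sec δ)).symm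
      rw [Subgroup.coe_inv, map_inv, hδ]
      rcases h with h | h
      · rw [h]
      · rw [h, inv_neg, actL_neg]
    rw [hs, actL_apply _ (g := ((s⁻¹ : G') : SL(2, ℤ))) (s⁻¹).2.1 rfl]
    refine congrArg χ (congrArg Additive.ofMul (Subtype.ext ?_))
    show (s : SL(2, ℤ))⁻¹ * γ * s = (s : SL(2, ℤ))⁻¹ * γ * (s : SL(2, ℤ))⁻¹⁻¹
    rw [inv_inv]
  refine ⟨w, AddMonoidHom.ext fun z => ?_⟩
  obtain ⟨γ, rfl⟩ := Additive.ofMul.surjective z
  have hfin : IsOfFinOrder c := isOfFinOrder_of_finite c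
  have h := DFunLike.congr_fun hχ (Additive.ofMul (Subgroup.inclusion hmidG γ))
  rw [AddMonoidHom.finsetSum_apply, LevQuot.res_apply] at h
  have hu' : u (Additive.ofMul γ) =
      φ (Additive.ofMul (Subgroup.inclusion Q.le (Subgroup.inclusion hmidG γ))) :=
    (hφ ⟨⟨γ, hmidG' γ.2⟩, γ.2⟩).symm
  rw [AddMonoidHom.finsetSum_apply, hu', ← h, ← Equiv.sum_comp (Equiv.inv (Subgroup.zpowers c)),
    ← Equiv.sum_comp (finEquivZPowers hfin), Finset.sum_range fun i => actL (c ^ i) w (Additive.ofMul γ),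
    ← Equiv.sum_comp (finCongr hc)]
  refine Finset.sum_congr rfl fun i _ => ?_
  rw [hdia]
  simp [finEquivZPowers_apply]

include hp2 h3 in
/-- A cocycle on a cyclic group of `p`-power order with no obstruction is a coboundary. -/
theorem exists_coboundary (y : HomA q m p)
    (hy : ∑ i ∈ Finset.range (p ^ k), actL (c ^ i) y = 0)
    (hα : y (Additive.ofMul ⟨g ^ (p ^ k), pow_mem_mid hc hg hgc⟩) = 0) :
    ∃ x, actL c x - x = y := by
  set D : Module.End (ZMod p) (HomA q m p) := actL c - 1 with hD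
  let α : HomA q m p → ZMod p := fun z =>
    z (Additive.ofMul ⟨g ^ (p ^ k), pow_mem_mid hc hg hgc⟩)
  have hαD : ∀ z, α (D z) = 0 := fun z => by
    show (actL c z - z) _ = 0
    rw [AddMonoidHom.sub_apply, actL_apply c hg hgc, sub_eq_zero]
    refine congrArg z (congrArg Additive.ofMul (Subtype.ext ?_))
    show g * g ^ (p ^ k) * g⁻¹ = g ^ (p ^ k)
    group
  have key : ∀ j, j ≤ p ^ k - 1 → ∀ y, (D ^ j) y = 0 → α y = 0 → ∃ x, D x = y := by
    intro j
    induction j with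
    | zero => exact fun _ y h _ => ⟨0, by rw [map_zero]; simpa using h.symm⟩
    | succ j ih =>
      intro hj y hy hαy
      set u := (D ^ j) y with hu
      have hDu : actL c u = u := by
        have : (D ^ (j + 1)) y = D u := by rw [pow_succ', Module.End.mul_apply]
        rw [hy] at this
        exact sub_eq_zero.mp this.symm
      have hαu : α u = 0 := by
        rcases j with _ | j
        · simpa [hu] using hαy
        · rw [hu, pow_succ', Module.End.mul_apply]
          exact hαD _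
      obtain ⟨w, hw⟩ := exists_sum_eq hp2 h3 hc hg hgc u hDu hαu
      rw [sum_actL] at hw
      obtain ⟨i, hi⟩ : ∃ i, p ^ k - 1 = j + (i + 1) := ⟨p ^ k - 1 - j - 1, by omega⟩
      rw [hi, pow_add, Module.End.mul_apply, ← hD] at hw
      obtain ⟨x, hx⟩ := ih (by omega) (y - (D ^ (i + 1)) w) (by rw [map_sub, hw, ← hu, sub_self]) (by
        show (y - (D ^ (i + 1)) w) _ = 0
        rw [AddMonoidHom.sub_apply, pow_succ', Module.End.mul_apply]
        exact (congrArg₂ (· - ·) hαy (hαD _)).trans (sub_zero 0))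
      refine ⟨x + (D ^ i) w, ?_⟩
      rw [map_add, hx, ← Module.End.mul_apply, ← pow_succ', sub_add_cancel]
  obtain ⟨x, hx⟩ := key _ le_rfl y (by rw [hD, ← sum_actL]; exact hy) hα
  exact ⟨x, hx⟩

end Cyclic

/-- A cocycle that is a coboundary on a subgroup of index prime to `p` is a coboundary. -/
theorem exists_coboundary_of_index (Y : SL(2, ZMod q) → HomA q m p)
    (hY : ∀ h g, Y (h * g) = actL g (Y h) + Y g) {c : SL(2, ZMod q)}
    (hidx : ¬ p ∣ (Subgroup.zpowers c).index) {x : HomA q m p} (hx : actL c x - x = Y c) :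
    ∃ x', ∀ g, actL g x' - x' = Y g := by
  classical
  let C := Subgroup.zpowers c
  have hcyc : ∀ γ ∈ C, actL γ x - x = Y γ := fun γ hγ => by
    obtain ⟨n, rfl⟩ := Submonoid.mem_powers_iff _ _ |>.mp (mem_powers_iff_mem_zpowers.mpr hγ)
    clear hγ
    induction n with
    | zero =>
      have h1 := hY 1 1
      rw [mul_one, actL_one, Module.End.one_apply, left_eq_add] at h1
      rw [pow_zero, actL_one, Module.End.one_apply, sub_self, h1]
    | succ n ih =>
      rw [pow_succ, hY, ← hx, ← ih, map_sub, actL_actL]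
      abel
  let Wf : SL(2, ZMod q) → HomA q m p := fun γ => actL γ x - Y γ
  have hW : ∀ δ ∈ C, ∀ γ, Wf (δ * γ) = Wf γ := fun δ hδ γ => by
    simp only [Wf, hY, ← hcyc δ hδ, map_sub, actL_actL]
    abel
  have hact : ∀ g γ, actL g (Wf γ) = Wf (γ * g) + Y g := fun g γ => by
    simp only [Wf, hY, map_sub, actL_actL]
    abel
  let Φ : SL(2, ZMod q) ⧸ C → HomA q m p :=
    Quotient.lift (fun γ => Wf γ⁻¹) fun a b hab => by
      have := QuotientGroup.leftRel_apply.mp hab
      show Wf a⁻¹ = Wf b⁻¹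
      rw [show b⁻¹ = (a⁻¹ * b)⁻¹ * a⁻¹ by group, hW _ (inv_mem this)]
  haveI : Fintype (SL(2, ZMod q) ⧸ C) := Fintype.ofFinite _
  set r := C.index with hr
  have hr0 : (r : ZMod p) ≠ 0 := fun h => hidx ((ZMod.natCast_eq_zero_iff _ _).mp h)
  refine ⟨(r : ZMod p)⁻¹ • ∑ z, Φ z, fun g => ?_⟩
  have hsum : actL g (∑ z, Φ z) = (∑ z, Φ z) + (r : ZMod p) • Y g := by
    rw [map_sum, hr, Subgroup.index_eq_card, Nat.card_eq_fintype_card, Nat.cast_smul_eq_nsmul,
      ← Finset.card_univ, ← Finset.sum_const,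
      ← Equiv.sum_comp (MulAction.toPerm g⁻¹) Φ, ← Finset.sum_add_distrib]
    refine Finset.sum_congr rfl fun z _ => ?_
    induction z using QuotientGroup.induction_on with
    | H γ =>
      show actL g (Wf γ⁻¹) = Wf (g⁻¹ * γ)⁻¹ + Y g
      rw [hact, mul_inv_rev, inv_inv]
  rw [map_smul, hsum, smul_add, add_sub_cancel_left, smul_smul, inv_mul_cancel₀ hr0, one_smul]

end Fermat.Agent.R59.NoSq
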