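import Fermat.Agent.R59.NoSq.Setup
import Fermat.Agent.NewVec.Norm
import Fermat.Agent.NewVec.PsiGalois

/-!
# S59, unit A: the value of a class at a power of an element

If the translates of a class of level `Γ(q) ∩ Γ₀(m)` by the powers of `g` sum to zero, its value
at `g ^ P ∈ Γ(q) ∩ Γ₀(m)` does not change under Galois elements trivial on roots of unity.
-/

set_option autoImplicit false
set_option linter.style.haveILetI false
set_option linter.unusedSectionVars false

noncomputable section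

namespace Fermat.Agent.R59.NoSq

open CongruenceSubgroup UpperHalfPlane
open Fermat.Agent.GalRep Fermat.Agent.GalRep.Level Fermat.Agent.NewVec
open Fermat.Agent.Galois (GQ)
open scoped MatrixGroups

variable {q m : ℕ} [NeZero q] [NeZero m] [Fact (Nat.Coprime q m)]

local notation "Qbar" => AlgebraicClosure ℚ
local notation "mid" => midGroup q m

theorem act_galG_of_one {n : ℕ} [NeZero n] {s : GQ} (hs : cycM (q * q * m) s = 1)
    (x : SL(2, ZMod q)) (χ : ParG mid (ZMod n)) :
    galG (isLevel_mid q m) n s (act q m x χ) = act q m x (galG (isLevel_mid q m) n s χ) := by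
  rw [act_galG]
  have : cycM q s = 1 := by
    rw [← cycM_castHom (⟨q * m, mul_assoc _ _ _⟩ : q ∣ q * q * m) s, hs, map_one]
  rw [this]
  congr 2
  ext i j
  fin_cases i <;> fin_cases j <;> simp [conjA]

variable {n : ℕ} [NeZero n]

/-- The product of the translates of a representative by powers of `g`. -/
def cycleFun (g : SL(2, ℤ)) (P : ℕ) (F : ℍ → ℂ) : ℍ → ℂ :=
  ∏ i ∈ Finset.range P, fun τ => F (g ^ i • τ)

theorem cycleFun_smul (χ : ParG mid (ZMod n)) {F : ℍ → ℂ} (hF : IsRepG mid n χ F) {g : SL(2, ℤ)} {P : ℕ}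
    (hgP : g ^ P ∈ mid) (τ : ℍ) :
    cycleFun g P F (g • τ) =
      ZMod.stdAddChar (N := n) ((χ : Additive mid →+ ZMod n) (Additive.ofMul ⟨g ^ P, hgP⟩)) *
        cycleFun g P F τ := by
  simp only [cycleFun, Finset.prod_apply]
  have e := hF.equivariant ⟨g ^ P, hgP⟩ τ
  simp only at e
  have h2 : ∀ i, F (g ^ i • g • τ) = F (g ^ (i + 1) • τ) := fun i => by rw [pow_succ, mul_smul]
  simp only [h2]
  rcases P with _ | P
  · rw [show (⟨g ^ 0, hgP⟩ : mid) = 1 from Subtype.ext (pow_zero g), ofMul_one, map_zero,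
      AddChar.map_zero_eq_one]
    simp
  · rw [Finset.prod_range_succ, e, Finset.prod_range_succ' (fun i => F (g ^ i • τ)) P, pow_zero,
      one_smul]
    ring

theorem isRepG_cycleFun (χ : ParG mid (ZMod n)) {F : ℍ → ℂ} (hF : IsRepG mid n χ F) {g : SL(2, ℤ)} (hg : g ∈ Gamma0 m)
    (P : ℕ) : IsRepG mid n (∑ i ∈ Finset.range P, act q m (red q g ^ i) χ) (cycleFun g P F) :=
  isRepG_prod _ _ _ fun i _ => by
    rw [← map_pow]
    exact isRepG_translate hF ((Gamma0 m).pow_mem hg i)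

/-- The value at `g ^ P` of a class killed by the norm is fixed by `s`. -/
theorem galG_cycle_value (χ : ParG mid (ZMod n)) {s : GQ} (hs : cycM (q * q * m) s = 1)
    (hζ : ∀ z : Qbar, z ^ n = 1 → s z = z) {g : SL(2, ℤ)} (hg : g ∈ Gamma0 m) {P : ℕ}
    (hgP : g ^ P ∈ mid) (hN : ∑ i ∈ Finset.range P, act q m (red q g ^ i) χ = 0) :
    ((galG (isLevel_mid q m) n s χ : ParG mid (ZMod n)) : Additive mid →+ ZMod n)
        (Additive.ofMul ⟨g ^ P, hgP⟩) =
      (χ : Additive mid →+ ZMod n) (Additive.ofMul ⟨g ^ P, hgP⟩) := by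
  have hG := isLevel_mid q m
  set σ := liftAut s with hσ
  obtain ⟨F, hF, -⟩ := exists_repG χ hG
  obtain ⟨f, hf, -⟩ := hF.exists_series_infty hG
  obtain ⟨F', hF', -, hrel, -⟩ := autG_spec hG σ hF hf
  rw [← galG_eq_autG] at hF'
  set χ' := galG hG n s χ with hχ'
  have hN' : ∑ i ∈ Finset.range P, act q m (red q g ^ i) χ' = 0 := by
    simp only [hχ', ← act_galG_of_one hs, ← map_sum, hN, map_zero]
  have hH := isRepG_cycleFun χ hF hg P
  have hH' := isRepG_cycleFun χ' hF' hg P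
  rw [hN] at hH
  rw [hN'] at hH'
  let φ : MF (q * q * m) := ⟨_, modFuns_anti hG.gamma_le hH.isModFun⟩
  let ψ : MF (q * q * m) := ⟨_, modFuns_anti hG.gamma_le hH'.isModFun⟩
  obtain ⟨φ', hφ'⟩ := exists_conjF σ φ
  have hone : ∀ g : SL(2, ℤ), ConjEq (q * q * m) (cycC (q * q * m) σ) g g := fun g => by
    rw [hσ, cycC_liftAut, hs, ConjEq]
    ext i j
    fin_cases i <;> fin_cases j <;> simp [conjA]
  choose h hh using fun i : ℕ => hF.exists_series hG (g ^ i)
  choose h' hh' using fun i : ℕ => hF'.exists_series hG (g ^ i)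
  have hpow : ∀ i, h' i ^ n = lmap σ.toRingHom (h i) ^ n := fun i =>
    hrel _ _ _ _ (hone _) (hh i).1 (hh' i).1
  have hserφ : serAlg (q * q * m) φ = ∏ i ∈ Finset.range P, h i :=
    (hasQSeries_serHom φ).unique (NeZero.pos _)
      (HasQSeries.prod (Finset.range P) fun i _ => (hh i).1)
  have hserψ : serAlg (q * q * m) ψ = ∏ i ∈ Finset.range P, h' i :=
    (hasQSeries_serHom ψ).unique (NeZero.pos _)
      (HasQSeries.prod (Finset.range P) fun i _ => (hh' i).1)
  have hserφ' : serAlg (q * q * m) φ' = lmap σ.toRingHom (serAlg (q * q * m) φ) := by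
    have := hφ' 1 1 (hone 1)
    rwa [shift_one, shift_one] at this
  have hψ0 : ψ ≠ 0 := fun h0 => hH'.ne_zero (congrArg Subtype.val h0)
  have hsψ0 : serAlg (q * q * m) ψ ≠ 0 := fun h0 =>
    hψ0 (serAlg_injective _ (h0.trans (map_zero _).symm))
  have hp : serAlg (q * q * m) φ' ^ n = serAlg (q * q * m) ψ ^ n := by
    rw [hserφ', hserφ, hserψ, map_prod, ← Finset.prod_pow, ← Finset.prod_pow]
    exact Finset.prod_congr rfl fun i _ => (hpow i).symm
  obtain ⟨ω, -, hω⟩ := exists_root_unity_of_pow_eq hsψ0 hp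
  have hωφ : φ' = algebraMap ℂ _ ω * ψ := serAlg_injective _ (by
    rw [hω, map_mul, AlgHom.commutes,
      show algebraMap ℂ (LaurentSeries ℂ) ω = HahnSeries.C ω by simp [HahnSeries.algebraMap_apply']])
  set c : ℂ := ZMod.stdAddChar (N := n) ((χ : Additive mid →+ ZMod n) (Additive.ofMul ⟨g ^ P, hgP⟩))
  set c' : ℂ := ZMod.stdAddChar (N := n) ((χ' : Additive mid →+ ZMod n) (Additive.ofMul ⟨g ^ P, hgP⟩))
  have hcfix : σ c = c := by
    have hcn : c ^ n = 1 := by
      rw [show c = ZMod.stdAddChar (N := n) _ from rfl, ← AddChar.map_nsmul_eq_pow, nsmul_eq_mul,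
        ZMod.natCast_self, zero_mul, AddChar.map_zero_eq_one]
    obtain ⟨z, hz⟩ := exists_qbarToC_eq (x := c) ⟨Polynomial.X ^ n - 1,
      (Polynomial.monic_X_pow_sub_C 1 (NeZero.ne n)).ne_zero, by simp [hcn]⟩
    rw [← hz, hσ, liftAut_spec, hζ z (qbarToC_injective (by rw [map_pow, hz, hcn, map_one]))]
  have e1 : shift (q * q * m) g φ = algebraMap ℂ _ c * φ :=
    Subtype.ext (funext fun τ => cycleFun_smul χ hF hgP τ)
  have e3 : shift (q * q * m) g ψ = algebraMap ℂ _ c' * ψ :=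
    Subtype.ext (funext fun τ => cycleFun_smul χ' hF' hgP τ)
  have e2 : shift (q * q * m) g φ' = algebraMap ℂ _ c * φ' := serAlg_injective _ (by
    rw [hφ' g g (hone g), e1, map_mul, map_mul, map_mul, AlgHom.commutes, ← hserφ',
      lmap_algebraMap]
    rw [hcfix])
  rw [hωφ, map_mul, AlgHom.commutes, e3, mul_left_comm] at e2
  have hω0 : ω ≠ 0 := fun h0 => by
    have hφ0 : serAlg (q * q * m) φ' ≠ 0 := fun h1 => hsψ0 (pow_eq_zero_iff (NeZero.ne n) |>.mp
      (by rw [← hp, h1, zero_pow (NeZero.ne n)]))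
    exact hφ0 (by rw [hωφ, h0, map_zero, zero_mul, map_zero])
  obtain ⟨τ, hτ⟩ := Function.ne_iff.mp hH'.ne_zero
  have e4 := congrFun (congrArg Subtype.val e2) τ
  have hcc : c' * (ω * (ψ : ℍ → ℂ) τ) = c * (ω * (ψ : ℍ → ℂ) τ) := e4
  have := mul_right_cancel₀ (mul_ne_zero hω0 hτ) hcc
  exact ZMod.injective_stdAddChar this

end Fermat.Agent.R59.NoSq
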