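import Fermat.Agent.Models.DetectTarget
import Fermat.Agent.Models.DetectGlue

/-!
# S59, unit A: compatible roots from split branch values
-/

set_option autoImplicit false
set_option linter.unusedSectionVars false

noncomputable section

namespace Fermat.Agent.R59.NoSq

open IsLocalRing
open Fermat.Agent.Models

variable {O F : Type} [CommRing O] [IsDomain O] [IsDiscreteValuationRing O] [Field F] [Algebra O F]
  {ι : Type} [Fintype ι] {π : O} {P : ι → ValuationSubring F} [IsAlgClosed (ResidueField O)]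

set_option maxHeartbeats 1000000 in
/-- Targets, local roots and branch values which are split at the special points give compatible
roots, after a power of the residue characteristic. -/
theorem exists_root_of_split (hπ : Irreducible π) (q : ℕ) (hq : q.Prime)
    (hqπ : (q : O) ∈ maximalIdeal O) (Bc : Bool → Subalgebra O F)
    (hcl : ∀ t, ∀ x : F, IsIntegral (Bc t) x → x ∈ Bc t) (hf : ∀ t, ChartFibre (Bc t) π P)
    (hu₁ : ∀ i, algebraMap O F π ∈ (P i).nonunits) {n : ℕ} (hn : 0 < n) {f : F} (hf0 : f ≠ 0)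
    {e₀ : ℕ} {T : ι → F} (hT : ∀ i, IsU (P i) (T i ^ n / f ^ e₀) ∧ rs (P i) (T i ^ n / f ^ e₀) = 1)
    {s : ∀ t, {x : Ideal (Bc t) // IsPoint π x} → F}
    {ev : ∀ t, {x : Ideal (Bc t) // IsPoint π x} → ResidueField O}
    (hs0 : ∀ t x, s t x ≠ 0) (hev0 : ∀ t x, ev t x ≠ 0)
    (hev : ∀ t x, HasValue x.1 (f / s t x ^ n) (ev t x))
    {βv : ∀ (t : Bool) (x : {x : Ideal (Bc t) // IsPoint π x}) (i : ι),
      center (hf t) i ≤ x.1 → ResidueField O}
    (hβv : ∀ t x i hi, BranchValue P x.1 i (T i / s t x ^ e₀) (βv t x i hi))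
    (X : ∀ t, Finset (Ideal (Bc t))) (hXp : ∀ t, ∀ x ∈ X t, IsPoint π x)
    (hXc : ∀ t i, ∃ x ∈ X t, center (hf t) i ≤ x)
    (hXout : ∀ t x, IsPoint π x → x ∉ X t → ∀ i j, center (hf t) i ≤ x → center (hf t) j ≤ x →
      center (hf t) i = center (hf t) j ∧ ¬ (center (hf t) i).IsMaximal)
    {φ : ∀ t, Ideal (Bc t) → (ResidueField O)ˣ} {ψ : ι → (ResidueField O)ˣ}
    (hsplit : ∀ t x i hi, x.1 ∈ X t → βv t x i hi = (φ t x.1 : ResidueField O) * ψ i) :
    ∃ (L : ℕ) (T : ι → F), (∀ i, IsU (P i) (T i ^ n / f ^ (e₀ * q ^ L))) ∧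
      ∀ t, ∃ s ∈ rootModule (rootClosed_of_isIntegral hn (hcl t)) hn (f ^ (e₀ * q ^ L)),
        (∀ i, s / T i ∈ P i ∧ rs (P i) (s / T i) = 1) ∧
          ∃ a ∈ Bc t, s ^ n / f ^ (e₀ * q ^ L) = 1 + π • a := by
  classical
  have hmem : ∀ (i : ι) (a : O), algebraMap O F a ∈ P i := algebraMap_mem_component (hf false)
  choose Lc hLc using fun t => exists_conductor_exponent (hf t)
  set L := Finset.univ.sup Lc
  have hQL : L ≤ q ^ L := (Nat.lt_pow_self hq.one_lt).le
  have hB : ∀ t, RootClosed (Bc t) n := fun t => rootClosed_of_isIntegral hn (hcl t)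
  -- the corrected targets for `f ^ e₀`
  have hr : ∀ i, ∃ c₀ : O, IsUnit c₀ ∧ residue O c₀ ^ n = 1 ∧
      ∃ r : (ResidueField O)ˣ, r ^ n = ψ i ^ n ∧ (residue O c₀) = (ψ i : ResidueField O) / r ∧
        ∀ j, ψ i ^ n = ψ j ^ n → r = Units.mk0
          (Classical.choose (IsAlgClosed.exists_pow_nat_eq (((ψ j) ^ n : (ResidueField O)ˣ) : ResidueField O) hn))
          (by
            intro h0
            have := Classical.choose_spec (IsAlgClosed.exists_pow_nat_eq
              (((ψ j) ^ n : (ResidueField O)ˣ) : ResidueField O) hn)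
            rw [h0, zero_pow hn.ne'] at this
            exact ((ψ j) ^ n).ne_zero this.symm) := by
    intro i
    set r0 := Classical.choose (IsAlgClosed.exists_pow_nat_eq
      (((ψ i) ^ n : (ResidueField O)ˣ) : ResidueField O) hn)
    have hr0 : r0 ^ n = (((ψ i) ^ n : (ResidueField O)ˣ) : ResidueField O) :=
      Classical.choose_spec (IsAlgClosed.exists_pow_nat_eq
        (((ψ i) ^ n : (ResidueField O)ˣ) : ResidueField O) hn)
    have hne : r0 ≠ 0 := fun h0 => ((ψ i) ^ n).ne_zero (by rw [← hr0, h0, zero_pow hn.ne'])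
    obtain ⟨c₀, hc₀⟩ := IsLocalRing.residue_surjective ((ψ i : ResidueField O) / r0)
    refine ⟨c₀, IsLocalRing.notMem_maximalIdeal.mp fun h => ?_, ?_, Units.mk0 r0 hne,
      Units.ext (by simpa using hr0), hc₀, fun j hj => Units.ext ?_⟩
    · rw [(residue_eq_zero_iff _).mpr h] at hc₀
      exact div_ne_zero (ψ i).ne_zero hne hc₀.symm
    · rw [hc₀, div_pow, hr0, Units.val_pow_eq_pow_val, div_self (pow_ne_zero _ (ψ i).ne_zero)]
    · simp only [Units.val_mk0, r0]
      congr 1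
      rw [hj]
  choose cO hcO hcOn r hrn hcOv hrind using hr
  let T' : ι → F := fun i => T i  / algebraMap O F (cO i)
  have hcU : ∀ i, IsU (P i) (algebraMap O F (cO i)) := fun i => isU_algebraMap hmem i (hcO i)
  have hcn : ∀ i, rs (P i) (algebraMap O F (cO i) ^ n) = 1 := fun i => by
    rw [← map_pow, ← rs_one (A := P i), rs_eq_iff (hmem i _) (P i).one_mem,
      ← map_one (algebraMap O F), ← map_sub]
    have h : cO i ^ n - 1 ∈ maximalIdeal O := by
      rw [← residue_eq_zero_iff, map_sub, map_pow, map_one, hcOn, sub_self]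
    rw [hπ.maximalIdeal_eq, Ideal.mem_span_singleton] at h
    obtain ⟨e, he⟩ := h
    rw [he, map_mul]
    refine (rs_eq_zero ((P i).mul_mem _ _ (hmem i π) (hmem i e))).mp ?_
    rw [rs_mul (hmem i π) (hmem i e), rs_eq_zero_of_nonunit (hu₁ i), zero_mul]
  have hT' : ∀ i, IsU (P i) (T' i ^ n / f ^ e₀) ∧ rs (P i) (T' i ^ n / f ^ e₀) = 1 := by
    intro i
    obtain ⟨h1, h2⟩ := hT i
    have e : T' i ^ n / f ^ e₀ = (T i ^ n / f ^ e₀)  / algebraMap O F (cO i) ^ n := by
      simp only [T', div_pow]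
      rw [div_right_comm]
    rw [e]
    exact ⟨h1.div ((hcU i).pow n),
      by rw [h1.rs_div ((hcU i).pow n), h2, hcn, div_one]⟩
  -- values of the corrected targets at every point
  let z : ∀ (t : Bool) (x : {x : Ideal (Bc t) // IsPoint π x}) (i : ι), F :=
    fun t x i => T' i / (s t x ^ e₀) 
  have hzval : ∀ (t : Bool) (x : {x : Ideal (Bc t) // IsPoint π x}) (i : ι) (hi : center (hf t) i ≤ x.1),
      BranchValue P x.1 i (z t x i) (βv t x i hi  / residue O (cO i)) := by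
    intro t x i hi
    have h1 := hβv t x i hi
    have hne : residue O (cO i) ≠ 0 := ((hcO i).map (residue O)).ne_zero
    have h2 := BranchValue.of_hasValue (hf := hf t) hπ x.2 hi
      ((HasValue.algebraMap_const x.2 (cO i)).inv hπ x.2 hne) (inv_ne_zero hne)
    have h3 := h1.mul hπ x.2 hi h2
    rw [← div_eq_mul_inv, ← div_eq_mul_inv, div_right_comm] at h3
    exact h3
  have hkey : ∀ (t : Bool) (x : {x : Ideal (Bc t) // IsPoint π x}) (i j : ι)
      (hi : center (hf t) i ≤ x.1) (hj : center (hf t) j ≤ x.1), x.1 ∈ X t →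
      βv t x i hi  / residue O (cO i) = βv t x j hj  / residue O (cO j) := by
    intro t x i j hi hj hxX
    have hb : ∀ l (hl : center (hf t) l ≤ x.1),
        βv t x l hl  = (φ t x.1 : ResidueField O) * ψ l := fun l hl => hsplit t x l hl hxX
    have hn' : ∀ l (hl : center (hf t) l ≤ x.1), βv t x l hl ^ n = ev t x ^ e₀ := fun l hl => by
      have h1 := (hβv t x l hl).pow hπ x.2 hl n
      have h2 := BranchValue.of_hasValue (hf := hf t) hπ x.2 hl ((hev t x).pow x.2 e₀)
        (pow_ne_zero _ (hev0 t x))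
      obtain ⟨hU, hr⟩ := hT l
      have hfx := (hev t x).isU hπ x.2 (hev0 t x) hl
      have hf1 : f ≠ 0 := hf0
      have e : (T l / s t x ^ e₀) ^ n = T l ^ n / (f) ^ e₀ *
          ((f) / s t x ^ n) ^ e₀ := by
        rw [div_pow, div_pow, ← pow_mul, ← pow_mul, mul_comm n e₀]
        field_simp
      refine h1.unique hπ x.2 hl (h2.congr_rs h1.isU ?_)
      rw [e, rs_mul hU.1 (hfx.pow e₀).1, hr, one_mul]
    have hij : ψ i ^ n = ψ j ^ n := Units.ext (by
      have h : ∀ l (hl : center (hf t) l ≤ x.1),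
          (φ t x.1 : ResidueField O) ^ n * (ψ l : ResidueField O) ^ n = (ev t x ^ e₀)  := fun l hl => by
        rw [← mul_pow, ← hb l hl, hn' l hl]
      push_cast
      exact mul_left_cancel₀ (pow_ne_zero _ (φ t x.1).ne_zero) ((h i hi).trans (h j hj).symm))
    have hrij : r i = r j := (hrind i j hij).trans (hrind j j rfl).symm
    have hv : ∀ l (hl : center (hf t) l ≤ x.1),
        βv t x l hl  / residue O (cO l) = (φ t x.1 : ResidueField O) * r l := fun l hl => by
      rw [hb l hl, hcOv l]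
      have := (ψ l).ne_zero
      have := (r l).ne_zero
      field_simp
    rw [hv i hi, hv j hj, hrij]
  -- compare residues over one centre
  have hf1 : f = f := rfl
  have hyv : ∀ (t : Bool) (x : {x : Ideal (Bc t) // IsPoint π x}) (i : ι) (hi : center (hf t) i ≤ x.1),
      ∃ y : F, HasValue x.1 y (βv t x i hi  / residue O (cO i)) ∧
        IsU (P i) (z t x i) ∧ rs (P i) y = rs (P i) (z t x i) := fun t x i hi => (hzval t x i hi).2
  choose y hy hzU hyz using hyv
  have hne : ∀ (t : Bool) (x : {x : Ideal (Bc t) // IsPoint π x}) (i : ι) (hi : center (hf t) i ≤ x.1),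
      βv t x i hi  / residue O (cO i) ≠ 0 := fun t x i hi => (hzval t x i hi).1
  have hyU : ∀ (t : Bool) (x : {x : Ideal (Bc t) // IsPoint π x}) (i l : ι) (hi : center (hf t) i ≤ x.1),
      center (hf t) l ≤ x.1 → IsU (P l) (y t x i hi) := fun t x i l hi hl =>
    (hy t x i hi).isU hπ x.2 (hne t x i hi) hl
  have hsame : ∀ (t : Bool) (x : {x : Ideal (Bc t) // IsPoint π x}) (i j : ι)
      (hi : center (hf t) i ≤ x.1) (hj : center (hf t) j ≤ x.1),
      center (hf t) i = center (hf t) j → rs (P i) (y t x j hj) = rs (P i) (y t x i hi) := by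
    intro t x i j hi hj hij
    obtain ⟨x₀, hx₀X, hix₀⟩ := hXc t i
    set x₀' : {x : Ideal (Bc t) // IsPoint π x} := ⟨x₀, hXp t x₀ hx₀X⟩
    have hjx₀ : center (hf t) j ≤ x₀ := hij ▸ hix₀
    set w := (s t x₀' / s t x) ^ e₀ with hw
    have hwU : ∀ l, center (hf t) l ≤ x.1 → center (hf t) l ≤ x₀ →
        IsFrac (hf t) l w ∧ IsU (P l) w := by
      intro l hl hl0
      have e1 := hev t x
      have e0 := hev t x₀'
      have U0 := e0.isU hπ x₀'.2 (hev0 t x₀') hl0
      have e : (f / s t x ^ n) * (f / s t x₀' ^ n)⁻¹ =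
          (s t x₀' / s t x) ^ n := by
        rw [hf1, inv_div, div_pow]
        field_simp
      have hU := (e1.isU hπ x.2 (hev0 t x) hl).mul U0.inv
      have hF := (e1.isFrac hl).mul ((e0.isFrac hl0).inv U0)
      rw [e] at hU hF
      exact ⟨(hF.root (hB t) hn).pow _, (isU_of_pow hn hU).pow _⟩
    have hzw : ∀ l, z t x l = z t x₀' l * w := fun l => by
      simp only [z, hw, div_pow]
      field_simp [hs0 t x, hs0 t x₀']
    have hloc : ∀ l (hl : center (hf t) l ≤ x.1) (hl0 : center (hf t) l ≤ x₀),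
        rs (P l) (y t x l hl) = rs (P l) (y t x₀' l hl0 * w) := fun l hl hl0 => by
      rw [hyz, hzw, rs_mul (hzU t x₀' l hl0).1 (hwU l hl hl0).2.1,
        rs_mul (hyU t x₀' l l hl0 hl0).1 (hwU l hl hl0).2.1, hyz]
    have h0 : rs (P i) (y t x₀' j hjx₀) = rs (P i) (y t x₀' i hix₀) := by
      have hc := hkey t x₀' j i hjx₀ hix₀ hx₀X
      refine rs_eq_of_value_eq hπ (hf t) hn hu₁ x₀'.2 hix₀ (hne t x₀' i hix₀)
        (hc ▸ hy t x₀' j hjx₀) (hy t x₀' i hix₀) ?_
      have hpw : ∀ l (hl0 : center (hf t) l ≤ x₀), rs (P l) (y t x₀' l hl0 ^ n) =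
          rs (P l) ((f / s t x₀' ^ n) ^ e₀) := fun l hl0 => by
        have hU := (hev t x₀').isU hπ x₀'.2 (hev0 t x₀') hl0
        have e : z t x₀' l ^ n = T' l ^ n / f ^ e₀ *
            ((f / s t x₀' ^ n) ^ e₀) := by
          simp only [z, div_pow, ← pow_mul]
          rw [show e₀ * n = n * e₀ by ring]
          field_simp
        rw [rs_pow (hyU t x₀' l l hl0 hl0).1, hyz, ← rs_pow (hzU t x₀' l hl0).1, e,
          rs_mul (hT' l).1.1 (hU.pow _).1, (hT' l).2, one_mul]
      rw [hpw i hix₀]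
      exact IsFrac.rs_congr hij.symm (((hy t x₀' j hjx₀).pow x₀'.2 n).isFrac hjx₀)
        (((hev t x₀').pow x₀'.2 _).isFrac hjx₀) (pow_mem (hyU t x₀' j j hjx₀ hjx₀).1 _)
        (((hev t x₀').isU hπ x₀'.2 (hev0 t x₀') hjx₀).pow _).1 (hpw j hjx₀)
    have hFj : IsFrac (hf t) j (y t x₀' j hjx₀ * w) :=
      ((hy t x₀' j hjx₀).isFrac hjx₀).mul (hwU j hj hjx₀).1
    rw [IsFrac.rs_congr hij.symm ((hy t x j hj).isFrac hj) hFj (hyU t x j j hj hj).1
        ((hyU t x₀' j j hjx₀ hjx₀).mul (hwU j hj hjx₀).2).1 (hloc j hj hjx₀),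
      rs_mul (hyU t x₀' j i hjx₀ hix₀).1 (hwU i hi hix₀).2.1, h0,
      ← rs_mul (hyU t x₀' i i hix₀ hix₀).1 (hwU i hi hix₀).2.1, ← hloc i hi hix₀]
  -- equal values everywhere
  have heq : ∀ (t : Bool) (x : {x : Ideal (Bc t) // IsPoint π x}) (i j : ι)
      (hi : center (hf t) i ≤ x.1) (hj : center (hf t) j ≤ x.1),
      βv t x i hi  / residue O (cO i) = βv t x j hj  / residue O (cO j) := by
    intro t x i j hi hj
    by_cases hxX : x.1 ∈ X t
    · exact hkey t x i j hi hj hxX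
    · exact (hy t x i hi).congr hπ x.2 (hy t x j hj) (hne t x i hi) (hne t x j hj) hi
        (hsame t x i j hi hj (hXout t x.1 x.2 hxX i j hi hj).1).symm
  -- glue after a power of the residue characteristic
  set Q := q ^ L with hQdef
  have hQ : 0 < Q := pow_pos hq.pos L
  refine ⟨L, fun i => T' i ^ Q, fun i => ?_, fun t => ?_⟩
  · have := (hT' i).1.pow Q
    rwa [div_pow, ← pow_mul, ← pow_mul f, mul_comm n Q, pow_mul] at this
  refine exists_glued_root (hB t) hn (hf t) hu₁ (fun i => ?_) fun x hx => ?_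
  · have h := (hT' i).1.pow Q
    have h' := rs_pow (hT' i).1.1 Q
    rw [(hT' i).2, one_pow] at h'
    rw [div_pow, ← pow_mul, ← pow_mul f, mul_comm n Q, pow_mul] at h h'
    exact ⟨h, h'⟩
  set x' : {x : Ideal (Bc t) // IsPoint π x} := ⟨x, hx⟩
  have hqU : ∀ i, (q : F) ∈ (P i).nonunits := fun i => by
    rw [hπ.maximalIdeal_eq, Ideal.mem_span_singleton] at hqπ
    obtain ⟨e, he⟩ := hqπ
    rw [← map_natCast (algebraMap O F), he, map_mul]
    refine (rs_eq_zero ((P i).mul_mem _ _ (hmem i π) (hmem i e))).mp ?_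
    rw [rs_mul (hmem i π) (hmem i e), rs_eq_zero_of_nonunit (hu₁ i), zero_mul]
  obtain ⟨a₀, b₀, c₁, hb₀, he₀, hc₁, hm₀⟩ := (hev t x').pow hx e₀
  have ha₀ : a₀ ∉ x := HasValue.notMem hπ hx hb₀ hm₀ (hc₁ ▸ pow_ne_zero _ (hev0 t x'))
  set S := (s t x' ^ e₀)  with hS
  have hS0 : S ≠ 0 := pow_ne_zero _ (hs0 t x')
  have hroot : (a₀ : F) * S ∈ rootModule (hB t) hn (f ^ e₀) := by
    rw [mem_rootModule]
    obtain ⟨m, rfl⟩ : ∃ m, n = m + 1 := ⟨n - 1, (Nat.sub_add_cancel hn).symm⟩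
    have e : ((a₀ : F) * S) ^ (m + 1) / f ^ e₀ = (a₀ : F) ^ m * b₀ := by
      rw [div_eq_iff (pow_ne_zero _ hf0), mul_pow, pow_succ (a₀ : F) m, ← he₀, hf1, hS, div_pow,
        ← pow_mul, ← pow_mul, mul_comm e₀ (m + 1)]
      field_simp [hs0 t x']
    rw [e]
    exact mul_mem (pow_mem a₀.2 m) b₀.2
  let Y : ι → F := fun i => if h : center (hf t) i ≤ x then y t x' i h else 1
  obtain ⟨c, hc⟩ : ∃ c : ResidueField O, ∀ i (h : center (hf t) i ≤ x),
      βv t x' i h  / residue O (cO i) = c := by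
    by_cases hex : ∃ i, center (hf t) i ≤ x
    · obtain ⟨i, hi⟩ := hex
      exact ⟨_, fun j hj => heq t x' j i hj hi⟩
    · exact ⟨0, fun i h => absurd ⟨i, h⟩ hex⟩
  obtain ⟨rr, bb, hbb, hrr⟩ := exists_local_lift hπ (hf t) hq hqU (L := Lc t) (N := L) (hLc t)
    ((Finset.le_sup (Finset.mem_univ t)).trans hQL) hx (y := Y) (c := c)
    (fun i hi => by simp only [Y, dif_pos hi]; rw [← hc i hi]; exact hy t x' i hi)
    (fun i j hi hij _ => by
      have hj : center (hf t) j ≤ x := hij ▸ hi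
      simp only [Y, dif_pos hi, dif_pos hj]
      exact hsame t x' i j hi hj hij)
  refine ⟨((a₀ : F) * S) ^ Q * (rr : F), ?_, a₀ ^ Q * bb, hx.1.isPrime.mul_notMem
    (fun h => ha₀ (hx.1.isPrime.mem_of_pow_mem _ h)) hbb, fun i hi => ?_⟩
  · rw [pow_mul f e₀ Q, mul_comm _ (rr : F)]
    exact mul_left_mem rr.2 (pow_mem_rootModule hroot Q)
  obtain ⟨hYi, hYr⟩ := hrr i hi
  simp only [Y, dif_pos hi] at hYi hYr
  have hzi := hzU t x' i hi
  have hA := (hf t).le i a₀ a₀.2
  have hR := (hf t).le i rr rr.2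
  have e : ((a₀ : F) * S) ^ Q * (rr : F) / T' i ^ Q = (a₀ : F) ^ Q * (rr : F) * (z t x' i ^ Q)⁻¹ := by
    show _ = (a₀ : F) ^ Q * (rr : F) * ((T' i / S) ^ Q)⁻¹
    generalize T' i = Ti
    rw [div_pow, inv_div, mul_pow]
    ring
  push_cast
  rw [e, rs_mul ((P i).mul_mem _ _ (pow_mem hA _) hR) (hzi.pow Q).inv.1, (hzi.pow Q).rs_inv,
    rs_pow hzi.1, ← hyz t x' i hi, rs_mul (pow_mem hA _) hR, hYr, rs_pow hYi,
    rs_mul (pow_mem hA _) ((hf t).le i bb bb.2)]
  field_simp [(hyU t x' i i hi hi).2]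
  rw [hQdef]
  ring


end Fermat.Agent.R59.NoSq
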