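import Fermat.Agent.Models.Detect
import Fermat.Agent.R59.NoSq.Branch
import Fermat.Agent.R59.NoSq.Glue

/-!
# S59, unit A: combinations of translates with trivial obstruction are powers
-/

set_option autoImplicit false
set_option linter.style.haveILetI false
set_option linter.unusedSectionVars false

noncomputable section

namespace Fermat.Agent.R59.NoSq

open IsLocalRing
open Fermat.Agent.Models

variable {O F : Type} [CommRing O] [IsDomain O] [IsDiscreteValuationRing O] [Field F] [Algebra O F]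
  {ι : Type} [Fintype ι] {π : O} {P : ι → ValuationSubring F} [IsAlgClosed (ResidueField O)]

/-- A finite group of automorphisms permuting the components, and the lines of the components. -/
structure LineSym (Bc : Bool → Subalgebra O F) (P : ι → ValuationSubring F) {Γ : Type} [Group Γ]
    (Φ : Γ →* RingAut F) (σι : Γ →* Equiv.Perm ι) {Li : Type} (line : ι → Li)
    (ρ : Γ →* Equiv.Perm Li) (R : Subgroup Γ) (Fs : Li → Set Γ) (H : Li → Finset Γ) (d : ℕ) :
    Prop where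
  stable : ∀ t, Stable (Bc t) Φ.range
  perm : ∀ g i x, Φ g x ∈ P (σι g i) ↔ x ∈ P i
  line_act : ∀ g i, line (σι g i) = ρ g (line i)
  surj : Function.Surjective line
  gen : ∀ L L', L ≠ L' → R ≤ Subgroup.closure (Fs L ∪ Fs L')
  trans : ∀ L L', ∃ g ∈ R, ρ g L = L'
  fix_comp : ∀ i, ∀ h ∈ Fs (line i), σι h i = i
  fix : ∀ i, ∀ h ∈ Fs (line i), ∀ x ∈ P i, Φ h x - x ∈ (P i).nonunits
  sub : ∀ L, ∀ h ∈ H L, h ∈ Fs L
  card : ∀ L, (H L).card = d
  injOn : ∀ L, Set.InjOn Φ (H L)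

set_option maxHeartbeats 2000000 in
/-- The combinations of translates killing the admissible functions of lines are powers. -/
theorem exists_sum_compatible (hπ : Irreducible π) (hinj : Function.Injective (algebraMap O F))
    (q : ℕ) (hq : q.Prime) (hqπ : (q : O) ∈ maximalIdeal O) (Bc : Bool → Subalgebra O F)
    (hcl : ∀ t, ∀ x : F, IsIntegral (Bc t) x → x ∈ Bc t) (hf : ∀ t, ChartFibre (Bc t) π P)
    (hu : ∀ i, algebraMap O F π ∈ (P i).nonunits ∧
      ∀ x ∈ (P i).nonunits, x / algebraMap O F π ∈ P i)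
    {Γ : Type} [Group Γ] [Finite Γ] {Φ : Γ →* RingAut F} {σι : Γ →* Equiv.Perm ι}
    {Li : Type} [Fintype Li] [Nontrivial Li] {line : ι → Li} {ρ : Γ →* Equiv.Perm Li}
    {R : Subgroup Γ} {Fs : Li → Set Γ} {H : Li → Finset Γ} {d : ℕ}
    (hS : LineSym Bc P Φ σι line ρ R Fs H d) {n : ℕ} (hn : 0 < n) (hcop : Nat.Coprime d n)
    {f : F} (hf0 : f ≠ 0) (hroots : ∀ t (m : Ideal (Bc t)), m.IsMaximal → HasRootAt (Bc t) n f m)
    (hnorm : ∀ L, ∃ (a b : O) (k : F), a ≠ 0 ∧ b ≠ 0 ∧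
      algebraMap O F b * ∏ h ∈ H L, Φ h f = algebraMap O F a * k ^ n)
    {A : Set Γ} (hA : ∀ a ∈ A, a ∈ Subgroup.closure (⋃ L, Fs L)) (hAf : ∀ a ∈ A, ∃ c : O, IsUnit c ∧ Φ a f = algebraMap O F c * f)
    {α : Type} [Fintype α] (g : α → Γ) (hg : ∀ a, g a ∈ R)
    (hθ : ∀ D : Li → Additive (ResidueField O)ˣ, (∀ L, n • D L = 0) →
      (∀ M, ∃ C, ∀ L, ∑ h ∈ H M, D (ρ h⁻¹ L) = C) →
      (∀ a ∈ A, ∃ C, ∀ L, D (ρ a⁻¹ L) = D L + C) →
      ∃ C, ∀ L, ∑ a, D (ρ (g a)⁻¹ L) = C) :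
    ∃ (L : ℕ) (T : ι → F), (∀ i, IsU (P i) (T i ^ n / (∏ a, Φ (g a) f) ^ (d * q ^ L))) ∧
      ∀ t, ∃ s ∈ rootModule (rootClosed_of_isIntegral hn (hcl t)) hn
          ((∏ a, Φ (g a) f) ^ (d * q ^ L)),
        (∀ i, s / T i ∈ P i ∧ rs (P i) (s / T i) = 1) ∧
          ∃ a ∈ Bc t, s ^ n / (∏ a, Φ (g a) f) ^ (d * q ^ L) = 1 + π • a := by
  classical
  haveI := Fintype.ofFinite Γ
  haveI : Finite Φ.range := Finite.of_surjective Φ.rangeRestrict Φ.rangeRestrict_surjective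
  have hu₁ : ∀ i, algebraMap O F π ∈ (P i).nonunits := fun i => (hu i).1
  have hmem : ∀ (i : ι) (a : O), algebraMap O F a ∈ P i := algebraMap_mem_component (hf false)
  have hB : ∀ t, RootClosed (Bc t) n := fun t => rootClosed_of_isIntegral hn (hcl t)
  choose X hXp hXg hXc hXout using fun t => exists_pointSet hπ (hf t) hu₁ (hS.stable t)
  let γ : Γ →* Φ.range := Φ.rangeRestrict
  -- targets, roots, values
  have hHs : ∀ i, ∀ h ∈ (H (line i)).image Φ, ∀ x ∈ P i, h x - x ∈ (P i).nonunits := fun i h hh => by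
    obtain ⟨k, hk, rfl⟩ := Finset.mem_image.mp hh
    exact hS.fix i k (hS.sub _ k hk)
  have hHc : ∀ L, ((H L).image Φ).card = d := fun L => by
    rw [Finset.card_image_of_injOn (hS.injOn L), hS.card]
  have hnf : ∀ i : ι, ∃ (u : O) (k : F), IsUnit u ∧ k ≠ 0 ∧
      ∏ h ∈ (H (line i)).image Φ, h f = algebraMap O F u * k ^ n := fun i => by
    obtain ⟨a, b, k, ha, hb, he⟩ := hnorm (line i)
    exact exists_norm_form hπ hinj (hf false) hn hu hf0 (hroots false) _ (hHs i) ha hb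
      (by rwa [Finset.prod_image (hS.injOn _)])
  choose u k huO hk0 hnorm' using hnf
  choose T hT using fun i : ι => exists_target hπ hinj (hf false) hn hu hf0 (hroots false) _
    (hHs i) (huO i) (hnorm' i)
  simp only [hHc] at hT
  choose s hs0 ev hev0 hev using fun (t : Bool) (x : {x : Ideal (Bc t) // IsPoint π x}) =>
    exists_local_root hn hπ (hf t) x.2 hf0 (hroots t x.1 x.2.1)
  have hval : ∀ (t : Bool) (x : {x : Ideal (Bc t) // IsPoint π x}) (i : ι),
      center (hf t) i ≤ x.1 → ∃ c, BranchValue P x.1 i (T i / s t x ^ d) c := fun t x i hi => by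
    have := exists_branchValue hπ (hS.stable t) (hf t) (hB t) hn hu₁ ((H (line i)).image Φ)
      (fun h hh => by obtain ⟨k, -, rfl⟩ := Finset.mem_image.mp hh; exact ⟨k, rfl⟩) (hHs i) (huO i)
      (hnorm' i) (T := T i) (by rw [hHc]; exact hT i) x.2 hi (hev0 t x) (hev t x)
    rwa [hHc] at this
  choose βv hβv using hval
  -- translates
  let iX : Γ → ∀ t, {x : Ideal (Bc t) // IsPoint π x} → {x : Ideal (Bc t) // IsPoint π x} :=
    fun g t x => ⟨actPt (hS.stable t) (γ g) x.1, isPoint_actPt hπ (hS.stable t) (γ g) x.2⟩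
  have hiX : ∀ g t x, actPt (hS.stable t) (γ g) (iX g⁻¹ t x).1 = x.1 := fun g t x => by
    show actPt (hS.stable t) (γ g) (actPt (hS.stable t) (γ g⁻¹) x.1) = _
    rw [← actPt_mul, ← map_mul, mul_inv_cancel, map_one, actPt_one]
  have hσg : ∀ g i, σι g (σι g⁻¹ i) = i := fun g i => sig_inv' σι g i
  have hperm : ∀ g i x, (γ g : RingAut F) x ∈ P i ↔ x ∈ P (σι g⁻¹ i) := fun g i x => by
    conv_lhs => rw [← hσg g i]
    exact hS.perm g _ x
  have hTg : ∀ g i, IsU (P i) (Φ g (T (σι g⁻¹ i)) ^ n / Φ g f ^ d) ∧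
      rs (P i) (Φ g (T (σι g⁻¹ i)) ^ n / Φ g f ^ d) = 1 := fun g i => by
    obtain ⟨h1, h2⟩ := hT (σι g⁻¹ i)
    rw [← map_pow, ← map_pow, ← map_div₀]
    have h3 := rs_map_eq (hperm g i) h1.1 (P _).one_mem (by rw [h2, rs_one])
    rw [map_one, rs_one] at h3
    exact ⟨⟨(hperm g i _).mpr h1.1, by erw [h3]; exact one_ne_zero⟩, h3⟩
  have hevg : ∀ g t x, HasValue x.1 (Φ g f / Φ g (s t (iX g⁻¹ t x)) ^ n) (ev t (iX g⁻¹ t x)) :=
    fun g t x => by
      have h1 := (hev t (iX g⁻¹ t x)).map hπ (hS.stable t) (γ g) (iX g⁻¹ t x).2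
      rw [hiX, map_div₀, map_pow] at h1
      exact h1
  have hcen : ∀ g t (x : {x : Ideal (Bc t) // IsPoint π x}) i, center (hf t) i ≤ x.1 →
      center (hf t) (σι g⁻¹ i) ≤ (iX g⁻¹ t x).1 := fun g t x i hi =>
    center_le_actPt (fun y => by
      show Φ g⁻¹ y ∈ _ ↔ _
      exact hS.perm g⁻¹ i y) (hS.stable t) hi
  have hβg : ∀ g t x i (hi : center (hf t) i ≤ x.1), BranchValue P x.1 i
      (Φ g (T (σι g⁻¹ i)) / Φ g (s t (iX g⁻¹ t x)) ^ d) (βv t _ _ (hcen g t x i hi)) :=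
    fun g t x i hi => by
      have h1 := (hβv t _ _ (hcen g t x i hi)).map hπ (hS.stable t) (iX g⁻¹ t x).2
        (hcen g t x i hi) (hperm g i)
      rw [hiX, map_div₀, map_pow] at h1
      exact h1
  have hn' : ∀ t x i (hi : center (hf t) i ≤ x.1), βv t x i hi ^ n = ev t x ^ d := fun t x i hi => by
    have h1 := (hβv t x i hi).pow hπ x.2 hi n
    have h2 := BranchValue.of_hasValue (hf := hf t) hπ x.2 hi ((hev t x).pow x.2 d)
      (pow_ne_zero _ (hev0 t x))
    obtain ⟨hU, hr⟩ := hT i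
    have hfx := (hev t x).isU hπ x.2 (hev0 t x) hi
    have e : (T i / s t x ^ d) ^ n = T i ^ n / f ^ d * (f / s t x ^ n) ^ d := by
      rw [div_pow, div_pow, ← pow_mul, ← pow_mul, mul_comm n d]
      field_simp
    refine h1.unique hπ x.2 hi (h2.congr_rs h1.isU ?_)
    rw [e, rs_mul hU.1 (hfx.pow d).1, hr, one_mul]
  -- the branches
  let Pt : Type := Σ t : Bool, {x : Ideal (Bc t) // x ∈ X t}
  let Br : Type := {b : Pt × ι // center (hf b.1.1) b.2 ≤ b.1.2.1}
  haveI : Fintype Pt := inferInstance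
  haveI : Fintype Br := inferInstance
  let actP : Γ → Pt → Pt := fun g p =>
    ⟨p.1, actPt (hS.stable p.1) (γ g) p.2.1, hXg p.1 (γ g) _ p.2.2⟩
  let actB : Γ → Br → Br := fun g b => ⟨(actP g b.1.1, σι g b.1.2),
    center_le_actPt (fun y => hS.perm g b.1.2 y) (hS.stable _) b.2⟩
  have hactB : ∀ g g' b, actB (g * g') b = actB g (actB g' b) := fun g g' b => by
    refine Subtype.ext (Prod.ext ?_ (by show σι (g * g') _ = _; rw [map_mul]; rfl))
    show (⟨_, _, _⟩ : Pt) = ⟨_, _, _⟩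
    simp only [map_mul, actPt_mul]
    rfl
  have hactB1 : ∀ b, actB 1 b = b := fun b => by
    refine Subtype.ext (Prod.ext ?_ (by show σι 1 _ = _; rw [map_one]; rfl))
    show (⟨_, _, _⟩ : Pt) = _
    simp only [map_one, actPt_one]
    rfl
  let σ : Γ →* Equiv.Perm Br :=
    { toFun := fun g => ⟨actB g, actB g⁻¹, fun b => by rw [← hactB, inv_mul_cancel, hactB1],
        fun b => by rw [← hactB, mul_inv_cancel, hactB1]⟩
      map_one' := Equiv.ext hactB1
      map_mul' := fun g g' => Equiv.ext (hactB g g') }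
  let pp : ∀ p : Pt, {x : Ideal (Bc p.1) // IsPoint π x} := fun p => ⟨p.2.1, hXp p.1 _ p.2.2⟩
  let val : Br → (ResidueField O)ˣ := fun b =>
    Units.mk0 (βv b.1.1.1 (pp b.1.1) b.1.2 b.2) (hβv b.1.1.1 (pp b.1.1) b.1.2 b.2).1
  have hvalg : ∀ (g : Γ) (b : Br), (val (σ g⁻¹ b) : ResidueField O) =
      βv b.1.1.1 _ _ (hcen g b.1.1.1 (pp b.1.1) b.1.2 b.2) := fun g b => rfl
  have N : Net (fun b : Br => b.1.1) (fun b : Br => b.1.2) line σ ρ R Fs :=
    { pt_congr := fun g b b' h => by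
        show actP g b.1.1 = actP g b'.1.1
        rw [show b.1.1 = b'.1.1 from h]
      comp_congr := fun g b b' h => by
        show σι g b.1.2 = σι g b'.1.2
        rw [show b.1.2 = b'.1.2 from h]
      line_act := fun g b => hS.line_act g b.1.2
      fix := fun b h hh => by
        refine Subtype.ext (Prod.ext ?_ (hS.fix_comp _ h hh))
        show (⟨_, _, _⟩ : Pt) = _
        simp only [actPt_eq_self (hS.stable _) (h := γ h) (hS.fix _ h hh) b.2]
        rfl
      gen := hS.gen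
      trans := hS.trans }
  -- a constant comparison on components
  have hconst : ∀ (i : ι) (z : F) (v : O), IsUnit v → IsU (P i) z →
      rs (P i) (z ^ n) = rs (P i) (algebraMap O F v) → ∃ c : (ResidueField O)ˣ,
      ∀ (t : Bool) (x : Ideal (Bc t)), IsPoint π x → center (hf t) i ≤ x →
        BranchValue P x i z c := by
    intro i z v hv hz he
    obtain ⟨c₀, hc₀, hrs, -⟩ := exists_const hπ hu₁ hmem hn hz hv he
    exact ⟨Units.mk0 _ (hc₀.map (residue O)).ne_zero, fun t x hx hi =>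
      (branchValue_algebraMap (hf := hf t) hπ hx hi hc₀).congr_rs hz hrs.symm⟩
  let β : Br → Additive (ResidueField O)ˣ := fun b => Additive.ofMul (val b)
  have hsp : ∀ (c : Br → (ResidueField O)ˣ) (φ : Pt → (ResidueField O)ˣ)
      (ψ : ι → (ResidueField O)ˣ), (∀ b, c b = φ b.1.1 * ψ b.1.2) →
      IsSplit (fun b : Br => b.1.1) (fun b : Br => b.1.2) fun b => Additive.ofMul (c b) :=
    fun c φ ψ h => ⟨fun p => Additive.ofMul (φ p), fun i => Additive.ofMul (ψ i), fun b => by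
      show Additive.ofMul (c b) = _
      rw [h, ofMul_mul]⟩
  have key : IsSplit (fun b : Br => b.1.1) (fun b : Br => b.1.2)
      fun b => ∑ a, β (σ (g a)⁻¹ b) := by
    refine N.isSplit_sum (β := β) (H := H) (π₀ := fun p => Additive.ofMul
      (Units.mk0 (ev p.1 (pp p)) (hev0 _ _) ^ d)) hcop (fun b => ?_) hS.sub hS.card (fun L => ?_) hA
      (fun a ha => ?_) g hg hθ
    · show n • Additive.ofMul (val b) = _
      rw [← ofMul_pow]
      refine congrArg Additive.ofMul (Units.ext ?_)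
      simp only [Units.val_pow_eq_pow_val, val, Units.val_mk0]
      exact hn' _ _ _ b.2
    · obtain ⟨i₀, rfl⟩ := hS.surj L
      set k' := k i₀
      have hF : ∏ h ∈ H (line i₀), Φ h f = algebraMap O F (u i₀) * k' ^ n := by
        rw [← hnorm' i₀, Finset.prod_image (hS.injOn _)]
      have hUu : ∀ i, IsU (P i) (algebraMap O F (u i₀)) := fun i => isU_algebraMap hmem i (huO i₀)
      have huF : algebraMap O F (u i₀) ≠ 0 :=
        (map_ne_zero_iff _ hinj).mpr (huO i₀).ne_zero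
      have hψ : ∀ i, ∃ c : (ResidueField O)ˣ, ∀ (t : Bool) (x : Ideal (Bc t)), IsPoint π x →
          center (hf t) i ≤ x →
            BranchValue P x i ((∏ h ∈ H (line i₀), Φ h (T (σι h⁻¹ i))) / k' ^ d) c := by
        intro i
        obtain ⟨hU, hr⟩ := isU_prod (A := P i) (H (line i₀))
          (x := fun h => Φ h (T (σι h⁻¹ i)) ^ n / Φ h f ^ d) fun h _ => (hTg h i).1
        rw [Finset.prod_congr rfl fun h _ => (hTg h i).2, Finset.prod_const_one] at hr
        have he : ((∏ h ∈ H (line i₀), Φ h (T (σι h⁻¹ i))) / k' ^ d) ^ n =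
            (∏ h ∈ H (line i₀), Φ h (T (σι h⁻¹ i)) ^ n / Φ h f ^ d) *
              algebraMap O F (u i₀) ^ d := by
          rw [Finset.prod_div_distrib, Finset.prod_pow, Finset.prod_pow, hF, div_pow, mul_pow,
            ← pow_mul, ← pow_mul, mul_comm d n]
          have := pow_ne_zero (n * d) (hk0 i₀)
          field_simp
        refine hconst i _ (u i₀ ^ d) ((huO i₀).pow d)
          (isU_of_pow hn (he ▸ hU.mul ((hUu i).pow d))) ?_
        rw [he, rs_mul hU.1 ((hUu i).pow d).1, hr, one_mul, map_pow]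
      choose ψ hψ using hψ
      have hφ : ∀ p : Pt, ∃ c : (ResidueField O)ˣ, HasValue p.2.1
          (k' / ∏ h ∈ H (line i₀), Φ h (s p.1 (iX h⁻¹ p.1 (pp p)))) c := by
        intro p
        have h1 := (HasValue.prod (pp p).2 (H (line i₀)) fun h _ => hevg h p.1 (pp p)).div hπ
          (pp p).2 (HasValue.algebraMap_const (pp p).2 (u i₀)) ((huO i₀).map (residue O)).ne_zero
        rw [Finset.prod_div_distrib, Finset.prod_pow, hF, mul_div_assoc,
          mul_div_cancel_left₀ _ huF, ← div_pow] at h1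
        obtain ⟨c, hc, -, hv⟩ := h1.root hπ (hf p.1) (hB p.1) hn (pp p).2
          (div_ne_zero (Finset.prod_ne_zero_iff.mpr fun h _ => hev0 _ _)
            ((huO i₀).map (residue O)).ne_zero)
        exact ⟨Units.mk0 c hc, hv⟩
      choose φ hφ using hφ
      simp only [β, ← ofMul_prod]
      refine hsp _ (fun p => φ p ^ d) ψ fun b => Units.ext ?_
      obtain ⟨⟨⟨t, x, hxX⟩, i⟩, hb⟩ := b
      have hx := hXp t x hxX
      simp only [Units.coe_prod, Units.val_mul, Units.val_pow_eq_pow_val, hvalg]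
      have h1 := BranchValue.prod (hf := hf t) hπ hx hb (H (line i₀))
        fun h _ => hβg h t ⟨x, hx⟩ i hb
      have h2 := (BranchValue.of_hasValue (hf := hf t) hπ hx hb ((hφ ⟨t, x, hxX⟩).pow hx d)
        (pow_ne_zero _ (φ ⟨t, x, hxX⟩).ne_zero)).mul hπ hx hb (hψ i t x hx hb)
      have e : (k' / ∏ h ∈ H (line i₀), Φ h (s t (iX h⁻¹ t ⟨x, hx⟩))) ^ d *
          ((∏ h ∈ H (line i₀), Φ h (T (σι h⁻¹ i))) / k' ^ d) =
          ∏ h ∈ H (line i₀), Φ h (T (σι h⁻¹ i)) / Φ h (s t (iX h⁻¹ t ⟨x, hx⟩)) ^ d := by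
        rw [Finset.prod_div_distrib, Finset.prod_pow, div_pow]
        have := pow_ne_zero d (hk0 i₀)
        have := Finset.prod_ne_zero_iff.mpr fun h (_ : h ∈ H (line i₀)) =>
          (map_ne_zero (Φ h)).mpr (hs0 t (iX h⁻¹ t ⟨x, hx⟩))
        field_simp
        rw [mul_div_cancel_left₀]
        exact pow_ne_zero _ (hk0 i₀)
      refine h1.unique hπ hx hb ?_
      rwa [show k' / ∏ h ∈ H (line i₀), Φ h (s (⟨t, x, hxX⟩ : Pt).1
          (iX h⁻¹ _ (pp ⟨t, x, hxX⟩))) =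
        k' / ∏ h ∈ H (line i₀), Φ h (s t (iX h⁻¹ t ⟨x, hx⟩)) from rfl, e] at h2
    · obtain ⟨ca, hca, hca'⟩ := hAf a ha
      have hcaF : algebraMap O F ca ≠ 0 := (map_ne_zero_iff _ hinj).mpr hca.ne_zero
      have hψ : ∀ j, ∃ c : (ResidueField O)ˣ, ∀ (t : Bool) (x : Ideal (Bc t)), IsPoint π x →
          center (hf t) j ≤ x → BranchValue P x j (Φ a (T (σι a⁻¹ j)) / T j) c := by
        intro j
        obtain ⟨h2, h3⟩ := hTg a j
        obtain ⟨h1, h4⟩ := hT j
        rw [hca'] at h2 h3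
        have hfd : f ^ d ≠ 0 := pow_ne_zero _ hf0
        have hU := (isU_algebraMap hmem j hca).pow d
        have hq1 := h2.div h1
        have he : (Φ a (T (σι a⁻¹ j)) / T j) ^ n =
            (Φ a (T (σι a⁻¹ j)) ^ n / (algebraMap O F ca * f) ^ d) / (T j ^ n / f ^ d) *
              algebraMap O F ca ^ d := by
          rw [mul_pow, div_pow]
          field_simp
        refine hconst j _ (ca ^ d) (hca.pow d) (isU_of_pow hn (he ▸ hq1.mul hU)) ?_
        rw [he, rs_mul hq1.1 hU.1, h2.rs_div h1, h3, h4, div_one, one_mul, map_pow]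
      choose ψ hψ using hψ
      have hφ : ∀ p : Pt, ∃ c : (ResidueField O)ˣ, HasValue p.2.1
          (s p.1 (pp p) / Φ a (s p.1 (iX a⁻¹ p.1 (pp p)))) c := by
        intro p
        have h1 := hevg a p.1 (pp p)
        rw [hca'] at h1
        have hc0 : residue O ca ≠ 0 := (hca.map (residue O)).ne_zero
        have h2 := (h1.div hπ (pp p).2 (hev p.1 (pp p)) (hev0 _ _)).div hπ (pp p).2
          (HasValue.algebraMap_const (pp p).2 ca) hc0
        have e : algebraMap O F ca * f / Φ a (s p.1 (iX a⁻¹ p.1 (pp p))) ^ n /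
            (f / s p.1 (pp p) ^ n) / algebraMap O F ca =
            (s p.1 (pp p) / Φ a (s p.1 (iX a⁻¹ p.1 (pp p)))) ^ n := by
          rw [div_pow]
          field_simp
        rw [e] at h2
        obtain ⟨c, hc, -, hv⟩ := h2.root hπ (hf p.1) (hB p.1) hn (pp p).2
          (div_ne_zero (div_ne_zero (hev0 _ _) (hev0 _ _)) hc0)
        exact ⟨Units.mk0 c hc, hv⟩
      choose φ hφ using hφ
      simp only [β, ← ofMul_div]
      refine hsp _ (fun p => φ p ^ d) ψ fun b => ?_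
      rw [div_eq_iff_eq_mul]
      refine Units.ext ?_
      obtain ⟨⟨⟨t, x, hxX⟩, i⟩, hb⟩ := b
      have hx := hXp t x hxX
      simp only [Units.val_mul, Units.val_pow_eq_pow_val, hvalg]
      have h1 := hβg a t ⟨x, hx⟩ i hb
      have h2 := ((BranchValue.of_hasValue (hf := hf t) hπ hx hb ((hφ ⟨t, x, hxX⟩).pow hx d)
        (pow_ne_zero _ (φ ⟨t, x, hxX⟩).ne_zero)).mul hπ hx hb (hψ i t x hx hb)).mul hπ hx hb
          (hβv t ⟨x, hx⟩ i hb)
      have hT0 : T i ≠ 0 := fun h => (hψ i t x hx hb).isU.ne_zero (by rw [h, div_zero])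
      refine h1.unique hπ hx hb ?_
      have e : (s t ⟨x, hx⟩ / Φ a (s t (iX a⁻¹ t ⟨x, hx⟩))) ^ d *
          (Φ a (T (σι a⁻¹ i)) / T i) * (T i / s t ⟨x, hx⟩ ^ d) =
          Φ a (T (σι a⁻¹ i)) / Φ a (s t (iX a⁻¹ t ⟨x, hx⟩)) ^ d := by
        rw [div_pow]
        field_simp [hs0 t ⟨x, hx⟩]
      rwa [show s (⟨t, x, hxX⟩ : Pt).1 (pp ⟨t, x, hxX⟩) /
          Φ a (s (⟨t, x, hxX⟩ : Pt).1 (iX a⁻¹ _ (pp ⟨t, x, hxX⟩))) =
        s t ⟨x, hx⟩ / Φ a (s t (iX a⁻¹ t ⟨x, hx⟩)) from rfl, e] at h2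
  obtain ⟨φ, ψ, hφψ⟩ := key
  -- the combined targets
  refine exists_root_of_split (T := fun i => ∏ a, Φ (g a) (T (σι (g a)⁻¹ i)))
    (s := fun t x => ∏ a, Φ (g a) (s t (iX (g a)⁻¹ t x)))
    (ev := fun t x => ∏ a, ev t (iX (g a)⁻¹ t x))
    (βv := fun t x i hi => ∏ a, βv t _ _ (hcen (g a) t x i hi))
    (φ := fun t x => if h : x ∈ X t then Additive.toMul (φ ⟨t, x, h⟩) else 1)
    (ψ := fun i => Additive.toMul (ψ i))
    hπ q hq hqπ Bc hcl hf hu₁ hn (Finset.prod_ne_zero_iff.mpr fun a _ => (map_ne_zero _).mpr hf0)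
    (fun i => ?_) (fun t x => Finset.prod_ne_zero_iff.mpr fun a _ => (map_ne_zero _).mpr (hs0 _ _))
    (fun t x => Finset.prod_ne_zero_iff.mpr fun a _ => hev0 _ _) (fun t x => ?_)
    (fun t x i hi => ?_) X hXp hXc hXout fun t x i hi hxX => ?_
  · obtain ⟨hU, hr⟩ := isU_prod (A := P i) Finset.univ
      (x := fun a => Φ (g a) (T (σι (g a)⁻¹ i)) ^ n / Φ (g a) f ^ d) fun a _ => (hTg (g a) i).1
    rw [Finset.prod_congr rfl fun a _ => (hTg (g a) i).2, Finset.prod_const_one] at hr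
    rw [Finset.prod_div_distrib, Finset.prod_pow, Finset.prod_pow] at hU hr
    exact ⟨hU, hr⟩
  · have := HasValue.prod x.2 Finset.univ fun a _ => hevg (g a) t x
    rwa [Finset.prod_div_distrib, Finset.prod_pow] at this
  · have := BranchValue.prod (hf := hf t) hπ x.2 hi Finset.univ fun a _ => hβg (g a) t x i hi
    rwa [Finset.prod_div_distrib, Finset.prod_pow] at this
  · have h := hφψ ⟨(⟨t, x.1, hxX⟩, i), hi⟩
    have h2 := congrArg (fun z => ((Additive.toMul z : (ResidueField O)ˣ) : ResidueField O)) h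
    simp only [dif_pos hxX, β, toMul_sum, toMul_add, toMul_ofMul, Units.val_mul, Units.coe_prod,
      hvalg] at h2 ⊢
    exact h2

variable [Nonempty ι]

/-- Compatible roots on both charts glue to a root. -/
theorem exists_root_of_compatible (M : Model O F) (hπ : Irreducible π)
    (hinj : Function.Injective (algebraMap O F))
    (hf₀ : ChartFibre M.B₀ π P) (hu : ∀ i, algebraMap O F π ∈ (P i).nonunits)
    {n : ℕ} (hn : 0 < n) (hnO : IsUnit (n : O))
    {f : F} (hf0 : f ≠ 0) (h₀ : ∀ m : Ideal M.B₀, m.IsMaximal → HasRootAt M.B₀ n f m) {D : ℕ}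
    {T : ι → F} (hT : ∀ i, IsU (P i) (T i ^ n / f ^ D))
    (hr0 : ∃ s ∈ rootModule (rootClosed_of_isIntegral hn M.closed₀) hn (f ^ D),
      (∀ i, s / T i ∈ P i ∧ rs (P i) (s / T i) = 1) ∧ ∃ a ∈ M.B₀, s ^ n / f ^ D = 1 + π • a)
    (hr1 : ∃ s ∈ rootModule (rootClosed_of_isIntegral hn M.closed₁) hn (f ^ D),
      (∀ i, s / T i ∈ P i ∧ rs (P i) (s / T i) = 1) ∧ ∃ a ∈ M.B₁, s ^ n / f ^ D = 1 + π • a) :
    ∃ (c : O) (h : F), algebraMap O F c ≠ 0 ∧ h ≠ 0 ∧ h ^ n = algebraMap O F c * f ^ D := by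
  obtain ⟨s₀, hs₀, hsT₀, hu₀⟩ := hr0
  obtain ⟨s₁, hs₁, hsT₁, hu₁⟩ := hr1
  have hfD : f ^ D ≠ 0 := pow_ne_zero _ hf0
  let C := M.toCharts hn
  have hext : IsExtendable C.root₀ hn (f ^ D) :=
    isExtendable_of_forall hfD fun m hm => @HasRootAt.pow _ _ _ _ _ n f m hm.isPrime (h₀ m hm) D
  have hs01 : ∃ e ∈ rootModule C.root₀₁ hn (f ^ D), s₀ - s₁ = π • e := by
    obtain ⟨k, x, y, hx, hy, hxy⟩ := hext
    have hd' : s₀ - s₁ ∈ rootModule C.root₀₁ hn (f ^ D) :=
      sub_mem (C.sec₀_le hn _ hs₀) (C.sec₁_le hn _ hs₁)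
    have hpart : ∀ a, ∃ b ∈ M.B₀₁, (s₀ - s₁) * y a = π • b := fun a => by
      have hm : (s₀ - s₁) * y a ∈ M.B₀₁ :=
        mul_mem_of_inv (hB := C.root₀₁) (hn := hn) hfD hd'
          (rootModule_mono (hB' := C.root₀₁) C.le₀ (hy a))
      obtain ⟨E, hE⟩ := M.loc₀ _ hm
      obtain ⟨e, he, hee⟩ := hf₀.reduced _ hE fun i => by
        have hTi := hT i
        have hyT : y a * T i ∈ P i := by
          refine mem_of_pow_mem hn ?_
          have h1 : (y a * T i) ^ n = (y a ^ n / (f ^ D)⁻¹) * (T i ^ n / f ^ D) := by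
            rw [mul_pow, div_inv_eq_mul]
            field_simp
          rw [h1]
          exact (P i).mul_mem _ _ (hf₀.le i _ (hy a)) hTi.1
        have hT0 : T i ≠ 0 := fun h => hTi.ne_zero (by rw [h, zero_pow hn.ne', zero_div])
        have hw := hf₀.le i _ M.w_mem
        have h2 : M.w ^ E * ((s₀ - s₁) * y a) = (M.w ^ E * (y a * T i)) * (s₀ / T i - s₁ / T i) := by
          field_simp
        rw [h2]
        have hm1 := (P i).mul_mem _ _ (pow_mem hw E) hyT
        have hm2 : s₀ / T i - s₁ / T i ∈ P i := sub_mem (hsT₀ i).1 (hsT₁ i).1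
        refine (rs_eq_zero ((P i).mul_mem _ _ hm1 hm2)).mp ?_
        rw [rs_mul hm1 hm2, rs_sub (hsT₀ i).1 (hsT₁ i).1, (hsT₀ i).2, (hsT₁ i).2, sub_self, mul_zero]
      refine ⟨M.w⁻¹ ^ E * e, mul_mem (pow_mem (M.le₁ M.w_inv_mem) E) (M.le₀ he), ?_⟩
      rw [← mul_smul_comm, ← hee, ← mul_assoc, ← mul_pow, inv_mul_cancel₀ M.w_ne, one_pow, one_mul]
    choose b hb hbe using hpart
    refine ⟨∑ a, b a * x a, sum_mem fun a _ => mul_left_mem (hb a) (C.sec₀_le hn _ (hx a)), ?_⟩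
    calc s₀ - s₁ = ∑ a, (s₀ - s₁) * y a * x a := by
          conv_lhs => rw [← mul_one (s₀ - s₁), ← hxy, Finset.mul_sum]
          exact Finset.sum_congr rfl fun a _ => by ring
      _ = π • ∑ a, b a * x a := by
          rw [Finset.smul_sum]
          exact Finset.sum_congr rfl fun a _ => by rw [hbe a, smul_mul_assoc]
  obtain ⟨ν, hν⟩ := hnO.exists_right_inv
  have hπ0 : algebraMap O F π ≠ 0 := (map_ne_zero_iff _ hinj).mpr hπ.ne_zero
  refine C.exists_root hn hfD hext π ν hν hπ0 ?_ hs₀ hs₁ hu₀ hu₁ hs01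
  rintro ⟨b, hb, hbe⟩
  obtain ⟨i⟩ := ‹Nonempty ι›
  have h1 := congrArg (rs (P i)) hbe
  rw [Algebra.smul_def, rs_mul (algebraMap_mem_component hf₀ i π) (hf₀.le i b hb),
    rs_eq_zero_of_nonunit (hu i), zero_mul, rs_one] at h1
  exact zero_ne_one h1

end Fermat.Agent.R59.NoSq
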