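import Mathlib.GroupTheory.Transfer
import Mathlib.Data.ZMod.Basic
import Mathlib.Algebra.Field.ZMod

/-!
# S59, unit A: extending an invariant homomorphism over a split cyclic Sylow quotient
-/

set_option autoImplicit false
set_option linter.style.haveILetI false

namespace Fermat.Agent.R59.NoSq

variable {G : Type} [Group G] {H : Subgroup G} [H.Normal] {p : ℕ} [Fact p.Prime]

/-- An invariant homomorphism to `ZMod p` on a normal subgroup `H` vanishing at `g ^ P`, for `g`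
of order `P` modulo `H` with `[G : H] / P` prime to `p`, extends to `G`. -/
theorem exists_hom_extend [H.FiniteIndex] (x : Additive H →+ ZMod p)
    (hinv : ∀ (γ : G) (h : H), x (Additive.ofMul ⟨γ * h * γ⁻¹, Subgroup.Normal.conj_mem ‹_› _ h.2 γ⟩)
      = x (Additive.ofMul h))
    {g : G} {P r : ℕ} (hgP : g ^ P ∈ H) (hord : ∀ i : ℤ, g ^ i ∈ H → (P : ℤ) ∣ i)
    (hx : x (Additive.ofMul ⟨g ^ P, hgP⟩) = 0) (hP : 0 < P) (hidx : H.index = P * r) (hr : ¬ p ∣ r) :
    ∃ χ : Additive G →+ ZMod p, ∀ h : H, χ (Additive.ofMul (h : G)) = x (Additive.ofMul h) := by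
  classical
  let S : Subgroup G := (Subgroup.zpowers (QuotientGroup.mk' H g)).comap (QuotientGroup.mk' H)
  have hmem : ∀ γ : S, ∃ i : ℤ, (γ : G) * (g ^ i)⁻¹ ∈ H := fun γ => by
    obtain ⟨i, hi⟩ := Subgroup.mem_zpowers_iff.mp (Subgroup.mem_comap.mp γ.2)
    refine ⟨i, ?_⟩
    rw [← QuotientGroup.eq_one_iff, ← QuotientGroup.mk'_apply H, map_mul, map_inv, map_zpow, ← hi,
      mul_inv_cancel]
  choose e he using hmem
  have hzero : ∀ (i : ℤ) (hi : g ^ i ∈ H), x (Additive.ofMul ⟨g ^ i, hi⟩) = 0 := fun i hi => by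
    obtain ⟨t, rfl⟩ := hord i hi
    have : (⟨g ^ ((P : ℤ) * t), hi⟩ : H) = ⟨g ^ P, hgP⟩ ^ t :=
      Subtype.ext ((zpow_mul g _ _).trans (by rw [zpow_natCast]; rfl))
    rw [this, ofMul_zpow, map_zsmul, hx, smul_zero]
  have key : ∀ (γ : S) (i : ℤ) (hi : (γ : G) * (g ^ i)⁻¹ ∈ H),
      x (Additive.ofMul ⟨_, he γ⟩) = x (Additive.ofMul ⟨_, hi⟩) := fun γ i hi => by
    have hgi : g ^ (e γ - i) ∈ H := by
      have := H.mul_mem (H.inv_mem (he γ)) hi
      rwa [mul_inv_rev, inv_inv, mul_assoc, inv_mul_cancel_left, ← zpow_neg, ← zpow_add,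
        ← sub_eq_add_neg] at this
    have : (⟨_, hi⟩ : H) = ⟨_, he γ⟩ * ⟨_, hgi⟩ := Subtype.ext (by
      show (γ : G) * (g ^ i)⁻¹ = (γ : G) * (g ^ e γ)⁻¹ * g ^ (e γ - i)
      rw [mul_assoc, zpow_sub, ← mul_assoc (g ^ e γ)⁻¹, inv_mul_cancel, one_mul])
    rw [this, ofMul_mul, map_add, hzero _ hgi, add_zero]
  have hadd : ∀ γ δ : S, x (Additive.ofMul ⟨_, he (γ * δ)⟩) =
      x (Additive.ofMul ⟨_, he γ⟩) + x (Additive.ofMul ⟨_, he δ⟩) := fun γ δ => by
    have hc := hinv (g ^ e γ) ⟨_, he δ⟩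
    have hm : ((γ * δ : S) : G) * (g ^ (e δ + e γ))⁻¹ ∈ H := by
      have := H.mul_mem (he γ) (Subgroup.Normal.conj_mem ‹_› _ (he δ) (g ^ e γ))
      convert this using 1
      rw [Subgroup.coe_mul, zpow_add]; group
    rw [key (γ * δ) _ hm, ← hc, ← map_add, ← ofMul_mul]
    congr 2
    refine Subtype.ext ?_
    show ((γ * δ : S) : G) * (g ^ (e δ + e γ))⁻¹ =
      (γ : G) * (g ^ e γ)⁻¹ * (g ^ e γ * ((δ : G) * (g ^ e δ)⁻¹) * (g ^ e γ)⁻¹)
    rw [Subgroup.coe_mul, zpow_add]; group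
  let f : S →* Multiplicative (ZMod p) :=
    MonoidHom.mk' (fun γ => Multiplicative.ofAdd (x (Additive.ofMul ⟨_, he γ⟩))) fun γ δ => by
      rw [hadd γ δ, ofAdd_add]
  have hle : H ≤ S := fun h hh => Subgroup.mem_comap.mpr
    ⟨0, by rw [QuotientGroup.mk'_apply H h, (QuotientGroup.eq_one_iff h).mpr hh]; simp⟩
  haveI : S.FiniteIndex := Subgroup.finiteIndex_of_le hle
  have hSidx : S.index = r := by
    rw [Subgroup.index_comap_of_surjective _ (QuotientGroup.mk'_surjective H)]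
    have h1 := Subgroup.index_mul_card (Subgroup.zpowers (QuotientGroup.mk' H g))
    rw [Nat.card_zpowers, ← Subgroup.index_eq_card, hidx] at h1
    have h2 : orderOf (QuotientGroup.mk' H g) = P := by
      refine Nat.dvd_antisymm (orderOf_dvd_of_pow_eq_one (by
        rw [← map_pow]; exact (QuotientGroup.eq_one_iff _).mpr hgP)) ?_
      have := hord (orderOf (QuotientGroup.mk' H g)) (by
        rw [zpow_natCast, ← QuotientGroup.eq_one_iff, ← QuotientGroup.mk'_apply H, map_pow]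
        exact pow_orderOf_eq_one _)
      exact_mod_cast this
    rw [h2, mul_comm P r] at h1
    exact Nat.eq_of_mul_eq_mul_right hP h1
  letI := S.fintypeQuotientOfFiniteIndex
  let T : S.LeftTransversal := default
  let χ₀ : Additive G →+ ZMod p := AddMonoidHom.toMultiplicativeRight.symm (MonoidHom.transfer f)
  have hres : ∀ h : H, χ₀ (Additive.ofMul (h : G)) = r • x (Additive.ofMul h) := fun h => by
    show Multiplicative.toAdd (MonoidHom.transfer f (h : G)) = _
    rw [MonoidHom.transfer_def f T, Subgroup.leftTransversals.diff, toAdd_prod,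
      ← hSidx, Subgroup.index_eq_card, Nat.card_eq_fintype_card, ← Finset.card_univ,
      ← Finset.sum_const]
    refine Finset.sum_congr rfl fun c _ => ?_
    induction c using QuotientGroup.induction_on with
    | _ a =>
    set α := (T.2.leftQuotientEquiv (a : G ⧸ S) : G) with hα
    have hαa : (α : G ⧸ S) = a := T.2.leftQuotientEquiv.symm_apply_apply _
    have hfix : (h : G)⁻¹ • (a : G ⧸ S) = a := by
      rw [← hαa, MulAction.Quotient.smul_coe, smul_eq_mul, QuotientGroup.eq, mul_inv_rev, inv_inv,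
        mul_assoc]
      exact hle (by simpa [mul_assoc] using Subgroup.Normal.conj_mem' ‹H.Normal› _ h.2 α)
    simp only [Subgroup.smul_apply_eq_smul_apply_inv_smul, hfix]
    show x (Additive.ofMul ⟨_, he _⟩) = _
    have hh : α⁻¹ * ((h : G) * α) * (g ^ (0 : ℤ))⁻¹ ∈ H := by
      simpa [mul_assoc] using Subgroup.Normal.conj_mem' ‹H.Normal› _ h.2 α
    rw [key _ 0 (by simpa [hα, mul_assoc] using hh), ← hinv α⁻¹ h]
    congr 2
    exact Subtype.ext (by simp [hα, mul_assoc])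
  refine ⟨((r : ZMod p)⁻¹).val • χ₀, fun h => ?_⟩
  show ((r : ZMod p)⁻¹).val • χ₀ _ = _
  rw [hres, nsmul_eq_mul, nsmul_eq_mul, ZMod.natCast_zmod_val,
    ← mul_assoc, inv_mul_cancel₀ (fun h0 => hr ((ZMod.natCast_eq_zero_iff r p).mp h0)), one_mul]

end Fermat.Agent.R59.NoSq
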