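import Fermat.Agent.R59.NoSq.Cycle
import Fermat.Agent.R59.NoSq.Extend

/-!
# S59, unit A: Borel-invariant classes with the relations come from level `qm`
-/

set_option autoImplicit false
set_option linter.style.haveILetI false
set_option linter.unusedSectionVars false

noncomputable section

namespace Fermat.Agent.R59.NoSq

open CongruenceSubgroup
open WeierstrassCurve WeierstrassCurve.Affine.Point
open scoped WeierstrassCurve.Affine
open Fermat.Agent.GalRep Fermat.Agent.GalRep.Level Fermat.Agent.NewVec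
open Fermat.Agent.Galois (GQ)
open scoped MatrixGroups

local notation "Qbar" => AlgebraicClosure ℚ

/-- The standing data: `s₀`, and no class with the relations at level `qm`. -/
structure Setting (W : WeierstrassCurve ℤ) (p q m : ℕ) [Fact p.Prime] [NeZero q] [NeZero m]
    (s₀ : GQ) : Prop where
  p_ne_two : p ≠ 2
  delta : W.Δ ≠ 0
  q_prime : q.Prime
  q_ne : q ≠ p
  cyc : cycM (q * q * m) s₀ = 1
  roots : ∀ z : Qbar, z ^ p = 1 → s₀ z = z
  omg_eq : omg p s₀ = 1
  tr_ne : trE W p s₀ ≠ 2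
  none : ∀ y : ParHom (q * m) (ZMod p), IsRho W p (kummerGalois (q * m) p).galois y → y = 0

variable {W : WeierstrassCurve ℤ} {p q m : ℕ} [Fact p.Prime] [NeZero q] [NeZero m]
  [Fact (Nat.Coprime q m)] {s₀ : GQ}

/-- A lift to `Γ₀(qm)` of a diagonal element. -/
theorem exists_lift_torus (s : (ZMod q)ˣ) :
    ∃ g : Gamma0 (q * m), red q (g : SL(2, ℤ)) = torus q s := by
  refine ⟨⟨liftQ q m (torus q s), ?_⟩, red_liftQ q m _⟩
  rw [Gamma0_mem]
  refine (ZMod.intCast_zmod_eq_zero_iff_dvd _ _).mpr (dvd_of_both q m ?_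
    ((ZMod.intCast_zmod_eq_zero_iff_dvd _ _).mp (Gamma0_mem.mp (liftQ_mem q m _))))
  refine (ZMod.intCast_zmod_eq_zero_iff_dvd _ _).mp ?_
  rw [← red_apply, red_liftQ]
  simp [torus]

theorem exists_red_borel (γ : Gamma0 (q * m)) :
    ∃ x : (ZMod q)ˣ × ZMod q, red q (γ : SL(2, ℤ)) = torus q x.1 * unip q x.2 := by
  obtain ⟨e, he⟩ := exists_borel_index q m
  obtain ⟨x, hx⟩ := e.surjective ((γ⁻¹ : Gamma0 (q * m)) : Gamma0 (q * m) ⧸ midSub q m)
  exact ⟨x, by rw [← inv_inv γ]; exact he x γ⁻¹ hx.symm⟩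

theorem index_midSub (hq : q.Prime) : (midSub q m).index = (q - 1) * q := by
  haveI : Fact q.Prime := ⟨hq⟩
  obtain ⟨e, -⟩ := exists_borel_index q m
  rw [Subgroup.index_eq_card, ← Nat.card_congr e, Nat.card_prod, Nat.card_eq_fintype_card,
    Nat.card_eq_fintype_card, ZMod.card_units, ZMod.card]

theorem torus_mul (s t : (ZMod q)ˣ) : torus q (s * t) = torus q s * torus q t := by
  ext i j
  fin_cases i <;> fin_cases j <;> simp [torus, Matrix.mul_apply, Fin.sum_univ_two, mul_comm]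

/-- `s ↦ diag(s, 1/s)` as a homomorphism. -/
def torusHom : (ZMod q)ˣ →* SL(2, ZMod q) := MonoidHom.mk' (torus q) torus_mul

theorem torus_eq_one_iff {s : (ZMod q)ˣ} : torus q s = 1 ↔ s = 1 := by
  refine ⟨fun h => Units.ext ?_, fun h => ?_⟩
  · simpa [torus] using congrArg (fun g : SL(2, ZMod q) => g 0 0) h
  · rw [h]
    ext i j
    fin_cases i <;> fin_cases j <;> simp [torus]

theorem trace_torus_unip (t : (ZMod q)ˣ) (w : ZMod q) :
    (torus q t * unip q w : SL(2, ZMod q)) 0 0 + (torus q t * unip q w : SL(2, ZMod q)) 1 1 =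
      (t : ZMod q) + ((t⁻¹ : (ZMod q)ˣ) : ZMod q) := by
  simp [torus, unip, Matrix.mul_apply, Fin.sum_univ_two]

theorem commute_torus_unip {t : (ZMod q)ˣ} (ht : t * t = 1) (w : ZMod q) :
    Commute (torus q t) (unip q w) := by
  have hi : t⁻¹ = t := inv_eq_of_mul_eq_one_right ht
  ext i j
  fin_cases i <;> fin_cases j <;>
    simp [torus, unip, Matrix.mul_apply, Fin.sum_univ_two, hi, mul_comm]

/-- An element of order the `p`-part of `q - 1`. -/
theorem exists_unit_orderOf (hq : q.Prime) (p : ℕ) :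
    ∃ s : (ZMod q)ˣ, orderOf s = p ^ (q - 1).factorization p := by
  haveI : Fact q.Prime := ⟨hq⟩
  obtain ⟨g, hg⟩ := IsCyclic.exists_generator (α := (ZMod q)ˣ)
  have hord : orderOf g = q - 1 := by
    rw [orderOf_eq_card_of_forall_mem_zpowers hg, Nat.card_eq_fintype_card, ZMod.card_units]
  have hd := Nat.ordProj_dvd (q - 1) p
  have h1 : 0 < q - 1 := by have := hq.two_le; omega
  refine ⟨g ^ ((q - 1) / p ^ (q - 1).factorization p), ?_⟩
  rw [orderOf_pow_of_dvd (Nat.div_pos (Nat.le_of_dvd h1 hd) (Nat.pos_of_dvd_of_pos hd h1)).ne'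
    (by rw [hord]; exact Nat.div_dvd_of_dvd hd), hord, Nat.div_div_self hd h1.ne']

theorem galG_low_apply (s : GQ) (y : ParHom (q * m) (ZMod p)) :
    galG (isLevel_low q m) p s y = (kummerGalois (q * m) p).galois s y := galG_low s y

theorem Setting.eq_zero (S : Setting W p q m s₀) {M : Type} [AddCommGroup M]
    {ρ : GQ →* Module.End ℤ M} (hM : ∀ x : M, p • x = 0) {y : M}
    (hy : zOp p ρ s₀ y = (trE W p s₀).val • y) (hfix : ρ s₀ y = y) : y = 0 :=
  eq_zero_of_fixed hM S.omg_eq S.tr_ne hy hfix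

theorem Setting.cycq (S : Setting W p q m s₀) (x : SL(2, ZMod q))
    (χ : ParG (midGroup q m) (ZMod p)) (s : GQ) (hs : s = s₀ ∨ s = s₀⁻¹) :
    galG (isLevel_mid q m) p s (act q m x χ) = act q m x (galG (isLevel_mid q m) p s χ) := by
  refine act_galG_of_one ?_ x χ
  rcases hs with rfl | rfl
  · exact S.cyc
  · rw [map_inv, S.cyc, inv_one]

theorem zOp_of_fixed {M : Type} [AddCommGroup M] {ρ : GQ →* Module.End ℤ M} {g : GQ}
    (hω : omg p g = 1) {y : M} (hy : ρ g y = y) : zOp p ρ g y = 2 • y := by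
  haveI : Fact (1 < p) := ⟨(Fact.out : p.Prime).one_lt⟩
  have h : ρ g⁻¹ y = y := by
    conv_lhs => rw [← hy]
    exact inv_smul_smul' g y
  rw [zOp_apply, hω, ZMod.val_one, one_smul, hy, h, two_nsmul]

theorem isRho_sub {M : Type} [AddCommGroup M] {ρ : GQ →* Module.End ℤ M} {g : GQ} {x : M}
    (hcomm : ∀ h, zOp p ρ h (zOp p ρ g x) = zOp p ρ g (zOp p ρ h x))
    (he : ∀ h, zOp p ρ g (zOp p ρ h x - (trE W p h).val • x) =
      2 • (zOp p ρ h x - (trE W p h).val • x)) :
    IsRho W p ρ (zOp p ρ g x - 2 • x) := fun h => by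
  have h2 := he h
  rw [map_sub, map_nsmul, ← hcomm h] at h2
  rw [map_sub, map_nsmul, ← sub_eq_zero]
  rw [← sub_eq_zero] at h2
  rw [← h2, smul_sub, smul_sub, smul_comm (trE W p h).val 2 x]
  abel

theorem resH_zOp (h : GQ) (y : ParHom (q * m) (ZMod p)) :
    resH q m (zOp p (kummerGalois (q * m) p).galois h y) =
      zOp p (galG (isLevel_mid q m) p) h (resH q m y) := by
  rw [zOp_apply, zOp_apply, map_add, map_nsmul, ← resH_galG, ← resH_galG]

theorem Setting.fixed_of_res (S : Setting W p q m s₀) {y : ParHom (q * m) (ZMod p)}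
    (hy : resH q m y = 0) : (kummerGalois (q * m) p).galois s₀ y = y := by
  rw [← galG_low_apply]
  refine galG_eq_self_of_vanish (isLevel_low q m) dvd_rfl (fun γ hγ => ?_) S.cyc S.roots
  exact DFunLike.congr_fun (congrArg Subtype.val hy)
    (Additive.ofMul ⟨_, (isLevel_mid q m).gamma_le hγ⟩)

/-- A restriction with the relations vanishes. -/
theorem Setting.eq_zero_of_res (S : Setting W p q m s₀) {χ : ParHom (q * m) (ZMod p)}
    (hx : IsRho W p (galG (isLevel_mid q m) p) (resH q m χ)) : resH q m χ = 0 := by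
  haveI := isElliptic_generic W S.delta
  have hrho := isRho_sub (W := W) (x := χ) (g := s₀) (ρ := (kummerGalois (q * m) p).galois)
    (fun h => by
      have hg := galois_zOp (N := q * m) W p S.p_ne_two S.delta h
      conv_lhs => rw [zOp_apply p _ s₀, map_add, map_nsmul, ← hg, ← hg]
      rw [zOp_apply p _ s₀])
    (fun h => zOp_of_fixed S.omg_eq (S.fixed_of_res (by
      rw [map_sub, map_nsmul, resH_zOp, hx h, sub_self])))
  have h0 := congrArg (resH q m) (S.none _ hrho)
  rw [map_sub, map_nsmul, resH_zOp, hx s₀, _root_.map_zero, sub_eq_zero] at h0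
  refine eq_zero_of_val_smul nsmul_parG (sub_ne_zero.mpr S.tr_ne) (c := trE W p s₀ - 2) ?_
  have h4 : (trE W p s₀ - 2).val • resH q m χ + 2 • resH q m χ =
      (trE W p s₀).val • resH q m χ := by
    rw [← add_smul]
    exact smul_congr nsmul_parG (by
      rw [Nat.cast_add, ZMod.natCast_zmod_val, ZMod.natCast_zmod_val]; norm_num) _
  rw [h0] at h4
  exact add_eq_right.mp h4

/-- A Borel-invariant class with the relations is zero. -/
theorem Setting.descent (S : Setting W p q m s₀) {x : ParG (midGroup q m) (ZMod p)}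
    (hx : IsRho W p (galG (isLevel_mid q m) p) x)
    (hinv : ∀ (s : (ZMod q)ˣ) (w : ZMod q), act q m (torus q s * unip q w) x = x) : x = 0 := by
  classical
  haveI : Fact q.Prime := ⟨S.q_prime⟩
  haveI := isElliptic_generic W S.delta
  haveI : Fact (1 < p) := ⟨(Fact.out : p.Prime).one_lt⟩
  have hp : p.Prime := Fact.out
  have hq := S.q_prime
  obtain ⟨s, hs⟩ := exists_unit_orderOf hq p
  set P := p ^ (q - 1).factorization p with hPdef
  have hP0 : 0 < P := pow_pos hp.pos _
  obtain ⟨g, hg, hg1⟩ : ∃ g : Gamma0 (q * m),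
      red q (g : SL(2, ℤ)) = torus q s ∧ (s = 1 → g = 1) := by
    by_cases h1 : s = 1
    · exact ⟨1, by rw [h1, torus_eq_one_iff.mpr rfl]; exact map_one _, fun _ => rfl⟩
    · obtain ⟨g, hg⟩ := exists_lift_torus (m := m) s
      exact ⟨g, hg, fun h => absurd h h1⟩
  have hgm : (g : SL(2, ℤ)) ∈ Gamma0 m := gamma0_low_le q m g.2
  have hred : ∀ i : ℤ, red q ((g ^ i : Gamma0 (q * m)) : SL(2, ℤ)) = torus q (s ^ i) := fun i => by
    rw [Subgroup.coe_zpow, map_zpow, hg]
    exact (map_zpow (torusHom (q := q)) s i).symm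
  have hmem : ∀ i : ℤ, g ^ i ∈ midSub q m ↔ (P : ℤ) ∣ i := fun i => by
    rw [Subgroup.mem_subgroupOf, mem_mid, hred, torus_eq_one_iff, ← orderOf_dvd_iff_zpow_eq_one, hs]
    exact ⟨fun h => h.1, fun h => ⟨h, Gamma0_mem.mp (gamma0_low_le q m (g ^ i : Gamma0 (q * m)).2)⟩⟩
  have hgP : g ^ P ∈ midSub q m := by
    rw [← zpow_natCast]; exact (hmem _).mpr dvd_rfl
  have hgP' : (g : SL(2, ℤ)) ^ P ∈ midGroup q m := by simpa [Subgroup.mem_subgroupOf] using hgP
  let x' : Additive (midSub q m) →+ ZMod p :=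
    ((x : Additive (midGroup q m) →+ ZMod p)).comp
      (MonoidHom.toAdditive (MonoidHom.mk' (fun h : midSub q m => (⟨((h : Gamma0 (q * m)) :
        SL(2, ℤ)), h.2⟩ : midGroup q m)) fun _ _ => rfl))
  -- the value at `g ^ P`
  have hN : ∀ y : ParG (midGroup q m) (ZMod p), (∀ t w, act q m (torus q t * unip q w) y = y) →
      ∀ i, act q m (red q (g : SL(2, ℤ)) ^ i) y = y := fun y hy i => by
    rw [hg, show torus q s ^ i = torus q (s ^ i) from (map_pow (torusHom (q := q)) s i).symm]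
    have := hy (s ^ i) 0
    rwa [unip_zero, mul_one] at this
  have hval : ((x : Additive (midGroup q m) →+ ZMod p)) (Additive.ofMul ⟨_, hgP'⟩) = 0 := by
    rcases Nat.eq_zero_or_pos ((q - 1).factorization p) with hk | hk
    · -- here `g` is congruent to one, so it can be taken to be one
      have hs1 : s = 1 := by rw [← orderOf_eq_one_iff, hs, hPdef, hk, pow_zero]
      have e : (⟨_, hgP'⟩ : midGroup q m) = 1 := Subtype.ext (by simp [hg1 hs1])
      rw [e, ofMul_one, _root_.map_zero]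
    · have hPp : p ∣ P := dvd_pow_self p hk.ne'
      have hsum : ∑ i ∈ Finset.range P, act q m (red q (g : SL(2, ℤ)) ^ i) x = 0 := by
        rw [Finset.sum_congr rfl (fun i _ => hN x hinv i), Finset.sum_const, Finset.card_range]
        obtain ⟨c, hc⟩ := hPp
        rw [hc, mul_comm, mul_nsmul', nsmul_parG, smul_zero]
      have h1 := galG_cycle_value x S.cyc S.roots hgm hgP' hsum
      have h2 := galG_cycle_value x (s := s₀⁻¹) (by rw [map_inv, S.cyc, inv_one]) (fun z hz => by
        conv_lhs => rw [← S.roots z hz]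
        exact s₀.symm_apply_apply z) hgm hgP' hsum
      have h3 := congrArg (fun y : ParG (midGroup q m) (ZMod p) =>
        (y : Additive (midGroup q m) →+ ZMod p) (Additive.ofMul ⟨_, hgP'⟩)) (hx s₀)
      simp only [zOp_apply, S.omg_eq, ZMod.val_one, one_smul, Submodule.coe_add,
        AddMonoidHom.add_apply, h1, h2, Submodule.coe_smul_of_tower] at h3
      change (x : Additive (midGroup q m) →+ ZMod p) (Additive.ofMul ⟨_, hgP'⟩) +
        (x : Additive (midGroup q m) →+ ZMod p) (Additive.ofMul ⟨_, hgP'⟩) =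
        (trE W p s₀).val • ((x : Additive (midGroup q m) →+ ZMod p) (Additive.ofMul ⟨_, hgP'⟩)) at h3
      rw [nsmul_eq_mul, ZMod.natCast_zmod_val] at h3
      exact (mul_eq_zero.mp (by linear_combination h3 : (2 - trE W p s₀) *
        (x : Additive (midGroup q m) →+ ZMod p) (Additive.ofMul ⟨_, hgP'⟩) = 0)).resolve_left
          (sub_ne_zero.mpr S.tr_ne.symm)
  -- the extension
  have hidx : (midSub q m).index = P * ((q - 1) / P * q) := by
    rw [index_midSub hq, ← mul_assoc, Nat.mul_div_cancel' (Nat.ordProj_dvd (q - 1) p)]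
  have hr : ¬ p ∣ (q - 1) / P * q := fun h => (hp.dvd_mul.mp h).elim
    (Nat.not_dvd_ordCompl hp (by have := hq.two_le; omega))
    fun h => S.q_ne ((Nat.prime_dvd_prime_iff_eq hp hq).mp h).symm
  obtain ⟨χ₀, hχ₀⟩ := exists_hom_extend (H := midSub q m) x' (fun γ h => by
      obtain ⟨⟨t, w⟩, htw⟩ := exists_red_borel γ
      conv_rhs => rw [show x' (Additive.ofMul h) = (x : Additive (midGroup q m) →+ ZMod p)
        (Additive.ofMul ⟨((h : Gamma0 (q * m)) : SL(2, ℤ)), h.2⟩) from rfl, ← hinv t w]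
      rw [act_apply q m _ (gamma0_low_le q m γ.2) htw]
      rfl)
    hgP (fun i hi => (hmem i).mp hi) (by
      refine Eq.trans ?_ hval
      rfl) hP0 hidx hr
  have hχpar : ∀ γ : Gamma0 (q * m), ((γ : SL(2, ℤ)) : Matrix (Fin 2) (Fin 2) ℤ).trace ^ 2 = 4 →
      χ₀ (Additive.ofMul γ) = 0 := fun γ hγ => by
    obtain ⟨⟨t, w⟩, htw⟩ := exists_red_borel γ
    have htr : (((γ : SL(2, ℤ)) : Matrix (Fin 2) (Fin 2) ℤ).trace : ZMod q) =
        (t : ZMod q) + ((t⁻¹ : (ZMod q)ˣ) : ZMod q) := by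
      rw [Matrix.trace_fin_two, Int.cast_add, ← red_apply, ← red_apply, htw]
      exact trace_torus_unip t w
    have hsq : ((t : ZMod q) - ((t⁻¹ : (ZMod q)ˣ) : ZMod q)) ^ 2 = 0 := by
      have h4 := congrArg (fun z : ℤ => (z : ZMod q)) hγ
      push_cast at h4
      rw [htr] at h4
      linear_combination h4 - 4 * Units.mul_inv t
    have ht : t * t = 1 := by
      have h0 := sub_eq_zero.mp (pow_eq_zero_iff two_ne_zero |>.mp hsq)
      rw [← Units.val_eq_one, Units.val_mul]
      nth_rw 2 [h0]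
      exact Units.mul_inv t
    have hmid : γ ^ (2 * q) ∈ midSub q m := by
      rw [Subgroup.mem_subgroupOf, mem_mid, Subgroup.coe_pow, map_pow, htw]
      refine ⟨?_, Gamma0_mem.mp (gamma0_low_le q m ((γ : SL(2, ℤ)) ^ (2 * q) |> fun _ =>
        (γ ^ (2 * q) : Gamma0 (q * m))).2)⟩
      have hcomm := commute_torus_unip ht w
      rw [Commute.mul_pow hcomm, show torus q t ^ (2 * q) = torus q (t ^ (2 * q)) from
        (map_pow (torusHom (q := q)) t _).symm, pow_mul, pow_two, ht, one_pow,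
        torus_eq_one_iff.mpr rfl, one_mul]
      have hu : ∀ k : ℕ, unip q w ^ k = unip q ((k : ZMod q) * w) := fun k => by
        induction k with
        | zero => rw [pow_zero, Nat.cast_zero, zero_mul, unip_zero]
        | succ k ih => rw [pow_succ, ih, ← unip_add, Nat.cast_succ, add_mul, one_mul]
      rw [hu, Nat.cast_mul, ZMod.natCast_self, mul_zero, zero_mul, unip_zero]
    have h1 := hχ₀ ⟨_, hmid⟩
    have h2 : (x : Additive (midGroup q m) →+ ZMod p) (Additive.ofMul
        ⟨((γ ^ (2 * q) : Gamma0 (q * m)) : SL(2, ℤ)), hmid⟩) = 0 := x.2 _ (by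
      simp only [Subgroup.coe_pow, Matrix.SpecialLinearGroup.coe_pow]
      exact trace_pow_sq_eq_four _ (γ : SL(2, ℤ)).2 hγ _)
    rw [ofMul_pow, map_nsmul, nsmul_eq_mul] at h1
    refine (mul_eq_zero.mp (h1.trans h2)).resolve_left fun h => ?_
    rw [ZMod.natCast_eq_zero_iff] at h
    rcases hp.dvd_mul.mp h with h' | h'
    · exact S.p_ne_two ((Nat.prime_dvd_prime_iff_eq hp Nat.prime_two).mp h')
    · exact S.q_ne ((Nat.prime_dvd_prime_iff_eq hp hq).mp h').symm
  let χ : ParHom (q * m) (ZMod p) := ⟨χ₀, hχpar⟩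
  have hres : resH q m χ = x := Subtype.ext (AddMonoidHom.ext fun z => by
    obtain ⟨γ, rfl⟩ := Additive.ofMul.surjective z
    exact hχ₀ ⟨Subgroup.inclusion (mid_le_low q m) γ, γ.2⟩)
  rw [← hres]
  exact S.eq_zero_of_res (hres.symm ▸ hx)

end Fermat.Agent.R59.NoSq
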