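import Fermat.Agent.GalRep.Level.SL2
import Fermat.Agent.NewVec.Psi
import Mathlib.GroupTheory.SemidirectProduct

/-!
# S59, unit A: the group `SL₂(𝔽_q) ⋊ 𝔽_q^×` and its lines
-/

set_option autoImplicit false
set_option linter.style.haveILetI false
set_option linter.unusedSectionVars false

noncomputable section

namespace Fermat.Agent.R59.NoSq

open Fermat.Agent.GalRep Fermat.Agent.GalRep.Level Fermat.Agent.NewVec
open scoped MatrixGroups

variable (q : ℕ) [NeZero q]

/-- Conjugation by `diag(a,1)` as an automorphism. -/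
def conjAut : (ZMod q)ˣ →* MulAut SL(2, ZMod q) :=
  MonoidHom.mk'
    (fun a => { toFun := conjA a
                invFun := conjA a⁻¹
                left_inv := fun g => by rw [conjA_conjA, inv_mul_cancel, conjA_one]
                right_inv := fun g => by rw [conjA_conjA, mul_inv_cancel, conjA_one]
                map_mul' := map_mul _ })
    fun a b => MulEquiv.ext fun g => (conjA_conjA a b g).symm

/-- The group of symmetries along the special fibre. -/
abbrev SymA : Type := SL(2, ZMod q) ⋊[conjAut q] (ZMod q)ˣ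

theorem mul_left_eq (s t : SymA q) : (s * t).left = s.left * conjA s.right t.left := rfl

theorem inv_left_eq (s : SymA q) : s⁻¹.left = conjA s.right⁻¹ s.left⁻¹ := rfl

theorem finite_symA : Finite (SymA q) :=
  Finite.of_injective (fun s => (s.left, s.right)) fun s t h => by
    simp only [Prod.mk.injEq] at h
    exact SemidirectProduct.ext h.1 h.2

/-- The elements fixing the line at infinity. -/
def stabInf : Subgroup (SymA q) where
  carrier := {s | s.left 1 0 = 0}
  one_mem' := by simp
  mul_mem' {s t} hs ht := by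
    have hs' : s.left 1 0 = 0 := hs
    have ht' : t.left 1 0 = 0 := ht
    show (s * t).left 1 0 = 0
    rw [mul_left_eq]
    simp [conjA, Matrix.mul_apply, Fin.sum_univ_two, hs', ht']
  inv_mem' {s} hs := by
    have hs' : s.left 1 0 = 0 := hs
    show s⁻¹.left 1 0 = 0
    rw [inv_left_eq]
    simp [conjA, Matrix.SpecialLinearGroup.coe_inv, Matrix.adjugate_fin_two, hs']

/-- The elements fixing the component at infinity pointwise. -/
def fixInf : Subgroup (SymA q) where
  carrier := {s | s.left 1 0 = 0 ∧ s.left 0 0 = 1 ∧ s.left 1 1 = 1}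
  one_mem' := by simp
  mul_mem' {s t} hs ht := by
    obtain ⟨hs1, hs2, hs3⟩ := hs
    obtain ⟨ht1, ht2, ht3⟩ := ht
    show (s * t).left 1 0 = 0 ∧ (s * t).left 0 0 = 1 ∧ (s * t).left 1 1 = 1
    rw [mul_left_eq]
    simp [conjA, Matrix.mul_apply, Fin.sum_univ_two, hs1, hs2, hs3, ht1, ht2, ht3]
  inv_mem' {s} hs := by
    obtain ⟨hs1, hs2, hs3⟩ := hs
    show s⁻¹.left 1 0 = 0 ∧ s⁻¹.left 0 0 = 1 ∧ s⁻¹.left 1 1 = 1
    rw [inv_left_eq]
    simp [conjA, Matrix.SpecialLinearGroup.coe_inv, Matrix.adjugate_fin_two, hs1, hs2, hs3]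

theorem fixInf_le : fixInf q ≤ stabInf q := fun _ h => h.1

theorem conj_mem_fixInf {s u : SymA q} (hs : s ∈ stabInf q) (hu : u ∈ fixInf q) :
    s⁻¹ * u * s ∈ fixInf q := by
  have hs' : s.left 1 0 = 0 := hs
  obtain ⟨hu1, hu2, hu3⟩ := hu
  have hdet : s.left 0 0 * s.left 1 1 = 1 := by
    have h := s.left.2
    rw [Matrix.det_fin_two, hs', mul_zero, sub_zero] at h
    exact h
  show (s⁻¹ * u * s).left 1 0 = 0 ∧ (s⁻¹ * u * s).left 0 0 = 1 ∧ (s⁻¹ * u * s).left 1 1 = 1
  rw [mul_left_eq, mul_left_eq, inv_left_eq]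
  simp [conjA, Matrix.SpecialLinearGroup.coe_inv, Matrix.adjugate_fin_two, Matrix.mul_apply,
    Fin.sum_univ_two, hs', hu1, hu2, hu3, hdet, mul_comm (s.left 1 1)]

/-- The lines. -/
abbrev LineA : Type := SymA q ⧸ stabInf q

/-- The action on lines. -/
def lineAct : SymA q →* Equiv.Perm (LineA q) := MulAction.toPermHom (SymA q) (LineA q)

theorem lineAct_mk (s t : SymA q) : lineAct q s (t : LineA q) = ((s * t : SymA q) : LineA q) := rfl

/-- The translations. -/
def transA : Subgroup (SymA q) := (SemidirectProduct.inl (φ := conjAut q)).range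

/-- The elements fixing the components on a line pointwise. -/
def fixLine (L : LineA q) : Set (SymA q) :=
  {h | ∃ k : SymA q, (k : LineA q) = L ∧ k⁻¹ * h * k ∈ fixInf q}

variable {q}

theorem conj_of_fixLine {L : LineA q} {h : SymA q} (hh : h ∈ fixLine q L) {k : SymA q}
    (hk : (k : LineA q) = L) : k⁻¹ * h * k ∈ fixInf q := by
  obtain ⟨k₀, hk₀, hm⟩ := hh
  have hs : k₀⁻¹ * k ∈ stabInf q := QuotientGroup.eq.mp (hk₀.trans hk.symm)
  have := conj_mem_fixInf q hs hm
  rwa [show (k₀⁻¹ * k)⁻¹ * (k₀⁻¹ * h * k₀) * (k₀⁻¹ * k) = k⁻¹ * h * k by group] at this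

theorem mk_inl_left (k : SymA q) :
    ((SemidirectProduct.inl k.left : SymA q) : LineA q) = (k : LineA q) := by
  refine QuotientGroup.eq.mpr ?_
  show ((SemidirectProduct.inl k.left : SymA q)⁻¹ * k).left 1 0 = 0
  rw [← map_inv, mul_left_eq, SemidirectProduct.left_inl, SemidirectProduct.right_inl,
    conjA_one, inv_mul_cancel]
  simp

theorem exists_trans (L L' : LineA q) : ∃ g ∈ transA q, lineAct q g L = L' := by
  induction L using QuotientGroup.induction_on with
  | _ k =>
    induction L' using QuotientGroup.induction_on with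
    | _ k' =>
      refine ⟨SemidirectProduct.inl (k'.left * k.left⁻¹), ⟨_, rfl⟩, ?_⟩
      rw [← mk_inl_left k, ← mk_inl_left k', lineAct_mk, ← map_mul, inv_mul_cancel_right]

variable [Fact q.Prime]

/-- The lower unipotent element. -/
def lowU (c : ZMod q) : SL(2, ZMod q) := ⟨!![1, 0; c, 1], by simp [Matrix.det_fin_two_of]⟩

theorem eq_unip_low_unip {g : SL(2, ZMod q)} (hg : g 1 0 ≠ 0) :
    g = unip q ((g 0 0 - 1) / g 1 0) * lowU (g 1 0) * unip q ((g 1 1 - 1) / g 1 0) := by
  have h : g 0 0 * g 1 1 - g 0 1 * g 1 0 = 1 := by rw [← Matrix.det_fin_two]; exact g.2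
  ext i j
  fin_cases i <;> fin_cases j <;>
    simp [unip, lowU, Matrix.mul_apply, Fin.sum_univ_two] <;> field_simp <;>
    first
      | ring1
      | linear_combination (1 : ZMod q) * h
      | linear_combination (-1 : ZMod q) * h

theorem mem_of_unip_low (H : Subgroup SL(2, ZMod q)) (hu : ∀ w, unip q w ∈ H)
    (hl : ∀ c, lowU c ∈ H) (g : SL(2, ZMod q)) : g ∈ H := by
  by_cases hg : g 1 0 = 0
  · have h : g 0 0 * g 1 1 = 1 := by
      have := g.2
      rw [Matrix.det_fin_two, hg, mul_zero, sub_zero] at this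
      exact this
    have h2 : (g * lowU 1 : SL(2, ZMod q)) 1 0 ≠ 0 := by
      simp [lowU, Matrix.mul_apply, Fin.sum_univ_two, hg, right_ne_zero_of_mul_eq_one h]
    have h3 : g * lowU 1 ∈ H := by
      rw [eq_unip_low_unip h2]
      exact mul_mem (mul_mem (hu _) (hl _)) (hu _)
    simpa using mul_mem h3 (inv_mem (hl 1))
  · rw [eq_unip_low_unip hg]
    exact mul_mem (mul_mem (hu _) (hl _)) (hu _)

/-- Two lines generate the translations. -/
theorem transA_le_closure {L L' : LineA q} (hne : L ≠ L') :
    transA q ≤ Subgroup.closure (fixLine q L ∪ fixLine q L') := by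
  induction L using QuotientGroup.induction_on with
  | _ k =>
    induction L' using QuotientGroup.induction_on with
    | _ k' =>
      rw [← mk_inl_left k, ← mk_inl_left k'] at hne ⊢
      set x := k.left
      set y := x⁻¹ * k'.left with hy
      have hy0 : y 1 0 ≠ 0 := fun h => hne (QuotientGroup.eq.mpr (by
        show ((SemidirectProduct.inl x : SymA q)⁻¹ * SemidirectProduct.inl k'.left).left 1 0 = 0
        rw [← map_inv, ← map_mul, SemidirectProduct.left_inl]
        exact h))
      set cl := Subgroup.closure (fixLine q ((SemidirectProduct.inl x : SymA q) : LineA q) ∪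
        fixLine q ((SemidirectProduct.inl k'.left : SymA q) : LineA q))
      let H : Subgroup SL(2, ZMod q) := Subgroup.comap
        ((SemidirectProduct.inl (φ := conjAut q)).comp (MulAut.conj x).toMonoidHom) cl
      have hfix : ∀ w, (SemidirectProduct.inl (unip q w) : SymA q) ∈ fixInf q := fun w =>
        ⟨by simp [unip], by simp [unip], by simp [unip]⟩
      have hu : ∀ w, unip q w ∈ H := fun w => by
        refine Subgroup.subset_closure (Or.inl ⟨SemidirectProduct.inl x, rfl, ?_⟩)
        show (SemidirectProduct.inl x : SymA q)⁻¹ * SemidirectProduct.inl (x * unip q w * x⁻¹) *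
          SemidirectProduct.inl x ∈ fixInf q
        rw [← map_inv, ← map_mul, ← map_mul, show x⁻¹ * (x * unip q w * x⁻¹) * x = unip q w by group]
        exact hfix w
      have hyH : ∀ w, y * unip q w * y⁻¹ ∈ H := fun w => by
        refine Subgroup.subset_closure (Or.inr ⟨SemidirectProduct.inl k'.left, rfl, ?_⟩)
        show (SemidirectProduct.inl k'.left : SymA q)⁻¹ *
          SemidirectProduct.inl (x * (y * unip q w * y⁻¹) * x⁻¹) *
          SemidirectProduct.inl k'.left ∈ fixInf q
        rw [← map_inv, ← map_mul, ← map_mul, hy, show k'.left⁻¹ *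
          (x * (x⁻¹ * k'.left * unip q w * (x⁻¹ * k'.left)⁻¹) * x⁻¹) * k'.left = unip q w by group]
        exact hfix w
      have hl : ∀ c, lowU c ∈ H := fun c => by
        set r := y 0 0 / y 1 0 with hr
        have e : lowU c = unip q (-r) * (y * unip q (-(c / y 1 0 ^ 2)) * y⁻¹) * unip q r := by
          have hd : y 0 0 * y 1 1 - y 0 1 * y 1 0 = 1 := by rw [← Matrix.det_fin_two]; exact y.2
          ext i j
          fin_cases i <;> fin_cases j <;>
            simp [hr, unip, lowU, Matrix.mul_apply, Fin.sum_univ_two,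
              Matrix.SpecialLinearGroup.coe_inv, Matrix.adjugate_fin_two, Matrix.vecMul,
              dotProduct] <;>
            field_simp <;>
            first
              | ring1
              | linear_combination (1 : ZMod q) * hd
              | linear_combination (-(y 1 0 : ZMod q)) * hd
        rw [e]
        exact mul_mem (mul_mem (hu _) (hyH _)) (hu _)
      rintro _ ⟨z, rfl⟩
      have hz : x⁻¹ * z * x ∈ H := mem_of_unip_low H hu hl _
      have e : x * (x⁻¹ * z * x) * x⁻¹ = z := by group
      have := Subgroup.mem_comap.mp hz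
      simpa [MulAut.conj_apply, e] using this

/-- The point `w` of the projective line. -/
def pntA (w : ZMod q) : LineA q :=
  ((SemidirectProduct.inl (unip q w * ⟨!![0, -1; 1, 0], by simp [Matrix.det_fin_two_of]⟩) :
    SymA q) : LineA q)

/-- The line at infinity. -/
def infA : LineA q := ((1 : SymA q) : LineA q)

theorem mk_eq_inf {k : SymA q} (h : k.left 1 0 = 0) : (k : LineA q) = infA :=
  (QuotientGroup.eq.mpr (by rw [inv_one, one_mul]; exact h)).symm

theorem mk_eq_pnt {k : SymA q} (h : k.left 1 0 ≠ 0) :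
    (k : LineA q) = pntA (k.left 0 0 / k.left 1 0) := by
  rw [← mk_inl_left k, pntA]
  refine (QuotientGroup.eq.mpr ?_).symm
  show ((SemidirectProduct.inl _ : SymA q)⁻¹ * SemidirectProduct.inl k.left).left 1 0 = 0
  rw [← map_inv, ← map_mul, SemidirectProduct.left_inl]
  simp [unip, Matrix.mul_apply, Fin.sum_univ_two, Matrix.SpecialLinearGroup.coe_inv,
    Matrix.adjugate_fin_two]
  field_simp
  ring

/-- The lines are the points and infinity. -/
def lineEquiv : Option (ZMod q) ≃ LineA q :=
  Equiv.ofBijective (fun o => o.elim infA pntA) (by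
    refine ⟨?_, fun L => ?_⟩
    · have key : ∀ w, infA ≠ (pntA w : LineA q) := fun w h => by
        have h1 : ((1 : SymA q)⁻¹ * SemidirectProduct.inl _).left 1 0 = 0 := QuotientGroup.eq.mp h
        simp [unip, Matrix.mul_apply, Fin.sum_univ_two] at h1
      rintro (_ | w) (_ | w') h
      · rfl
      · exact absurd h (key w')
      · exact absurd h.symm (key w)
      · have h1 : ((SemidirectProduct.inl _ : SymA q)⁻¹ * SemidirectProduct.inl _).left 1 0 = 0 :=
          QuotientGroup.eq.mp (show (pntA w : LineA q) = pntA w' from h)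
        rw [← map_inv, ← map_mul, SemidirectProduct.left_inl] at h1
        simp [unip, Matrix.mul_apply, Fin.sum_univ_two, Matrix.SpecialLinearGroup.coe_inv,
          Matrix.adjugate_fin_two] at h1
        exact congrArg some (by linear_combination h1)
    · induction L using QuotientGroup.induction_on with
      | _ k =>
        by_cases h : k.left 1 0 = 0
        · exact ⟨none, (mk_eq_inf h).symm⟩
        · exact ⟨some _, (mk_eq_pnt h).symm⟩)

theorem lineEquiv_none : lineEquiv (none : Option (ZMod q)) = infA := rfl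

theorem lineEquiv_some (w : ZMod q) : lineEquiv (some w) = pntA w := rfl

theorem lineAct_inf {s : SymA q} (h : s ∈ stabInf q) : lineAct q s infA = infA := by
  rw [infA, lineAct_mk, mul_one]
  exact mk_eq_inf h

theorem lineAct_pnt (s : SymA q) (h : s ∈ stabInf q) (w : ZMod q) :
    lineAct q s (pntA w) =
      pntA (s.left 0 0 * (s.right : ZMod q) * w / s.left 1 1 + s.left 0 1 / s.left 1 1) := by
  have h' : s.left 1 0 = 0 := h
  have hd : s.left 0 0 * s.left 1 1 = 1 := by
    have := s.left.2
    rw [Matrix.det_fin_two, h', mul_zero, sub_zero] at this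
    exact this
  have h11 : s.left 1 1 ≠ 0 := right_ne_zero_of_mul_eq_one hd
  have e : ∀ i j, (s * (SemidirectProduct.inl (unip q w * ⟨!![0, -1; 1, 0],
      by simp [Matrix.det_fin_two_of]⟩) : SymA q)).left i j =
      s.left i 0 * (!![w, -(s.right : ZMod q); ((s.right⁻¹ : (ZMod q)ˣ) : ZMod q), 0] 0 j) +
        s.left i 1 * (!![w, -(s.right : ZMod q); ((s.right⁻¹ : (ZMod q)ˣ) : ZMod q), 0] 1 j) := by
    intro i j
    rw [mul_left_eq, SemidirectProduct.left_inl, Matrix.SpecialLinearGroup.coe_mul, Matrix.mul_apply,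
      Fin.sum_univ_two]
    fin_cases j <;> simp [unip, conjA, -ZMod.inv_coe_unit]
  rw [pntA, lineAct_mk, mk_eq_pnt]
  · congr 1
    rw [e, e, h']
    have hu : ((s.right⁻¹ : (ZMod q)ˣ) : ZMod q) * (s.right : ZMod q) = 1 := Units.inv_mul _
    have hu0 : ((s.right⁻¹ : (ZMod q)ˣ) : ZMod q) ≠ 0 := (s.right⁻¹).ne_zero
    simp only [Matrix.cons_val', Matrix.cons_val_zero, Matrix.cons_val_one, Matrix.of_apply,
      Matrix.empty_val', Matrix.cons_val_fin_one, zero_mul, zero_add]
    field_simp
    linear_combination (-(s.left 0 0 * w)) * hu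
  · rw [e, h']
    simp [h11, -ZMod.inv_coe_unit]

end Fermat.Agent.R59.NoSq
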