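import Fermat.Agent.R59.NoSq.Sym

/-!
# S59, unit A: the norms along the lines are powers
-/

set_option autoImplicit false
set_option linter.style.haveILetI false
set_option linter.unusedSectionVars false

noncomputable section

namespace Fermat.Agent.R59.NoSq

open CongruenceSubgroup IsLocalRing UpperHalfPlane
open Fermat.Agent.GalRep Fermat.Agent.GalRep.Level Fermat.Agent.ModField Fermat.Agent.NewVec
open Fermat.Agent.Galois (GQ)
open scoped MatrixGroups Manifold

variable {A : ValuationSubring (AlgebraicClosure ℚ)} {q m N M : ℕ} [NeZero M] [NeZero q] [NeZero m]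
  [Fact (Nat.Coprime q m)]
  (hq : q.Prime) (hA : A.LiesOverPrime q) (hMN : M = q * N) (hqN : ¬ q ∣ N)

local notation "EE" => embO A M

variable [IsDiscreteValuationRing (oBase A M)] {n : ℕ} [NeZero n]

set_option maxHeartbeats 1000000 in
open scoped Classical in
/-- The product of the translates over the component at infinity. -/
theorem exists_fix_root (C : Finset (ZMod q)ˣ) (hmN : m ∣ N) (hG : IsLevel M (midGroup q m))
    {χ : ParG (midGroup q m) (ZMod n)} {F : ℍ → ℂ} (hF : IsRepG (midGroup q m) n χ F)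
    (hbd : powMF hG hF ∈ bddMF EE) (hfix : ∀ a, conjTor hq hA hMN hqN a
      (toFld EE ⟨powMF hG hF, hbd⟩) = toFld EE ⟨powMF hG hF, hbd⟩)
    (hvan : ∀ g : SL(2, ZMod q), ∑ w : ZMod q, ∑ a ∈ C,
      act q m (conjA a g * unip q w) χ = 0)
    (γ : SL(2, ℤ)) :
    ∃ (a b : oBase A M) (k : Fld EE), a ≠ 0 ∧ b ≠ 0 ∧
      algebraMap _ (Fld EE) b * ∏ p ∈ (Finset.univ : Finset (ZMod q)) ×ˢ C,
        fix₁ hq hA hMN hqN p (fShift EE γ (toFld EE ⟨powMF hG hF, hbd⟩)) =
          algebraMap _ (Fld EE) a * k ^ n := by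
  have hN0 : N ≠ 0 := fun h => hqN (h ▸ dvd_zero q)
  haveI : NeZero N := ⟨hN0⟩
  have hcN : Nat.Coprime q N := hq.coprime_iff_not_dvd.mpr hqN
  haveI : Fact (Nat.Coprime q N) := ⟨hcN⟩
  set φ := powMF hG hF with hφ
  set f := toFld EE ⟨φ, hbd⟩ with hf
  -- the translations
  let x : ZMod q × (ZMod q)ˣ → SL(2, ZMod q) := fun p =>
    conjA p.2 (red q γ) * unip q ((N : ZMod q) * p.1)
  choose l hlq hlN using fun p => exists_liftX q N (x p)
  obtain ⟨L, hLq, hLN⟩ := exists_liftX q N (red q γ)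
  obtain ⟨γm, hγm⟩ : ∃ γm : SL(2, ℤ), γm = L⁻¹ * γ := ⟨_, rfl⟩
  have hone : ∀ {z : SL(2, ℤ)}, z ∈ Gamma N → red N z = 1 := fun hz => red_eq_one_iff.mpr hz
  have key : ∀ p, fix₁ hq hA hMN hqN p (fShift EE γ f) =
      fShift EE γm (fShift EE (l p) f) := fun p => by
    obtain ⟨γ', hγ'⟩ := exists_conjEq (expM hq hA hMN hqN p.2) γ
    rw [fix₁_apply, conjTor_fShift hq hA hMN hqN p.2 hγ', hfix, fShift_fShift, fShift_fShift]
    refine fShift_congr EE (red_ext_of_coprime hMN hcN ?_ ?_) f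
    · have h1 : red q γ' = conjA p.2 (red q γ) := by
        have h := hγ'.of_dvd (hMN ▸ dvd_mul_right q N : q ∣ M)
        rwa [expM_mod_q hq hA hMN hqN, ConjEq] at h
      rw [map_mul, map_mul, h1, hγm, map_mul (red q), map_inv, hLq, hlq, inv_mul_cancel, mul_one]
      show _ = x p
      congr 1
      refine Subtype.ext ?_
      rw [tN, red_zpow_T]
      simp [unip]
    · have h1 : red N γ' = red N γ := by
        have h := hγ'.of_dvd (hMN ▸ dvd_mul_left N q : N ∣ M)
        rwa [expM_mod_N hq hA hMN hqN, ConjEq, conjA_one] at h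
      have h2 : red N (tN (N := N) p.1) = 1 := Subtype.ext (by
        rw [tN, red_zpow_T, Matrix.SpecialLinearGroup.coe_one]
        simp [Matrix.one_fin_two])
      rw [map_mul, map_mul, h1, h2, hγm, map_mul, map_inv, hone hLN, hone (hlN p), inv_one,
        one_mul, one_mul, mul_one]
  -- the root
  have hlm : ∀ p, l p ∈ Gamma0 m := fun p => by
    have h : red N (l p) = 1 := hone (hlN p)
    have h10 := congrArg (fun z : SL(2, ZMod N) => z 1 0) h
    simp only [red_apply, Matrix.SpecialLinearGroup.coe_one] at h10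
    rw [Gamma0_mem]
    have := congrArg (ZMod.castHom hmN (ZMod m)) h10
    simpa using this
  have hrep := isRepG_prod ((Finset.univ : Finset (ZMod q)) ×ˢ C) _ _
    fun p _ => isRepG_translate hF (hlm p)
  have hsum : ∑ p ∈ (Finset.univ : Finset (ZMod q)) ×ˢ C, act q m (red q (l p)) χ = 0 := by
    rw [← hvan (red q γ), Finset.sum_product]
    have hu : IsUnit (N : ZMod q) := (ZMod.isUnit_iff_coprime N q).mpr hcN.symm
    refine Fintype.sum_bijective (fun j => (N : ZMod q) * j)
      (Finite.injective_iff_bijective.mp hu.mul_right_injective) _ _ fun j =>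
      Finset.sum_congr rfl fun a _ => ?_
    rw [hlq]
  rw [hsum] at hrep
  let ψ : MF M := ⟨_, modFuns_anti hG.gamma_le hrep.isModFun⟩
  have hψ : ψ ^ n = ∏ p ∈ (Finset.univ : Finset (ZMod q)) ×ˢ C, shift M (l p) φ := by
    refine Subtype.ext (funext fun τ => ?_)
    rw [SubmonoidClass.coe_pow, SubmonoidClass.coe_finsetProd, Finset.prod_apply, Pi.pow_apply]
    show (∏ p ∈ (Finset.univ : Finset (ZMod q)) ×ˢ C, fun τ => F (l p • τ)) τ ^ n = _
    rw [Finset.prod_apply, ← Finset.prod_pow]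
    rfl
  have hPbd : (∏ p ∈ (Finset.univ : Finset (ZMod q)) ×ˢ C, shift M (l p) φ) ∈ bddMF EE :=
    prod_mem fun p _ => shift_mem_bddMF EE hbd (l p)
  have hPK := kSer_of_bdd EE hPbd
  rw [← hψ, map_pow] at hPK
  have hψ0 : serAlg M ψ ≠ 0 := fun h0 =>
    hrep.ne_zero (congrArg Subtype.val (serAlg_injective M (h0.trans (map_zero _).symm)))
  set s := serAlg M ψ with hs
  set e := s.coeff s.order with he
  have he0 : e ≠ 0 := HahnSeries.coeff_order_eq_zero.not.mpr hψ0
  have heK : e ^ n ∈ (EE).K := by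
    have hl : ∀ k : ℕ, (s ^ k).leadingCoeff = e ^ k := fun k => by
      induction k with
      | zero => simp
      | succ k ih => rw [pow_succ, HahnSeries.leadingCoeff_mul, ih, HahnSeries.leadingCoeff_eq,
          pow_succ]
    rw [← hl, HahnSeries.leadingCoeff_eq]
    exact mem_kSer.mp hPK _
  set s' := HahnSeries.C e⁻¹ * s with hs'
  have hCne : (HahnSeries.C e⁻¹ : LaurentSeries ℂ) ≠ 0 := by simp [he0]
  have hord : s'.order = s.order := by
    rw [hs', HahnSeries.order_mul hCne hψ0, HahnSeries.C_apply,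
      HahnSeries.order_single (inv_ne_zero he0), zero_add]
  have hlead : s'.coeff s'.order = 1 := by
    rw [hord, hs', HahnSeries.C_mul_eq_smul, HahnSeries.coeff_smul, smul_eq_mul, ← he,
      inv_mul_cancel₀ he0]
  have hpow : s' ^ n ∈ kSer (EE).K := by
    rw [hs', mul_pow, ← map_pow, inv_pow]
    refine mul_mem (mem_kSer.mpr fun i => ?_) hPK
    rw [HahnSeries.C_apply, HahnSeries.coeff_single]
    split_ifs
    · exact inv_mem heK
    · exact zero_mem _
  have hsK : s' ∈ kSer (EE).K :=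
    kSer_of_pow _ (NeZero.pos n) (mul_ne_zero hCne hψ0) hlead hpow
  let ψ' : MF M := algebraMap ℂ (MF M) e⁻¹ * ψ
  have hψ' : serAlg M ψ' = s' := by
    rw [map_mul, AlgHom.commutes, hs', HahnSeries.algebraMap_apply']
    simp [hs]
  let k : Fld EE := ofMF EE ψ' (hψ' ▸ hsK)
  obtain ⟨a₀, b₀, hb₀, hab⟩ := exists_frac_of_mem EE heK
  have ha₀ : a₀ ≠ 0 := fun h0 => pow_ne_zero n he0 (by rw [hab, h0, map_zero, zero_div])
  have hbne : (EE).φ b₀ ≠ 0 := fun h0 => hb₀ ((EE).inj (h0.trans (map_zero _).symm))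
  have hmain : algebraMap _ (Fld EE) b₀ * ∏ p ∈ (Finset.univ : Finset (ZMod q)) ×ˢ C, fShift EE (l p) f =
      algebraMap _ (Fld EE) a₀ * k ^ n := by
    refine toLS_injective EE ?_
    have hk : toLS EE k = s' := by
      show toLS EE (toFld EE _) = _
      rw [toLS_toFld]
      exact hψ'
    have hP : toLS EE (∏ p ∈ (Finset.univ : Finset (ZMod q)) ×ˢ C, fShift EE (l p) f) = s ^ n := by
      rw [map_prod, hs, ← map_pow, hψ, map_prod]
      refine Finset.prod_congr rfl fun p _ => ?_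
      rw [hf, fShift_toFld, toLS_toFld]
    rw [map_mul, map_mul, map_pow, hk, hP, toLS_algebraMap, toLS_algebraMap, hs', mul_pow,
      ← mul_assoc, ← map_pow HahnSeries.C, ← map_mul HahnSeries.C, inv_pow, hab]
    congr 2
    have hane : (EE).φ a₀ ≠ 0 := fun h0 => ha₀ ((EE).inj (h0.trans (map_zero _).symm))
    field_simp
  refine ⟨a₀, b₀, fShift EE γm k, ha₀, hb₀, ?_⟩
  have := congrArg (fShift EE γm) hmain
  simp only [map_mul, map_pow, fShift_algebraMap, map_prod] at this
  rw [Finset.prod_congr rfl fun p _ => key p]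
  exact this

variable [NeZero N] [Fact (Nat.Coprime q N)]

open scoped Classical in
/-- The norm along a line is a power up to constants. -/
theorem exists_line_norm (C : Finset (ZMod q)ˣ) (hmN : m ∣ N) (hG : IsLevel M (midGroup q m))
    {χ : ParG (midGroup q m) (ZMod n)} {F : ℍ → ℂ} (hF : IsRepG (midGroup q m) n χ F)
    (hbd : powMF hG hF ∈ bddMF EE) (hfix : ∀ a, conjTor hq hA hMN hqN a
      (toFld EE ⟨powMF hG hF, hbd⟩) = toFld EE ⟨powMF hG hF, hbd⟩)
    (hvan : ∀ g : SL(2, ZMod q), ∑ w : ZMod q, ∑ a ∈ C,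
      act q m (conjA a g * unip q w) χ = 0)
    (L : LineA q) :
    ∃ (a b : oBase A M) (k : Fld EE), a ≠ 0 ∧ b ≠ 0 ∧
      algebraMap _ (Fld EE) b * ∏ h ∈ hLine C L,
        symHom hq hA hMN hqN h (toFld EE ⟨powMF hG hF, hbd⟩) =
          algebraMap _ (Fld EE) a * k ^ n := by
  set f := toFld EE ⟨powMF hG hF, hbd⟩
  set K := symHom hq hA hMN hqN L.out with hK
  obtain ⟨a, b, k, ha, hb, hab⟩ := exists_fix_root hq hA hMN hqN C hmN hG hF hbd hfix hvan
    (liftOne (N := N) (L.out⁻¹).left)⁻¹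
  have hf : symHom hq hA hMN hqN L.out⁻¹ f = fShift EE (liftOne (N := N) (L.out⁻¹).left)⁻¹ f := by
    rw [symHom_apply, hfix]
  rw [← hf] at hab
  have key : ∀ (w : ZMod q) (a : (ZMod q)ˣ) (z : Fld EE),
      symHom hq hA hMN hqN (fixElt (w, a)) z = fix₁ hq hA hMN hqN (negN N w, a) z := fun w a z => by
    have := symHom_fixElt hq hA hMN hqN 1 (map_one _) w a z
    rwa [fShift_one, fShift_one] at this
  have hprod : ∏ h ∈ hLine C L, symHom hq hA hMN hqN h f =
      K (∏ p ∈ (Finset.univ : Finset (ZMod q)) ×ˢ C,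
        fix₁ hq hA hMN hqN p (symHom hq hA hMN hqN L.out⁻¹ f)) := by
    rw [hLine, Finset.prod_image fun u _ v _ h =>
      fixElt_injective (mul_left_cancel (mul_right_cancel h)), map_prod]
    refine Finset.prod_bij' (fun p _ => (negN N p.1, p.2))
      (fun p _ => (-((N : ZMod q) * p.1), p.2)) (fun p hp => ?_) (fun p hp => ?_) (fun p _ => ?_)
      (fun p _ => ?_) (fun p _ => ?_)
    · simpa using hp
    · simpa using hp
    · simp [negN_spec]
    · have hu : IsUnit (N : ZMod q) := (ZMod.isUnit_iff_coprime N q).mpr (Nat.Coprime.symm Fact.out)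
      refine Prod.ext (hu.mul_left_cancel ?_) rfl
      show (N : ZMod q) * negN N _ = _
      rw [negN_spec, neg_neg]
    · show _ = K (fix₁ hq hA hMN hqN (negN N p.1, p.2) _)
      rw [map_mul, map_mul, RingAut.mul_apply, RingAut.mul_apply, key]
  obtain ⟨a', ha', -⟩ := symG_const hq hA hMN hqN (range_le hq hA hMN hqN ⟨L.out, rfl⟩) a
  obtain ⟨b', hb', -⟩ := symG_const hq hA hMN hqN (range_le hq hA hMN hqN ⟨L.out, rfl⟩) b
  refine ⟨a', b', K k, fun h => ha ?_, fun h => hb ?_, ?_⟩
  · rw [h, map_zero, map_eq_zero, map_eq_zero_iff _ (algebraMap_injective EE)] at ha'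
    exact ha'
  · rw [h, map_zero, map_eq_zero, map_eq_zero_iff _ (algebraMap_injective EE)] at hb'
    exact hb'
  · rw [hprod, ← ha', ← hb', ← hK, ← map_mul, hab, map_mul, map_pow]

end Fermat.Agent.R59.NoSq
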