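import Fermat.Agent.R59.NoSq.Setup
import Fermat.Agent.NewVec.Vertical
import Fermat.Agent.Raise.Galois

/-!
# S59, unit A: Gauss orders of a class with the relations are congruent modulo `p`
-/

set_option autoImplicit false
set_option linter.style.haveILetI false
set_option linter.unusedSectionVars false

noncomputable section

namespace Fermat.Agent.R59.NoSq

open CongruenceSubgroup IsLocalRing UpperHalfPlane
open WeierstrassCurve WeierstrassCurve.Affine.Point
open scoped WeierstrassCurve.Affine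
open Fermat.Agent.GalRep Fermat.Agent.GalRep.Level Fermat.Agent.ModField Fermat.Agent.NewVec
open Fermat.Agent.Galois (GQ)
open scoped MatrixGroups

variable {A : ValuationSubring (AlgebraicClosure ℚ)} {q m N M p : ℕ} [NeZero M] [NeZero q]
  [NeZero m] [Fact (Nat.Coprime q m)] [Fact p.Prime]
  (hq : q.Prime) (hA : A.LiesOverPrime q) (hMN : M = q * N) (hqN : ¬ q ∣ N)
  [IsDiscreteValuationRing (oBase A M)] {π : oBase A M}

local notation "EE" => embO A M

set_option maxHeartbeats 1000000 in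
include hq hA hMN hqN in
/-- The orders of the power function of an inertia-fixed class with the relations. -/
theorem exists_order (hπ : Irreducible π) (W : WeierstrassCurve ℤ) (hΔ : W.Δ ≠ 0) (hp2 : p ≠ 2)
    (hirr : W.ModRepIsIrreducible p) (hG : IsLevel M (midGroup q m))
    {v : ParHom (q * q * m) (ZMod p)} (hv : IsRho W p (kummerGalois (q * q * m) p).galois v)
    (hfixv : ∀ σ ∈ A.inertiaSubgroupIn ℚ, (kummerGalois (q * q * m) p).galois σ v = v)
    {F : UpperHalfPlane → ℂ} (hF : IsRepG (midGroup q m) p (pullQ q m v) F)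
    (hbd : powMF hG hF ∈ bddMF EE) :
    ∃ e : ℤ, ∀ (δ : SL(2, ℤ)) (o : ℤ),
      HasOrd EE π (serAlg M (shift M δ (powMF hG hF))) o → (p : ℤ) ∣ o - e := by
  have hp : p.Prime := Fact.out
  haveI : NeZero p := ⟨hp.ne_zero⟩
  haveI : (W.map (Int.castRingHom ℚ)).IsElliptic := by
    rw [isElliptic_iff, map_Δ, eq_intCast, isUnit_iff_ne_zero]
    exact_mod_cast hΔ
  haveI := isElliptic_generic W hΔ
  haveI : NeZero (q * q * m * M) := ⟨mul_ne_zero (NeZero.ne _) (NeZero.ne M)⟩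
  obtain ⟨ℓ, hℓ, hℓS, hgood, hℓp, hℓ1, hne⟩ := Raise.exists_prime_nonEis
    (W.map (Int.castRingHom ℚ)) (W := W) ⟨1, one_smul _ _⟩ p hp2 hirr (q * q * m * M)
    ((q * q * m * M).primeFactors)
  haveI : NeZero ℓ := ⟨hℓ.ne_zero⟩
  have hℓK : ¬ ℓ ∣ q * q * m * M := fun h => hℓS (Nat.mem_primeFactors.mpr ⟨hℓ, h, NeZero.ne _⟩)
  have hℓM : (ℓ : ZMod M) = 1 := by
    simpa using congrArg (ZMod.castHom (dvd_mul_left M (q * q * m)) (ZMod M)) hℓ1
  have hℓq : (ℓ : ZMod q) = 1 := by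
    have hd : q ∣ q * q * m * M := ⟨q * m * M, by ring⟩
    have h := congrArg (ZMod.castHom hd (ZMod q)) hℓ1
    rwa [map_natCast, map_one] at h
  let l : GoodPrime (q * q * m) := ⟨⟨ℓ, hℓ⟩, fun h => hℓK (h.mul_right M)⟩
  have hTv : heckeHomAt l v = W.apOfModel ℓ • v := hecke_of_isRho W p hp2 hΔ hv l hgood hℓp
  -- the auxiliary class
  set a : ZMod p := (W.apOfModel ℓ : ZMod p) - ((ℓ : ZMod p) + 1) with ha
  set w := (a⁻¹).val • v with hwdef
  have hw : heckeHomAt l w = v + (ℓ + 1) • w := by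
    rw [hwdef, map_nsmul, hTv, ← val_smul_intCast nsmul_parG]
    rw [← mul_nsmul', ← mul_nsmul', show v + ((ℓ + 1) * a⁻¹.val) • v =
      (1 + (ℓ + 1) * a⁻¹.val) • v by rw [add_smul, one_smul]]
    refine smul_congr nsmul_parG ?_ v
    push_cast
    rw [ZMod.natCast_zmod_val, ZMod.natCast_zmod_val]
    have : a⁻¹ * a = 1 := inv_mul_cancel₀ (sub_ne_zero.mpr hne)
    rw [ha] at this ⊢
    linear_combination this
  have hfixw : ∀ σ ∈ A.inertiaSubgroupIn ℚ, galG hG p σ (pullQ q m w) = pullQ q m w := fun σ hσ => by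
    rw [galG_congr hG (isLevel_mid q m), pullQ_galG, hwdef, map_nsmul, map_nsmul, map_nsmul,
      hfixv σ hσ]
  obtain ⟨F', hF', f', -, -, -, hf', hser⟩ := exists_fixed_rep (A := A) hG (pullQ q m w) hfixw
  have hbd' : powMF hG hF' ∈ bddMF EE := bdd_of_kSer EE (by
    rw [hser]
    exact pow_mem (mem_kSer.mpr fun i => inertiaC_le_K A M (mem_kSer.mp hf' i)) _)
  -- the root of unity of order `ℓ`
  obtain ⟨y, hy⟩ := exists_qbar_zetaC ℓ
  have hqℓ : ¬ q ∣ ℓ := fun hd =>
    hℓK (by rw [← (Nat.prime_dvd_prime_iff_eq hq hℓ).mp hd]; exact ⟨q * m * M, by ring⟩)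
  have hyℓ : y ^ ℓ = 1 := qbarToC.injective (by
    rw [map_pow, hy, map_one]; exact Level.zetaC_pow ℓ)
  have hyA : y ∈ A := Galois.integralClosure_le A
    ⟨y, IsIntegral.of_pow hℓ.pos (hyℓ ▸ isIntegral_one)⟩
  let zo : oBase A M := (⟨(⟨y, IntermediateField.algebraMap_mem _
      (⟨y, root_mem_inertiaFld A hq hA hqℓ hyℓ⟩ : inertiaFld A)⟩ : oFld A M),
    show y ∈ A from hyA⟩ : oBase A M)
  have hzo : oVal A M zo = y := rfl
  have hzu : IsUnit zo := by
    refine IsUnit.of_pow_eq_one (n := ℓ) (oVal_injective A M ?_) hℓ.ne_zero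
    rw [map_pow, hzo, hyℓ, map_one]
  have hzC : (EE).φ zo = Complex.exp (2 * Real.pi * Complex.I / ℓ) := by
    rw [embO_φ, hzo, hy]; rfl
  have hNℓ : Nat.Coprime N ℓ := ((hℓ.coprime_iff_not_dvd).mpr fun hd =>
    hℓK (hd.trans (hMN ▸ (dvd_mul_left N q).trans (dvd_mul_left (q * N) _)))).symm
  have hT := isTransfer_pullQ (q := q) (m := m) hMN l hNℓ hℓq w
  have hrel : pullQ q m (heckeHomAt l w) = 1 • pullQ q m v + (ℓ + 1) • pullQ q m w := by
    rw [hw, map_add, map_nsmul, one_smul]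
  obtain ⟨e, he⟩ := order_congr (ℓ := ℓ) EE hπ hG hℓ hℓM hzu hzC 1 hT hrel hF hF' hbd hbd'
  exact ⟨e, fun δ o ho => by simpa using he δ o ho⟩

end Fermat.Agent.R59.NoSq
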