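import Fermat.Agent.R59.NoSq.Roots
import Fermat.Agent.R59.NoSq.NormFix
import Fermat.Agent.R59.NoSq.Order
import Fermat.Agent.NewVec.Conclude

/-!
# S59, unit A: combinations of translates of an inertia-fixed class with the relations vanish
-/

set_option autoImplicit false
set_option linter.style.haveILetI false
set_option linter.unusedSectionVars false

noncomputable section

namespace Fermat.Agent.R59.NoSq

open CongruenceSubgroup IsLocalRing UpperHalfPlane
open Fermat.Agent.GalRep Fermat.Agent.GalRep.Level Fermat.Agent.ModField Fermat.Agent.NewVec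
open Fermat.Agent.Galois (GQ)
open Fermat.Agent.GalRep.Model (chartRing self_mem_chartRing)
open scoped MatrixGroups Manifold

theorem coprime_card_coPart {q : ℕ} [NeZero q] (hq : q.Prime) (p : ℕ) [hp : Fact p.Prime] :
    Nat.Coprime (coPart q p).card p := by
  classical
  refine ((hp.out.coprime_iff_not_dvd).mpr fun hdvd => ?_).symm
  let G : Subgroup (ZMod q)ˣ := (powMonoidHom (coExp q p)).ker
  have hcard : Nat.card G = (coPart q p).card := by
    rw [← Nat.card_eq_finsetCard]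
    exact Nat.card_congr (Equiv.subtypeEquivRight fun a => by
      rw [mem_coPart]; exact MonoidHom.mem_ker)
  obtain ⟨a, ha⟩ := exists_prime_orderOf_dvd_card' (G := G) p (hcard ▸ hdvd)
  have h1 : orderOf (a : (ZMod q)ˣ) ∣ coExp q p :=
    orderOf_dvd_of_pow_eq_one (MonoidHom.mem_ker.mp a.2)
  rw [Subgroup.orderOf_coe, ha] at h1
  exact Nat.not_dvd_ordCompl hp.out (by have := hq.two_le; omega : q - 1 ≠ 0) h1

theorem hasRootAt_prod {R K α : Type} [CommRing R] [Field K] [Algebra R K] {n : ℕ} {Q : Ideal R}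
    [hQ : Q.IsPrime] (s : Finset α) {f : α → K} (h : ∀ a ∈ s, Models.HasRootAt R n (f a) Q) :
    Models.HasRootAt R n (∏ a ∈ s, f a) Q := by
  induction s using Finset.cons_induction with
  | empty => exact ⟨1, 1, 1, fun h => hQ.ne_top ((Ideal.eq_top_iff_one _).mpr h),
      fun h => hQ.ne_top ((Ideal.eq_top_iff_one _).mpr h), by simp⟩
  | cons a s ha ih =>
    rw [Finset.prod_cons]
    obtain ⟨x, c, d, hc, hd, he⟩ := h a (Finset.mem_cons_self a s)
    obtain ⟨x', c', d', hc', hd', he'⟩ := ih fun b hb => h b (Finset.mem_cons_of_mem hb)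
    refine ⟨x * x', c * c', d * d', hQ.mul_notMem hc hc', hQ.mul_notMem hd hd', ?_⟩
    rw [map_mul, map_mul, mul_pow]
    linear_combination algebraMap R K d' * x' ^ n * he + algebraMap R K c * f a * he'

/-- Two lifts agree on functions of level `M`. -/
theorem liftOne_inv {q N : ℕ} [NeZero q] [NeZero N] [Fact (Nat.Coprime q N)] (x : SL(2, ZMod q)) :
    red q ((liftOne (N := N) x⁻¹)⁻¹) = x ∧ red N ((liftOne (N := N) x⁻¹)⁻¹) = 1 := by
  rw [map_inv, map_inv, (red_liftOne _).1, (red_liftOne _).2, inv_inv, inv_one]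
  exact ⟨rfl, rfl⟩

variable {A : ValuationSubring (AlgebraicClosure ℚ)} {q m N M p : ℕ} [NeZero M] [NeZero q]
  [NeZero m] [NeZero N] [Fact (Nat.Coprime q m)] [Fact (Nat.Coprime q N)] [Fact p.Prime]
  [Fact q.Prime]
  (hq : q.Prime) (hA : A.LiesOverPrime q) (hMN : M = q * N) (hqN : ¬ q ∣ N)
  [IsDiscreteValuationRing (oBase A M)] {π : oBase A M}

local notation "EE" => embO A M

/-- A symmetry moves the uniformizer by a unit. -/
theorem exists_unit_mul_pi (hπ : Irreducible π) {σ : RingAut (Fld EE)}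
    (hσ : σ ∈ symG hq hA hMN hqN) :
    ∃ u : oBase A M, IsUnit u ∧
      σ (algebraMap (oBase A M) (Fld EE) π) = algebraMap (oBase A M) (Fld EE) (π * u) := by
  have hmem : ∀ {τ : RingAut (Fld EE)}, τ ∈ symG hq hA hMN hqN → ∃ u : oBase A M,
      τ (algebraMap (oBase A M) (Fld EE) π) = algebraMap (oBase A M) (Fld EE) (π * u) := fun hτ => by
    obtain ⟨c', hc', hm⟩ := symG_const hq hA hMN hqN hτ π
    obtain ⟨u, rfl⟩ : π ∣ c' := by
      rw [← Ideal.mem_span_singleton, ← hπ.maximalIdeal_eq]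
      have := add_mem hm (show π ∈ maximalIdeal (oBase A M) from
        hπ.maximalIdeal_eq ▸ Ideal.mem_span_singleton_self π)
      rwa [sub_add_cancel] at this
    exact ⟨u, hc'⟩
  obtain ⟨u, hu⟩ := hmem hσ
  obtain ⟨v, hv⟩ := hmem (inv_mem hσ)
  obtain ⟨u', hu', hm⟩ := symG_const hq hA hMN hqN (inv_mem hσ) u
  refine ⟨u, notMem_maximalIdeal.mp fun h => ?_, hu⟩
  have h1 := congrArg (fun z => σ⁻¹ z) hu
  simp only [map_mul, RingAut.inv_apply, RingEquiv.symm_apply_apply] at h1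
  simp only [← RingAut.inv_apply] at h1
  rw [hv, hu', ← map_mul] at h1
  have h2 := algebraMap_injective EE h1
  have h4 : IsUnit u' := isUnit_of_dvd_one ⟨v, by
    rw [mul_comm]
    exact (mul_left_cancel₀ hπ.ne_zero (by rw [mul_one, ← mul_assoc]; exact h2.symm)).symm⟩
  refine notMem_maximalIdeal.mpr h4 ?_
  have := add_mem hm h
  rwa [sub_add_cancel] at this

variable {W : WeierstrassCurve ℤ} {s₀ : GQ}

set_option maxHeartbeats 4000000 in
open scoped Classical in
include hq hA hMN hqN in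
/-- The combinations of translates vanish, given the regularity at level `M`. -/
theorem sum_eq_zero_of_regular (hπ : Irreducible π) (hmN : m ∣ N)
    [IsAlgClosed (ResidueField (oBase A M))]
    (S : Setting W p q m s₀) (hirr : W.ModRepIsIrreducible p) (hs₀ : cycM M s₀ = 1)
    {v : ParHom (q * q * m) (ZMod p)} (hv : IsRho W p (kummerGalois (q * q * m) p).galois v)
    (hfixv : ∀ σ ∈ A.inertiaSubgroupIn ℚ, (kummerGalois (q * q * m) p).galois σ v = v)
    (hreg₀ : ∀ n : Ideal (chartRing (oBase A M) (jF EE)), n.IsMaximal →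
      algebraMap (oBase A M) (chartRing (oBase A M) (jF EE)) π ∈ n →
      ∃ x y, x ∈ n ∧ y ∈ n ∧ ∀ z ∈ n, ∃ s ∉ n, s * z ∈ Ideal.span {x, y})
    (hreg₁ : ∀ n : Ideal (chartRing (oBase A M) (jF EE)⁻¹), n.IsMaximal →
      algebraMap (oBase A M) (chartRing (oBase A M) (jF EE)⁻¹) π ∈ n →
      (⟨(jF EE)⁻¹, self_mem_chartRing _⟩ : chartRing (oBase A M) (jF EE)⁻¹) ∈ n →
      ∃ x y, x ∈ n ∧ y ∈ n ∧ ∀ z ∈ n, ∃ s ∉ n, s * z ∈ Ideal.span {x, y})
    {α : Type} [Fintype α] (x : α → SL(2, ZMod q))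
    (hθ : ¬ p ∣ q + 1 ∨ ∀ L L' : LineA q, (p : ℤ) ∣
      (∑ a, zLine (lineAct q (SemidirectProduct.inl (x a)) L)) -
        ∑ a, zLine (lineAct q (SemidirectProduct.inl (x a)) L')) :
    ∑ a, act q m (x a) (pullQ q m v) = 0 := by
  have hp : p.Prime := Fact.out
  haveI : NeZero p := ⟨hp.ne_zero⟩
  haveI := finite_symA q
  haveI : Fintype (LineA q) := Fintype.ofFinite _
  haveI : Nontrivial (LineA q) :=
    ⟨⟨infA, pntA 0, fun h => by simpa using lineEquiv.injective (a₁ := none) (a₂ := some 0) h⟩⟩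
  haveI : Fintype (CompA q N) := Fintype.ofFinite _
  haveI : Nonempty (CompA q N) := ⟨(((1 : SymA q) : SymA q ⧸ fixInf q), 1)⟩
  have hG : IsLevel M (midGroup q m) :=
    ((isLevel_gamma q).of_dvd (hMN ▸ dvd_mul_right q N)).inf
      ((isLevel_gamma0 m).of_dvd (hMN ▸ hmN.mul_left q))
  have hvan : ∀ g : SL(2, ZMod q), ∑ w : ZMod q, ∑ a ∈ coPart q p,
      act q m (conjA a g * unip q w) (pullQ q m v) = 0 := fun g => by
    have := S.psiA_eq_zero hv g 1
    simpa only [psiA, one_mul] using this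
  have hfixp : ∀ σ ∈ A.inertiaSubgroupIn ℚ, galG hG p σ (pullQ q m v) = pullQ q m v := fun σ hσ => by
    rw [galG_congr hG (isLevel_mid q m), pullQ_galG, hfixv σ hσ]
  obtain ⟨F, hF, f, -, hfs, hf0, hfK, hser⟩ := exists_fixed_rep (A := A) hG (pullQ q m v) hfixp
  have hbd : powMF hG hF ∈ bddMF EE := bdd_of_kSer EE (by
    rw [hser]
    exact pow_mem (mem_kSer.mpr fun i => inertiaC_le_K A M (mem_kSer.mp hfK i)) _)
  obtain ⟨e, he⟩ := exists_order hq hA hMN hqN hπ W S.delta S.p_ne_two hirr hG hv hfixv hF hbd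
  obtain ⟨f₁, hf₁⟩ : ∃ x, x = toFld EE ⟨powMF hG hF, hbd⟩ := ⟨_, rfl⟩
  have hod₁ : OrdDvd EE p f₁ := by rw [hf₁]; exact OrdDvd.of_rep hG hF hbd
  obtain ⟨j, hje⟩ : ∃ j : ℕ, (p : ℤ) ∣ (j : ℤ) + e := by
    refine ⟨((-e) % (p : ℤ)).toNat, ?_⟩
    rw [Int.toNat_of_nonneg (Int.emod_nonneg _ (by exact_mod_cast hp.ne_zero)), Int.emod_def]
    exact ⟨-((-e) / (p : ℤ)), by ring⟩
  obtain ⟨f₂, hf₂⟩ : ∃ x, x = algebraMap (oBase A M) (Fld EE) (π ^ j) * f₁ := ⟨_, rfl⟩
  have hπj : π ^ j ≠ 0 := pow_ne_zero _ hπ.ne_zero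
  have hod : OrdDvd EE p f₂ := by rw [hf₂]; exact hod₁.const_mul hπj
  have hgauss : ∀ (g : SL(2, ℤ)) (o : ℤ), HasOrd EE π (toLS EE (fShift EE g f₂)) o →
      (p : ℤ) ∣ o := fun g o ho => by
    obtain ⟨o₁, ho₁⟩ := exists_hasOrd EE hπ (toLS_mem EE (fShift EE g f₁))
      ((map_ne_zero (toLS EE)).mpr ((map_ne_zero (fShift EE g)).mpr hod₁.ne_zero))
    have h1 := ho₁
    rw [hf₁, toLS_fShift_toFld] at h1
    have h2 := he g o₁ h1
    have h3 : HasOrd EE π (toLS EE (fShift EE g f₂)) ((j : ℤ) + o₁) := by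
      rw [hf₂, map_mul, map_mul, fShift_algebraMap, toLS_algebraMap, map_pow]
      exact (hasOrd_pi EE hπ j).mul hπ ho₁
    rw [HasOrd.unique hπ ho h3, show (j : ℤ) + o₁ = (o₁ - e) + ((j : ℤ) + e) by ring]
    exact dvd_add h2 hje
  have hM1 : M ≠ 1 := by
    rw [hMN]; intro h
    have := (mul_eq_one.mp h).1
    exact hq.one_lt.ne' this
  obtain ⟨hr₀, hr₁⟩ := hasRootAt_all_prime EE hπ hp S.p_ne_two hM1 hod hgauss hreg₀ hreg₁
  have hnu : IsUnit ((p : ℕ) : oBase A M) := by
    refine notMem_maximalIdeal.mp fun hpm => ?_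
    obtain ⟨a, b, hab⟩ : ∃ a b : ℤ, a * p + b * q = 1 :=
      (Nat.coprime_primes hp hq).mpr (Ne.symm S.q_ne) |>.isCoprime
    have h1 : (1 : oBase A M) ∈ maximalIdeal (oBase A M) := by
      have e1 := congrArg (Int.cast : ℤ → oBase A M) hab
      push_cast at e1
      rw [← e1]
      exact add_mem (Ideal.mul_mem_left _ _ hpm)
        (Ideal.mul_mem_left _ _ (natCast_mem_maximal hq hA hMN hqN))
    exact (maximalIdeal.isMaximal _).ne_top ((Ideal.eq_top_iff_one _).mpr h1)
  have hm0 : ∀ (m' : Ideal (ModField.model EE).B₀), m'.IsMaximal → m' ≠ ⊥ := fun m' hm' =>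
    @ne_bot_of_isMaximal _ _ _ _ _ _ EE (jF EE) m' hm' (aeval_jF_injective EE)
  have hr₀' : ∀ m' : Ideal (ModField.model EE).B₀, m'.IsMaximal →
      Models.HasRootAt (ModField.model EE).B₀ p f₂ m' := fun m' hm' => hr₀ m' hm'.isPrime (hm0 m' hm')
  have hfix : ∀ a, conjTor hq hA hMN hqN a f₁ = f₁ := fun a => by
    rw [hf₁]
    exact conjTor_eq_self hq hA hMN hqN (by rw [toLS_toFld, hser]; exact pow_mem hfK _) a
  have hinj := algebraMap_injective EE
  have hS := lineSym hq hA hMN hqN hπ (coPart q p)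
  set Φ := symHom hq hA hMN hqN
  have hcst : ∀ h : SymA q, ∃ c' : oBase A M, c' ≠ 0 ∧
      Φ h (algebraMap (oBase A M) (Fld EE) (π ^ j)) = algebraMap (oBase A M) (Fld EE) c' := fun h => by
    obtain ⟨c', hc', -⟩ := symG_const hq hA hMN hqN (range_le hq hA hMN hqN ⟨h, rfl⟩) (π ^ j)
    refine ⟨c', fun h0 => hπj ?_, hc'⟩
    rwa [h0, map_zero, map_eq_zero, map_eq_zero_iff _ hinj] at hc'
  choose cc hcc0 hcc using hcst
  -- the data on both charts
  let Bc : Bool → Subalgebra (oBase A M) (Fld EE) :=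
    fun t => bif t then (ModField.model EE).B₁ else (ModField.model EE).B₀
  have hcf := NewVec.chartFibre (A := A) (M := M) hπ
  have hfc : ∀ t, Models.ChartFibre (Bc t) π (compA (q := q) (N := N) hπ) := fun t => by
    cases t
    · exact chartFibre_of_comps hπ _ hcf.1 hMN
    · exact chartFibre_of_comps hπ _ hcf.2 hMN
  have hu : ∀ c : CompA q N, algebraMap _ (Fld EE) π ∈ (compA hπ c).nonunits ∧
      ∀ z ∈ (compA hπ c).nonunits, z / algebraMap _ (Fld EE) π ∈ compA hπ c := fun c =>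
    uniformizer_gaussP EE hπ _
  have hA' : ∀ a ∈ Set.range (SemidirectProduct.inr : (ZMod q)ˣ →* SymA q),
      a ∈ Subgroup.closure (⋃ L, fixLine q L) := by
    rintro _ ⟨a, rfl⟩
    refine Subgroup.subset_closure (Set.mem_iUnion.mpr ⟨infA, 1, rfl, ?_⟩)
    rw [inv_one, one_mul, mul_one]
    exact ⟨by simp, by simp, by simp⟩
  obtain ⟨L, T, hT, hroot⟩ := exists_sum_compatible (α := α) hπ hinj q hq
    (natCast_mem_maximal hq hA hMN hqN) Bc
    (fun t => by
      cases t
      · exact (ModField.model EE).closed₀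
      · exact (ModField.model EE).closed₁)
    hfc hu hS hp.pos ((Nat.Coprime.mul_left ((Nat.coprime_primes hq hp).mpr S.q_ne)
      (coprime_card_coPart hq p)))
    hod.ne_zero (fun t => by
      cases t
      · exact hr₀'
      · exact hr₁)
    (fun L => by
      obtain ⟨a, b, k, ha, hb, hab⟩ := exists_line_norm hq hA hMN hqN (coPart q p) hmN hG hF hbd
        (fun a => hf₁ ▸ hfix a) hvan L
      rw [← hf₁] at hab
      refine ⟨(∏ h ∈ hLine (coPart q p) L, cc h) * a, b, k,
        mul_ne_zero (Finset.prod_ne_zero_iff.mpr fun h _ => hcc0 h) ha, hb, ?_⟩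
      rw [Finset.prod_congr rfl fun h _ => show Φ h f₂ = algebraMap _ _ (cc h) * Φ h f₁ by
        rw [hf₂, map_mul, hcc], Finset.prod_mul_distrib, ← map_prod, map_mul]
      linear_combination algebraMap (oBase A M) (Fld EE) (∏ h ∈ hLine (coPart q p) L, cc h) * hab)
    hA' (by
      rintro _ ⟨a, rfl⟩
      obtain ⟨c₁, hc₁u, hc'⟩ := exists_unit_mul_pi hq hA hMN hqN hπ
        (range_le hq hA hMN hqN ⟨(SemidirectProduct.inr a : SymA q), rfl⟩)
      refine ⟨c₁ ^ j, hc₁u.pow j, ?_⟩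
      show Φ (SemidirectProduct.inr a) f₂ = _
      rw [hf₂, map_mul, symHom_inr, symHom_inr, hfix, ← mul_assoc, ← map_mul]
      congr 1
      rw [← symHom_inr hq hA hMN hqN a, map_pow (algebraMap _ _) π, map_pow, hc', ← map_pow,
        mul_pow, mul_comm])
    (fun a => SemidirectProduct.inl (x a)⁻¹) (fun a => ⟨_, rfl⟩) (fun D hD hn hinv => by
      simp only [map_inv, inv_inv]
      rcases hθ with hq1 | hz
      · refine ⟨∑ _a : α, D infA, fun L => Finset.sum_congr rfl fun a _ => ?_⟩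
        exact eq_of_not_dvd hp (coprime_card_coPart hq p) hq1 hD hn _ _
      · by_cases hq1 : p ∣ q + 1
        · obtain ⟨D₁, ε, hε, hDe⟩ := exists_eq_add_zLine (coprime_card_coPart hq p) hq1 hD hn
            fun a => hinv _ ⟨a, rfl⟩
          refine ⟨Fintype.card α • D₁ +
            (∑ a, zLine (lineAct q (SemidirectProduct.inl (x a)) infA)) • ε, fun L => ?_⟩
          simp only [hDe, Finset.sum_add_distrib, Finset.sum_const, Finset.card_univ]
          congr 1
          obtain ⟨k, hk⟩ := hz L infA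
          refine ((map_sum (zmultiplesHom _ ε) _ _).symm).trans ?_
          show (∑ a, zLine (lineAct q (SemidirectProduct.inl (x a)) L)) • ε = _
          rw [← sub_eq_zero, ← sub_smul, hk, mul_comm, mul_smul, natCast_zsmul, hε, smul_zero]
        · refine ⟨∑ _a : α, D infA, fun L => Finset.sum_congr rfl fun a _ => ?_⟩
          exact eq_of_not_dvd hp (coprime_card_coPart hq p) hq1 hD hn _ _)
  -- the root
  have hG2 : ∀ t, ∀ g ∈ (Φ).range, ∀ b ∈ Bc t, g b ∈ Bc t := fun t => (hS.stable t).map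
  set G₂ := ∏ a, Φ (SemidirectProduct.inl (x a)⁻¹) f₂ with hG₂
  have hG₂0 : G₂ ≠ 0 := Finset.prod_ne_zero_iff.mpr fun a _ => (map_ne_zero _).mpr hod.ne_zero
  have hroots₀ : ∀ m' : Ideal (ModField.model EE).B₀, m'.IsMaximal →
      Models.HasRootAt (ModField.model EE).B₀ p G₂ m' := fun m' hm' => by
    haveI := hm'.isPrime
    refine hasRootAt_prod Finset.univ fun a _ => ?_
    haveI := finite_symG hq hA hMN hqN
    exact Models.hasRootAt_map hπ (hS.stable false) ⟨_, SemidirectProduct.inl (x a)⁻¹, rfl⟩ hr₀' m' hm'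
  obtain ⟨c, h, hc0, hh0, hh⟩ := exists_root_of_compatible (ModField.model EE) hπ hinj
    (hfc false) (fun i => (hu i).1) hp.pos hnu hG₂0 hroots₀ hT (hroot false) (hroot true)
  -- the class of the product
  set C := q * (coPart q p).card * q ^ L with hC
  let l : α → SL(2, ℤ) := fun a => (liftOne (N := N) (x a)⁻¹)⁻¹
  have hl : ∀ a, red q (l a) = x a ∧ red N (l a) = 1 := fun a => liftOne_inv (x a)
  have hlm : ∀ a, l a ∈ Gamma0 m := fun a => by
    have h10 := congrArg (fun z : SL(2, ZMod N) => z 1 0) (hl a).2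
    simp only [red_apply, Matrix.SpecialLinearGroup.coe_one] at h10
    rw [Gamma0_mem]
    have := congrArg (ZMod.castHom hmN (ZMod m)) h10
    simpa using this
  set y : ParG (midGroup q m) (ZMod p) := ∑ a, act q m (x a) (pullQ q m v) with hy
  have hrep : IsRepG (midGroup q m) p y (∏ a, fun τ => F (l a • τ)) := by
    have := isRepG_prod (Finset.univ : Finset α) _ _ fun a _ => isRepG_translate hF (hlm a)
    rwa [Finset.sum_congr rfl fun a _ => show act q m (red q (l a)) (pullQ q m v) =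
      act q m (x a) (pullQ q m v) by rw [(hl a).1]] at this
  have hpow : powMF hG hrep = ∏ a, shift M (l a) (powMF hG hF) := by
    refine Subtype.ext (funext fun τ => ?_)
    rw [SubmonoidClass.coe_finsetProd, Finset.prod_apply]
    show (∏ a, fun τ => F (l a • τ)) τ ^ p = _
    rw [Finset.prod_apply, ← Finset.prod_pow]
    rfl
  have hbd'' : powMF hG hrep ∈ bddMF EE := by
    rw [hpow]
    exact prod_mem fun a _ => shift_mem_bddMF EE hbd (l a)
  obtain ⟨f'', hfs'', hf0''⟩ := hrep.exists_series_infty hG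
  have hser'' : serAlg M (powMF hG hrep) = f'' ^ p :=
    (hasQSeries_serHom (powMF hG hrep)).unique (NeZero.pos M) (hfs''.pow p)
  have hval : toFld EE ⟨powMF hG hrep, hbd''⟩ = ∏ a, Φ (SemidirectProduct.inl (x a)⁻¹) f₁ := by
    refine toLS_injective EE ?_
    rw [toLS_toFld, map_prod]
    show serAlg M (powMF hG hrep) = _
    rw [hpow, map_prod]
    refine Finset.prod_congr rfl fun a _ => ?_
    rw [symHom_inl, hf₁, toLS_fShift_toFld]
  have h4 : h ^ p = algebraMap (oBase A M) (Fld EE)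
      (c * (∏ a, cc (SemidirectProduct.inl (x a)⁻¹)) ^ C) *
        toFld EE ⟨powMF hG hrep, hbd''⟩ ^ C := by
    rw [hh, hval, hG₂, Finset.prod_congr rfl fun a _ =>
      show Φ (SemidirectProduct.inl (x a)⁻¹) f₂ =
        algebraMap _ _ (cc (SemidirectProduct.inl (x a)⁻¹)) *
          Φ (SemidirectProduct.inl (x a)⁻¹) f₁ by rw [hf₂, map_mul, hcc],
      Finset.prod_mul_distrib, ← map_prod, map_mul, map_pow, mul_pow, hC]
    ring
  have hpC : ¬ p ∣ C := fun hd => by
    rcases hp.dvd_mul.mp hd with hd | hd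
    · rcases hp.dvd_mul.mp hd with hd | hd
      · exact S.q_ne ((Nat.prime_dvd_prime_iff_eq hp hq).mp hd).symm
      · exact (hp.coprime_iff_not_dvd.mp (coprime_card_coPart hq p).symm) hd
    · exact S.q_ne ((Nat.prime_dvd_prime_iff_eq hp hq).mp (hp.dvd_of_dvd_pow hd)).symm
  have hvanish : ∀ γ : midGroup q m, (γ : SL(2, ℤ)) ∈ Gamma M →
      (y : Additive (midGroup q m) →+ ZMod p) (Additive.ofMul γ) = 0 := fun γ hγ => by
    have h5 := nsmul_apply_eq_zero hG hrep hfs'' hf0'' hser'' hbd'' hh0 h4 γ hγ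
    rw [nsmul_eq_mul, mul_eq_zero] at h5
    refine h5.resolve_left fun h0 => hpC ?_
    rwa [ZMod.natCast_eq_zero_iff] at h0
  have hfixy : galG (isLevel_mid q m) p s₀ y = y := by
    rw [← galG_congr hG (isLevel_mid q m)]
    exact galG_eq_self_of_vanish hG dvd_rfl hvanish hs₀ S.roots
  refine S.eq_zero nsmul_parG ?_ hfixy
  rw [hy, zOp_apply, map_sum, map_sum, Finset.smul_sum, ← Finset.sum_add_distrib, Finset.smul_sum]
  refine Finset.sum_congr rfl fun a _ => ?_
  have h := congrArg (fun z => act q m (x a) (pullQ q m z)) (hv s₀)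
  simp only [zOp_apply, map_add, map_nsmul] at h
  simp only [S.cycq _ _ s₀ (Or.inl rfl), S.cycq _ _ s₀⁻¹ (Or.inr rfl), pullQ_galG, map_nsmul]
  exact h

end Fermat.Agent.R59.NoSq
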