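import Fermat.Agent.NewVec.Roots
import Fermat.Agent.NewVec.SeriesAct
import Fermat.Agent.Period.Evaluation

/-!
# S59, unit A: roots of the power function on both charts, without auxiliary exponents

For a prime `p` every finite point and every cusp carries a function of order prime to `p`.
-/

set_option autoImplicit false
set_option linter.style.haveILetI false
set_option linter.unusedSectionVars false

noncomputable section

namespace Fermat.Agent.R59.NoSq

open Polynomial IsLocalRing UpperHalfPlane CongruenceSubgroup Filter Topology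
open Fermat.Agent.GalRep Fermat.Agent.GalRep.Level Fermat.Agent.ModField Fermat.Agent.NewVec
open Fermat.Agent.GalRep.Model (chartRing mem_chartRing_iff isIntegral_adjoin_iff self_mem_chartRing
  FixedRational C_pi_prime zetaC)
open Fermat.Agent.Models (HasRootAt)
open scoped MatrixGroups

section Root

variable {R F : Type} [CommRing R] [IsDomain R] [Field F] [Algebra R F]

/-- Roots of `x ^ e` give roots of `x` when `e` is prime to `n`. -/
theorem hasRootAt_of_pow {n e : ℕ} (hn : 1 < n) (he : Nat.Coprime e n) {x : F} (hx : x ≠ 0)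
    {Q : Ideal R} [Q.IsPrime] (h : HasRootAt R n (x ^ e) Q) : HasRootAt R n x Q := by
  obtain ⟨y, a, b, ha, hb, hab⟩ := h
  obtain ⟨u, -, hu⟩ := Nat.exists_mul_mod_eq_of_coprime 1 he (by omega)
  rw [Nat.one_mod_eq_one.mpr (by omega)] at hu
  obtain ⟨v, hv⟩ : ∃ v, e * u = n * v + 1 :=
    ⟨e * u / n, by conv_lhs => rw [← Nat.div_add_mod (e * u) n, hu]⟩
  refine ⟨y ^ u / x ^ v, a ^ u, b ^ u,
    fun h => ha (Ideal.IsPrime.mem_of_pow_mem ‹_› _ h),
    fun h => hb (Ideal.IsPrime.mem_of_pow_mem ‹_› _ h), ?_⟩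
  rw [div_pow, ← pow_mul, ← pow_mul, mul_comm u n, pow_mul, map_pow, map_pow, mul_div_assoc',
    div_eq_iff (pow_ne_zero _ hx), ← mul_pow, hab, mul_pow, ← pow_mul, hv, pow_add, pow_one,
    mul_comm v n]
  ring

end Root

section Dvr

variable {R F : Type} [CommRing R] [IsDomain R] [IsNoetherianRing R] [IsIntegrallyClosed R]
  [Field F] [Algebra R F] [IsFractionRing R F]

/-- Divisibility of the order by a prime gives a root, if some order is prime to it. -/
theorem hasRootAt_of_ord_prime (Q : Ideal R) [Q.IsPrime] (hQ0 : Q ≠ ⊥)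
    (hmin : ∀ P : Ideal R, P.IsPrime → P ≤ Q → P = ⊥ ∨ P = Q) (o : F → ℤ)
    (hmul : ∀ x y : F, x ≠ 0 → y ≠ 0 → o (x * y) = o x + o y)
    (hnn : ∀ r : R, r ≠ 0 → 0 ≤ o (algebraMap R F r))
    (hmem : ∀ r : R, r ≠ 0 → (r ∈ Q ↔ 0 < o (algebraMap R F r)))
    {p : ℕ} (hp : p.Prime) {t : F} (ht : t ≠ 0) (htp : ¬ (p : ℤ) ∣ o t) {x : F} (hx : x ≠ 0)
    (hdvd : (p : ℤ) ∣ o x) : HasRootAt R p x Q := by
  obtain ⟨r, s, hs, rfl⟩ := IsFractionRing.div_surjective (A := R) (K := F) t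
  have hs0 : s ≠ 0 := nonZeroDivisors.ne_zero hs
  have hr0 : r ≠ 0 := fun h => ht (by rw [h, map_zero, zero_div])
  have hne : ∀ {a : R}, a ≠ 0 → algebraMap R F a ≠ 0 := fun ha =>
    (map_ne_zero_iff _ (IsFractionRing.injective R F)).mpr ha
  obtain ⟨a, ha, hpa⟩ : ∃ a : R, a ≠ 0 ∧ ¬ (p : ℤ) ∣ o (algebraMap R F a) := by
    by_contra h
    push Not at h
    refine htp ?_
    have e := hmul (algebraMap R F r / algebraMap R F s) (algebraMap R F s) ht (hne hs0)
    rw [div_mul_cancel₀ _ (hne hs0)] at e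
    have := dvd_sub (h r hr0) (h s hs0)
    rwa [e, add_sub_cancel_right] at this
  obtain ⟨E, hE⟩ := Int.eq_ofNat_of_zero_le (hnn a ha)
  have hroot := hasRootAt_of_ord Q hQ0 hmin o hmul hnn hmem a ha hE hx hdvd
  refine hasRootAt_of_pow hp.one_lt ((hp.coprime_iff_not_dvd.mpr fun h => hpa ?_).symm) hx hroot
  rw [hE]
  exact Int.natCast_dvd_natCast.mpr h

end Dvr

variable {O : Type} [CommRing O] [IsDomain O] [IsDiscreteValuationRing O] {M : ℕ} [NeZero M]
  (E : Emb O M) {π : O}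

set_option maxHeartbeats 1000000 in
/-- A homomorphism to Laurent series with an order prime to `p` sees roots along its curves. -/
theorem hasRootAt_series_prime (hπ : Irreducible π) {w : Fld E}
    (hw : ∀ g : SL(2, ℤ), fShift E g w = w) (htr : Function.Injective (aeval (R := O) w))
    (hfix : FixedRational O (transG E) w) [IsNoetherianRing (chartRing O w)]
    (lam : Fld E →+* LaurentSeries ℂ)
    (hC : ∀ a, lam (algebraMap O (Fld E) a) = HahnSeries.C (E.φ a)) (W₀ : PowerSeries ℂ)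
    (hW : lam w = HahnSeries.ofPowerSeries ℤ ℂ W₀) (Q : Ideal (chartRing O w)) [Q.IsPrime]
    (hQπ : algebraMap O (chartRing O w) π ∉ Q) (hQ0 : Q ≠ ⊥)
    (hcomap : ∀ a : O[X], a ∈ Q.comap (ModField.polyHom w) ↔
      (a.map E.φ).eval (PowerSeries.constantCoeff W₀) = 0)
    {p : ℕ} (hp : p.Prime) {t : Fld E} (ht : t ≠ 0) (htp : ¬ (p : ℤ) ∣ (lam t).order)
    {f : Fld E} (hf : f ≠ 0) (hdvd : ∀ g : SL(2, ℤ), (p : ℤ) ∣ (lam (fShift E g f)).order) :
    HasRootAt (chartRing O w) p f Q := by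
  haveI := isFractionRing_fld E htr hfix
  haveI := isIntegrallyClosed_fld E htr hfix
  let ev : O[X] →+* PowerSeries ℂ :=
    Polynomial.eval₂RingHom ((PowerSeries.C).comp E.φ) W₀
  have hev : (HahnSeries.ofPowerSeries ℤ ℂ).comp ev = lam.comp (aeval w).toRingHom := by
    refine Polynomial.ringHom_ext (fun a => ?_) ?_
    · simp [ev, hC]
    · simp [ev, hW]
  have hrange : ∀ b : chartRing O w, ∃ P, lam (b : Fld E) = HahnSeries.ofPowerSeries ℤ ℂ P := by
    intro b
    obtain ⟨p, hp, hpb⟩ := (isIntegral_adjoin_iff w _).mp (mem_chartRing_iff.mp b.2)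
    have hint : IsIntegral (PowerSeries ℂ) (lam (b : Fld E)) := by
      refine ⟨p.map ev, hp.map _, ?_⟩
      rw [Polynomial.eval₂_map]
      have h2 := congrArg lam hpb
      rw [Polynomial.hom_eval₂, map_zero] at h2
      rw [← h2]
      congr 1
    obtain ⟨P, hP⟩ := IsIntegrallyClosed.isIntegral_iff.mp hint
    exact ⟨P, hP.symm⟩
  choose pw hpw using hrange
  let lamB : chartRing O w →+* PowerSeries ℂ :=
    { toFun := pw
      map_one' := HahnSeries.ofPowerSeries_injective (by rw [← hpw, map_one]; simp)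
      map_mul' := fun x y => HahnSeries.ofPowerSeries_injective (by
        rw [← hpw, map_mul, ← hpw, ← hpw, MulMemClass.coe_mul, map_mul])
      map_zero' := HahnSeries.ofPowerSeries_injective (by rw [← hpw, map_zero]; simp)
      map_add' := fun x y => HahnSeries.ofPowerSeries_injective (by
        rw [← hpw, map_add, ← hpw, ← hpw, AddMemClass.coe_add, map_add]) }
  have hlamB : ∀ b : chartRing O w, lam (b : Fld E) = HahnSeries.ofPowerSeries ℤ ℂ (lamB b) := hpw
  let Ql := RingHom.ker ((PowerSeries.constantCoeff : PowerSeries ℂ →+* ℂ).comp lamB)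
  haveI : Ql.IsPrime := RingHom.ker_isPrime _
  have hQl : Ql.comap (ModField.polyHom w) = Q.comap (ModField.polyHom w) := by
    ext a
    rw [hcomap, Ideal.mem_comap, RingHom.mem_ker, RingHom.comp_apply]
    have e : lamB (ModField.polyHom w a) = ev a := HahnSeries.ofPowerSeries_injective (by
      rw [← hlamB, ModField.coe_polyHom]
      exact (RingHom.congr_fun hev a).symm)
    have e2 : (PowerSeries.constantCoeff : PowerSeries ℂ →+* ℂ).comp ev =
        (evalRingHom (PowerSeries.constantCoeff W₀)).comp (mapRingHom E.φ) := by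
      refine Polynomial.ringHom_ext (fun x => ?_) ?_ <;> simp [ev]
    rw [e, ← RingHom.comp_apply, e2]
    rfl
  obtain ⟨σ, hσ⟩ := exists_smul_prime (smul_fixed E hw) htr hfix Ql Q hQl
  obtain ⟨γ, hγ⟩ := (mem_transG E).mp σ.2
  let lam' : Fld E →+* LaurentSeries ℂ := lam.comp (fShift E γ).toRingHom
  have hlam' : ∀ y, lam' y = lam (fShift E γ y) := fun y => rfl
  have hsh : ∀ b : chartRing O w, fShift E γ (b : Fld E) ∈ chartRing O w := fun b => by
    rw [← hγ, ← transG_smul_def]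
    exact smul_mem_chart (smul_fixed E hw) σ b.2
  have hb : ∀ b : chartRing O w, lam' (b : Fld E) =
      HahnSeries.ofPowerSeries ℤ ℂ (lamB ⟨_, hsh b⟩) := fun b => hlamB ⟨_, hsh b⟩
  have hne : ∀ b : chartRing O w, b ≠ 0 → lamB ⟨_, hsh b⟩ ≠ 0 := fun b hb0 h0 => hb0 (by
    have h1 := hb b
    rw [h0, map_zero, map_eq_zero] at h1
    exact Subtype.ext h1)
  refine hasRootAt_of_ord_prime Q hQ0 (min_of_comap fun P hP hP0 hle => ?_)
    (fun x => (lam' x).order) (fun x y hx hy => ?_) (fun b hb0 => ?_) (fun b hb0 => ?_)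
    hp (t := (fShift E γ).symm t) ((map_ne_zero (fShift E γ).symm).mpr ht)
    (by show ¬ _ ∣ (lam (fShift E γ ((fShift E γ).symm t))).order
        rwa [RingEquiv.apply_symm_apply]) hf (by simpa [hlam'] using hdvd γ)
  · haveI := hP
    exact eq_of_le_prime hπ (C_pi_notMem hQπ) hP0 hle
  · show (lam' (x * y)).order = _
    rw [map_mul, HahnSeries.order_mul ((map_ne_zero lam').mpr hx) ((map_ne_zero lam').mpr hy)]
  · show 0 ≤ (lam' (b : Fld E)).order
    rw [hb]
    exact (order_ofPowerSeries_nonneg (hne b hb0)).1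
  · show b ∈ Q ↔ 0 < (lam' (b : Fld E)).order
    rw [hb, (order_ofPowerSeries_nonneg (hne b hb0)).2, hσ]
    simp only [Ql, RingHom.mem_ker, RingHom.comp_apply]
    have e : (⟨σ • (b : Fld E), smul_mem_chart (smul_fixed E hw) σ b.2⟩ : chartRing O w) =
        ⟨_, hsh b⟩ := Subtype.ext ((transG_smul_def E σ _).trans (hγ _))
    rw [e]

/-- The element whose translates separate. -/
def frElt (hM : M ≠ 1) : bddMF E :=
  ⟨Level.fricke (1, 0) (fun hd => hM (by
    have := Int.eq_one_of_dvd_one (Int.natCast_nonneg M) hd.1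
    exact_mod_cast this)), fricke_mem E _ _⟩

theorem shift_frElt_ne (hM : M ≠ 1) {g : SL(2, ℤ)} (hg : ¬ ((M : ℤ) ∣ g 0 0 - 1 ∧ (M : ℤ) ∣ g 0 1))
    (hg' : ¬ ((M : ℤ) ∣ g 0 0 + 1 ∧ (M : ℤ) ∣ g 0 1)) :
    shift M g (frElt E hM : MF M) ≠ (frElt E hM : MF M) := by
  intro h
  simp only [frElt, Level.shift_fricke] at h
  have hNZ : Model.NZ M ((1, 0) : ℤ × ℤ) := fun hd => hM (by
    have := Int.eq_one_of_dvd_one (Int.natCast_nonneg M) hd.1
    exact_mod_cast this)
  have h3 := Level.pm_of_fricke_eq _ hNZ h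
  simp only [Model.rowMul] at h3
  rcases h3 with ⟨h4, h5⟩ | ⟨h4, h5⟩
  · exact hg ⟨by simpa using h4, by simpa using h5⟩
  · exact hg' ⟨by simpa using h4, by simpa using h5⟩

/-- Every cusp has a function of order prime to `p`. -/
theorem exists_order_cusp {p : ℕ} (hp : p.Prime) :
    ∃ t : Fld E, t ≠ 0 ∧ ¬ (p : ℤ) ∣ (toLS E t).order := by
  by_cases hpM : p ∣ M
  swap
  · obtain ⟨u, hu⟩ := isUnit_jUnit (O := O) (M := M)
    refine ⟨(jF E)⁻¹, inv_ne_zero (jF_ne_zero E), ?_⟩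
    have hW : toLS E (jF E)⁻¹ = HahnSeries.ofPowerSeries ℤ ℂ
        (PowerSeries.X ^ M * PowerSeries.map E.φ ↑(u⁻¹)) := by
      have h1 := congrArg E.toC (serF_inv_jF E)
      rw [map_mul, toC_serF, E.toC_algebraMap, E.toC_algebraMap] at h1
      simp only [Emb.gO, RingHom.comp_apply, map_pow, PowerSeries.map_X] at h1
      rw [map_mul, map_pow, ← h1, mul_assoc, ← map_mul, ← map_mul, ← hu, ← Units.val_mul,
        mul_inv_cancel, Units.val_one, map_one, map_one, mul_one]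
    rw [hW, order_ofPowerSeries_eq (k := M) (by
      rw [PowerSeries.order_mul, PowerSeries.order_X_pow,
        PowerSeries.order_zero_of_unit (u⁻¹.isUnit.map _), add_zero])]
    exact fun h => hpM (Int.natCast_dvd_natCast.mp h)
  have hM1 : M ≠ 1 := fun h => hp.one_lt.ne' (Nat.dvd_one.mp (h ▸ hpM))
  obtain ⟨k, hk⟩ := hpM
  have hk0 : 0 < k := Nat.pos_of_ne_zero fun h => NeZero.ne M (by rw [hk, h, mul_zero])
  set x := frElt E hM1
  set t : Fld E := fShift E (ModularGroup.T ^ (k : ℤ)) (toFld E x) - toFld E x with htdef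
  have ht0 : t ≠ 0 := fun h => by
    rw [htdef, sub_eq_zero, fShift_toFld] at h
    refine shift_frElt_ne E hM1 ?_ ?_ (congrArg Subtype.val (toFld_injective E h))
    all_goals
      rintro ⟨-, h1⟩
      rw [ModularGroup.coe_T_zpow] at h1
      have h2 : M ∣ k := Int.natCast_dvd_natCast.mp (by simpa using h1)
      have := Nat.le_of_dvd hk0 h2
      rw [hk] at this
      nlinarith [hp.two_le]
  refine ⟨t, ht0, fun hdiv => HahnSeries.coeff_order_eq_zero.not.mpr
    ((map_ne_zero (toLS E)).mpr ht0) ?_⟩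
  obtain ⟨i, hi⟩ := hdiv
  conv_lhs => arg 1; rw [htdef, map_sub, toLS_fShift_T]
  rw [HahnSeries.coeff_sub, twistHom, twist_coeff, hi]
  have hz : (((zU M ^ (k : ℤ)) ^ ((p : ℤ) * i) : ℂˣ) : ℂ) = 1 := by
    rw [← zpow_mul, show (k : ℤ) * ((p : ℤ) * i) = (M : ℤ) * i by rw [hk]; push_cast; ring,
      zpow_mul, zpow_natCast,
      show zU M ^ M = 1 from Units.ext (by
        rw [Units.val_pow_eq_pow_val]; exact Level.zetaC_pow M),
      one_zpow, Units.val_one]
  rw [hz, mul_one, sub_self]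

/-- A difference of translates by the elliptic element of order three has order prime to `3`. -/
theorem three_not_dvd_order {F : ℍ → ℂ} {k : ℕ}
    (han : AnalyticAt ℂ (F ∘ ofComplex) (UpperHalfPlane.ρ : ℂ))
    (hk : analyticOrderAt (F ∘ ofComplex) (UpperHalfPlane.ρ : ℂ) = k)
    (hsum : ∀ τ : ℍ, F τ + F ((ModularGroup.S * ModularGroup.T : SL(2, ℤ)) • τ) +
      F ((ModularGroup.S * ModularGroup.T : SL(2, ℤ)) •
        ((ModularGroup.S * ModularGroup.T : SL(2, ℤ)) • τ)) = 0) : ¬ 3 ∣ k := by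
  rintro ⟨i, rfl⟩
  obtain ⟨g, hg, hg0, hev⟩ := han.analyticOrderAt_eq_natCast.mp hk
  set z₀ : ℂ := (UpperHalfPlane.ρ : ℂ) with hz₀
  set S' : ℂ → ℂ := fun z => -1 / (z + 1) with hS'
  have hρ : z₀ ^ 2 = -z₀ - 1 := UpperHalfPlane.ρ_sq
  have h1 : z₀ + 1 ≠ 0 := fun h => by
    rw [eq_neg_of_add_eq_zero_left h] at hρ
    norm_num at hρ
  have hfix : S' z₀ = z₀ := by
    rw [hS', div_eq_iff h1]; linear_combination -hρ
  have hcS : ContinuousAt S' z₀ := continuousAt_const.div (continuousAt_id.add continuousAt_const) h1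
  have hev' : ∀ᶠ z in 𝓝 z₀, 0 < z.im ∧ z + 1 ≠ 0 ∧
      (F ∘ ofComplex) z = (z - z₀) ^ (3 * i) • g z := by
    refine Eventually.and ((isOpen_upperHalfPlaneSet.mem_nhds UpperHalfPlane.ρ.im_pos)) (Eventually.and ?_ hev)
    exact (continuousAt_id.add continuousAt_const).eventually_ne h1
  have hS1 : ∀ᶠ z in 𝓝 z₀, 0 < (S' z).im ∧ S' z + 1 ≠ 0 ∧
      (F ∘ ofComplex) (S' z) = (S' z - z₀) ^ (3 * i) • g (S' z) := by
    have := hcS.tendsto
    rw [hfix] at this
    exact this.eventually hev'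
  have hS2 : ∀ᶠ z in 𝓝 z₀, 0 < (S' (S' z)).im ∧ S' (S' z) + 1 ≠ 0 ∧
      (F ∘ ofComplex) (S' (S' z)) = (S' (S' z) - z₀) ^ (3 * i) • g (S' (S' z)) := by
    have := hcS.tendsto
    rw [hfix] at this
    exact this.eventually hS1
  set j : ℂ → ℂ := fun z => ((z + 1) * (z₀ + 1))⁻¹ with hj
  have hdiff : ∀ z, z + 1 ≠ 0 → S' z - z₀ = (z - z₀) * j z := fun z hz => by
    conv_lhs => rw [← hfix]
    simp only [hS', hj]
    field_simp
    ring
  have hsmul : ∀ τ : ℍ, (((ModularGroup.S * ModularGroup.T : SL(2, ℤ)) • τ : ℍ) : ℂ) = S' τ :=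
    fun τ => by
    rw [UpperHalfPlane.coe_specialLinearGroup_apply]
    simp [Matrix.SpecialLinearGroup.coe_mul, ModularGroup.coe_S, ModularGroup.coe_T,
      Matrix.mul_apply, Fin.sum_univ_two, hS']
  set H : ℂ → ℂ := fun z => g z + j z ^ (3 * i) * g (S' z) +
    (j z * j (S' z)) ^ (3 * i) * g (S' (S' z)) with hH
  have hzero : ∀ᶠ z in 𝓝 z₀, z ≠ z₀ → H z = 0 := by
    filter_upwards [hev', hS1, hS2] with z hA hB hC hne
    obtain ⟨hzi, hz1, hzF⟩ := hA
    obtain ⟨hsi, hs1, hsF⟩ := hB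
    obtain ⟨-, -, hssF⟩ := hC
    have e := hsum ⟨z, hzi⟩
    have e1 : ((ModularGroup.S * ModularGroup.T : SL(2, ℤ)) • (⟨z, hzi⟩ : ℍ)) = ⟨S' z, hsi⟩ :=
      UpperHalfPlane.ext (hsmul _)
    rw [e1] at e
    have e2 : ((ModularGroup.S * ModularGroup.T : SL(2, ℤ)) • (⟨S' z, hsi⟩ : ℍ) : ℍ) =
        ofComplex (S' (S' z)) := by
      rw [← ofComplex_apply ((ModularGroup.S * ModularGroup.T : SL(2, ℤ)) • (⟨S' z, hsi⟩ : ℍ)),
        hsmul]
    rw [e2] at e
    simp only [Function.comp, smul_eq_mul] at hzF hsF hssF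
    rw [ofComplex_apply_of_im_pos hzi] at hzF
    rw [ofComplex_apply_of_im_pos hsi] at hsF
    rw [hzF, hsF, hssF, hdiff (S' z) hs1, hdiff z hz1] at e
    have hne' : (z - z₀) ^ (3 * i) ≠ 0 := pow_ne_zero _ (sub_ne_zero.mpr hne)
    refine (mul_eq_zero.mp ?_).resolve_left hne'
    simp only [hH]
    clear_value j S'
    simp only [mul_pow] at e ⊢
    linear_combination e
  have hcj : ∀ {z}, z + 1 ≠ 0 → ContinuousAt j z := fun hz =>
    ((continuousAt_id.add continuousAt_const).mul continuousAt_const).inv₀ (mul_ne_zero hz h1)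
  have hcjS : ContinuousAt (fun z => j (S' z)) z₀ :=
    ContinuousAt.comp (g := j) (by rw [hfix]; exact hcj h1) hcS
  have hcgS : ContinuousAt (fun z => g (S' z)) z₀ :=
    ContinuousAt.comp (g := g) (by rw [hfix]; exact hg.continuousAt) hcS
  have hcgSS : ContinuousAt (fun z => g (S' (S' z))) z₀ :=
    ContinuousAt.comp (g := fun z => g (S' z)) (by rw [hfix]; exact hcgS) hcS
  have hcH : ContinuousAt H z₀ :=
    (hg.continuousAt.add (((hcj h1).pow _).mul hcgS)).add ((((hcj h1).mul hcjS).pow _).mul hcgSS)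
  have hH0 : H z₀ = 0 := tendsto_nhds_unique (l := 𝓝[≠] z₀) (hcH.tendsto.mono_left nhdsWithin_le_nhds)
    (tendsto_const_nhds.congr' (eventuallyEq_nhdsWithin_iff.mpr
      (hzero.mono fun z hz hne => (hz hne).symm)))
  have h6 : (z₀ + 1) ^ 6 = 1 := by
    linear_combination (z₀ ^ 4 + 5 * z₀ ^ 3 + 9 * z₀ ^ 2 + 6 * z₀) * hρ
  have hji : j z₀ ^ (3 * i) = 1 := by
    rw [hj]
    show ((z₀ + 1) * (z₀ + 1))⁻¹ ^ (3 * i) = 1
    rw [inv_pow, pow_mul, show ((z₀ + 1) * (z₀ + 1)) ^ 3 = (z₀ + 1) ^ 6 by ring, h6, one_pow,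
      inv_one]
  rw [hH] at hH0
  simp only [hfix, mul_pow, hji, one_mul] at hH0
  exact hg0 (by linear_combination (1 / 3 : ℂ) * hH0)

/-- Every finite point over `j` has, for some coordinate, a function of order prime to `p`. -/
theorem exists_order_point {p : ℕ} (hp : p.Prime) (hp2 : p ≠ 2) (hM : M ≠ 1) (c : ℂ) :
    ∃ (ψ : ℂ → ℂ) (hψ : AnalyticAt ℂ ψ 0) (h0 : ψ 0 ∈ upperHalfPlaneSet)
      (lam : Fld E →+* LaurentSeries ℂ), deriv ψ 0 ≠ 0 ∧
      (∀ a, lam (algebraMap O (Fld E) a) = HahnSeries.C (E.φ a)) ∧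
      lam (jF E) = HahnSeries.ofPowerSeries ℤ ℂ (PowerSeries.C c + PowerSeries.X ^ eOf c) ∧
      (∀ a : bddMF E, lam (toFld E a) =
        HahnSeries.ofPowerSeries ℤ ℂ (localAlg M hψ h0 (a : MF M))) ∧
      ((p = 3 → c ≠ 0) ∨ ∃ t : Fld E, t ≠ 0 ∧ ¬ (p : ℤ) ∣ (lam t).order) := by
  by_cases hc : p = 3 ∧ c = 0
  swap
  · obtain ⟨τ, rfl⟩ := jFun_surjective c
    obtain ⟨ψ, hψ, h0, lam, hd, hC, hj, hl⟩ := exists_lam_point E τ
    exact ⟨ψ, hψ, h0, lam, hd, hC, hj, hl, Or.inl fun h3 h0 => hc ⟨h3, h0⟩⟩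
  obtain ⟨rfl, rfl⟩ := hc
  obtain ⟨ψ, hψ, h0, hψτ, hd, hj⟩ := exists_jCoord M UpperHalfPlane.ρ
  have hjρ : Period.jFun UpperHalfPlane.ρ = 0 := by simp [Period.jFun, Period.E4_ρ]
  rw [hjρ] at hj
  let g : bddMF E →+* LaurentSeries ℂ :=
    (HahnSeries.ofPowerSeries ℤ ℂ).comp ((localAlg M hψ h0).toRingHom.comp (bddMF E).subtype)
  have hg : Function.Injective g := fun a b h =>
    Subtype.ext (localAlg_injective hψ h0 hd (HahnSeries.ofPowerSeries_injective h))
  let lam : Fld E →+* LaurentSeries ℂ :=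
    IsFractionRing.lift (A := bddMF E) (K := FractionRing (bddMF E)) hg
  have hlam : ∀ a, lam (toFld E a) = HahnSeries.ofPowerSeries ℤ ℂ (localAlg M hψ h0 (a : MF M)) :=
    fun a => IsFractionRing.lift_algebraMap (A := bddMF E) (K := FractionRing (bddMF E)) hg a
  refine ⟨ψ, hψ, h0, lam, hd, fun a => ?_, ?_, hlam, Or.inr ?_⟩
  · rw [ModField.algebraMap_eq, hlam]
    show HahnSeries.ofPowerSeries ℤ ℂ (localAlg M hψ h0 (algebraMap ℂ (MF M) (E.φ a))) = _
    rw [AlgHom.commutes, PowerSeries.algebraMap_eq, HahnSeries.ofPowerSeries_C]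
  · rw [jF, hlam, hj]
  set s : SL(2, ℤ) := ModularGroup.S * ModularGroup.T with hs
  set x := frElt E hM
  set t : Fld E := fShift E s (toFld E x) - toFld E x with htdef
  set φ : MF M := shift M s (x : MF M) - (x : MF M) with hφ
  have hst : t = toFld E ⟨φ, sub_mem (shift_mem_bddMF E x.2 s) x.2⟩ := by
    rw [htdef, fShift_toFld, ← map_sub]
    rfl
  have hne : φ ≠ 0 := fun h => by
    refine shift_frElt_ne E hM ?_ ?_ (sub_eq_zero.mp h) <;>
    · rintro ⟨-, h2⟩
      have : s 0 1 = -1 := by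
        simp [hs, Matrix.SpecialLinearGroup.coe_mul, ModularGroup.coe_S, ModularGroup.coe_T,
          Matrix.mul_apply, Fin.sum_univ_two]
      rw [this, dvd_neg] at h2
      exact hM (Int.natCast_dvd_natCast.mp (by exact_mod_cast h2 : (M : ℤ) ∣ ((1 : ℕ) : ℤ)) |>
        Nat.dvd_one.mp)
  obtain ⟨k, hk⟩ := ENat.ne_top_iff_exists.mp
    (analyticOrderAt_modFun_ne_top φ.2.holo (fun h => hne (Subtype.ext h)) h0)
  have h3 : ¬ 3 ∣ k := by
    refine three_not_dvd_order (F := (φ : ℍ → ℂ)) (analyticAt_comp_ofComplex φ.2.holo _) (by rw [← hψτ]; exact hk.symm) fun τ => ?_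
    have hs3 : s • s • s • τ = τ := by
      rw [← mul_smul, ← mul_smul, show s * s * s = -1 by
        rw [hs]; ext a b; fin_cases a <;> fin_cases b <;>
          simp [Matrix.SpecialLinearGroup.coe_mul, ModularGroup.coe_S, ModularGroup.coe_T,
            Matrix.mul_apply, Fin.sum_univ_two]]
      rw [ModularGroup.SL_neg_smul, one_smul]
    have he : ∀ σ : ℍ, (φ : ℍ → ℂ) σ = (x.1 : ℍ → ℂ) (s • σ) - (x.1 : ℍ → ℂ) σ := fun σ => rfl
    rw [he, he, he, hs3]
    ring
  refine ⟨t, fun h => hne ?_, ?_⟩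
  · rw [hst, ← map_zero (toFld E)] at h
    exact congrArg Subtype.val (toFld_injective E h)
  · rw [hst, hlam, order_ofPowerSeries_eq (k := k) ((order_localAlg hψ h0 hd φ).trans hk.symm)]
    exact fun h => h3 (Int.natCast_dvd_natCast.mp h)

/-- Roots along the curves through finite points. -/
theorem hasRootAt_finite_prime (hπ : Irreducible π) {n : ℕ} (hp : n.Prime) (hp2 : n ≠ 2)
    (hM : M ≠ 1) {f : Fld E} (hf : OrdDvd E n f)
    (Q : Ideal (chartRing O (jF E))) [Q.IsPrime] (hQ0 : Q ≠ ⊥)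
    (hQπ : algebraMap O (chartRing O (jF E)) π ∉ Q) :
    HasRootAt (chartRing O (jF E)) n f Q := by
  haveI := isNoetherianRing_B₀ E
  have hP0 : Q.comap (ModField.polyHom (jF E)) ≠ ⊥ := comap_ne_bot hQ0
  obtain ⟨c, hc, r, hrP, hr'⟩ := exists_point hπ E.φ E.inj (C_pi_notMem hQπ) hP0
  obtain ⟨ψ, hψ, h0, lam, hd, hC, hj, hl, hor⟩ := exists_order_point E hp hp2 hM c
  set e := eOf c with he
  have he0 : e ≠ 0 := (eOf_pos c).ne'
  set W₀ : PowerSeries ℂ := PowerSeries.C c + PowerSeries.X ^ e with hW₀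
  have hW0 : PowerSeries.constantCoeff W₀ = c := by simp [W₀, he0]
  obtain ⟨s, hs⟩ := Polynomial.dvd_iff_isRoot.mpr ((hc r).mp hrP : (r.map E.φ).IsRoot c)
  have hs0 : s.eval c ≠ 0 := by
    rw [hs] at hr'
    simpa [derivative_mul] using hr'
  have hord : (lam (aeval (jF E) r)).order = (e : ℤ) := by
    have h1 : lam (aeval (jF E) r) = HahnSeries.ofPowerSeries ℤ ℂ
        (PowerSeries.X ^ e * s.eval₂ PowerSeries.C W₀) := by
      have h2 : lam.comp (aeval (jF E)).toRingHom = ((HahnSeries.ofPowerSeries ℤ ℂ).comp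
          (Polynomial.eval₂RingHom PowerSeries.C W₀)).comp (mapRingHom E.φ) := by
        refine Polynomial.ringHom_ext (fun a => ?_) ?_ <;> simp [hC, hj, W₀]
      have h3 := RingHom.congr_fun h2 r
      simp only [RingHom.comp_apply, coe_mapRingHom, coe_eval₂RingHom, hs, eval₂_mul, eval₂_sub,
        eval₂_X, eval₂_C] at h3
      refine h3.trans ?_
      rw [show W₀ - PowerSeries.C c = PowerSeries.X ^ e by simp [W₀]]
    rw [h1]
    refine order_ofPowerSeries_eq ?_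
    rw [PowerSeries.order_mul, PowerSeries.order_X_pow]
    have hu : PowerSeries.constantCoeff (s.eval₂ PowerSeries.C W₀) ≠ 0 := by
      rw [Polynomial.hom_eval₂, hW0]
      simpa [show (PowerSeries.constantCoeff : PowerSeries ℂ →+* ℂ).comp PowerSeries.C = RingHom.id ℂ
        from RingHom.ext fun x => by simp] using hs0
    rw [PowerSeries.order_zero_of_unit (PowerSeries.isUnit_iff_constantCoeff.mpr
      (isUnit_iff_ne_zero.mpr hu)), add_zero]
  obtain ⟨t, ht, htp⟩ : ∃ t : Fld E, t ≠ 0 ∧ ¬ (n : ℤ) ∣ (lam t).order := by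
    rcases hor with hor | hor
    swap
    · exact hor
    have hne : aeval (jF E) r ≠ 0 := fun h => by
      rw [h, map_zero, HahnSeries.order_zero] at hord
      exact he0 (by exact_mod_cast hord.symm)
    refine ⟨_, hne, ?_⟩
    rw [hord, Int.natCast_dvd_natCast, he, eOf]
    split_ifs with h1 h2
    · exact fun h => hor ((Nat.prime_dvd_prime_iff_eq hp Nat.prime_three).mp h) h1
    · exact fun h => hp2 ((Nat.prime_dvd_prime_iff_eq hp Nat.prime_two).mp h)
    · exact hp.not_dvd_one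
  exact hasRootAt_series_prime E hπ (fShift_jF E) (aeval_jF_injective E) (fixedRational_jF E) lam
    hC W₀ hj Q hQπ hQ0 (fun a => by rw [hc, hW0]) hp ht htp hf.ne_zero
    (hf.finite ψ hψ h0 hd lam hC hl)

/-- Roots along the cusps on the chart of `1 / j`. -/
theorem hasRootAt_cusp_prime (hπ : Irreducible π) {n : ℕ} (hp : n.Prime) {f : Fld E}
    (hf : OrdDvd E n f) (Q : Ideal (chartRing O (jF E)⁻¹)) [Q.IsPrime]
    (hQπ : algebraMap O (chartRing O (jF E)⁻¹) π ∉ Q)
    (hwQ : (⟨(jF E)⁻¹, self_mem_chartRing _⟩ : chartRing O (jF E)⁻¹) ∈ Q) :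
    HasRootAt (chartRing O (jF E)⁻¹) n f Q := by
  haveI := isNoetherianRing_B₁ E
  have hfix : ∀ g : SL(2, ℤ), fShift E g (jF E)⁻¹ = (jF E)⁻¹ := fun g => by
    rw [map_inv₀, fShift_jF]
  have hQ0 : Q ≠ ⊥ := fun h => by
    rw [h, Ideal.mem_bot] at hwQ
    exact inv_ne_zero (jF_ne_zero E) (congrArg Subtype.val hwQ)
  have hX : (X : O[X]) ∈ Q.comap (ModField.polyHom (jF E)⁻¹) := by
    have e : ModField.polyHom (jF E)⁻¹ (X : O[X]) = ⟨(jF E)⁻¹, self_mem_chartRing _⟩ :=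
      Subtype.ext (by rw [ModField.coe_polyHom, aeval_X])
    rwa [Ideal.mem_comap, e]
  have hP0 : Q.comap (ModField.polyHom (jF E)⁻¹) ≠ ⊥ := fun h => X_ne_zero (Ideal.mem_bot.mp (h ▸ hX))
  obtain ⟨c, hc, -⟩ := exists_point hπ E.φ E.inj (C_pi_notMem hQπ) hP0
  obtain rfl : c = 0 := by simpa using (hc X).mp hX
  -- the series of the coordinate
  set U : PowerSeries O := jUnit (O := O) (M := M)
  obtain ⟨u, hu⟩ := isUnit_jUnit (O := O) (M := M)
  set W₀ : PowerSeries ℂ := PowerSeries.X ^ M * PowerSeries.map E.φ ↑(u⁻¹) with hW₀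
  have hW : toLS E (jF E)⁻¹ = HahnSeries.ofPowerSeries ℤ ℂ W₀ := by
    have h1 := congrArg E.toC (serF_inv_jF E)
    rw [map_mul, toC_serF, E.toC_algebraMap, E.toC_algebraMap] at h1
    simp only [Emb.gO, RingHom.comp_apply, map_pow, PowerSeries.map_X] at h1
    rw [hW₀, map_mul, map_pow, ← h1, mul_assoc, ← map_mul, ← map_mul, ← hu, ← Units.val_mul,
      mul_inv_cancel, Units.val_one, map_one, map_one, mul_one]
  have hW0 : PowerSeries.constantCoeff W₀ = 0 := by simp [hW₀, NeZero.ne M]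
  obtain ⟨t, ht, htp⟩ := exists_order_cusp E hp
  exact hasRootAt_series_prime E hπ hfix (aeval_inv_jF_injective E) (fixedRational_inv_jF E) (toLS E)
    (toLS_algebraMap E) W₀ hW Q hQπ hQ0 (fun a => by rw [hc, hW0]) hp ht htp hf.ne_zero hf.cusp

/-! ## All points -/

set_option maxHeartbeats 1000000 in
/-- Roots at every point of both charts, given the regularity of the special fibre. -/
theorem hasRootAt_all_prime (hπ : Irreducible π) {n : ℕ} (hp : n.Prime) (hp2 : n ≠ 2) (hM : M ≠ 1) {f : Fld E}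
    (hf : OrdDvd E n f)
    (hgauss : ∀ (g : SL(2, ℤ)) (o : ℤ), HasOrd E π (toLS E (fShift E g f)) o → (n : ℤ) ∣ o)
    (hreg₀ : ∀ m : Ideal (chartRing O (jF E)), m.IsMaximal →
      algebraMap O (chartRing O (jF E)) π ∈ m →
      ∃ x y, x ∈ m ∧ y ∈ m ∧ ∀ z ∈ m, ∃ s ∉ m, s * z ∈ Ideal.span {x, y})
    (hreg₁ : ∀ m : Ideal (chartRing O (jF E)⁻¹), m.IsMaximal →
      algebraMap O (chartRing O (jF E)⁻¹) π ∈ m →
      (⟨(jF E)⁻¹, self_mem_chartRing _⟩ : chartRing O (jF E)⁻¹) ∈ m →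
      ∃ x y, x ∈ m ∧ y ∈ m ∧ ∀ z ∈ m, ∃ s ∉ m, s * z ∈ Ideal.span {x, y}) :
    (∀ Q : Ideal (ModField.model E).B₀, Q.IsPrime → Q ≠ ⊥ →
        HasRootAt (ModField.model E).B₀ n f Q) ∧
      ∀ m : Ideal (ModField.model E).B₁, m.IsMaximal →
        HasRootAt (ModField.model E).B₁ n f m := by
  haveI := isNoetherianRing_B₀ E
  haveI := isNoetherianRing_B₁ E
  have hC := aeval_jF_injective E
  have hC₁ := aeval_inv_jF_injective E
  have hfix₁ : ∀ g : SL(2, ℤ), fShift E g (jF E)⁻¹ = (jF E)⁻¹ := fun g => by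
    rw [map_inv₀, fShift_jF]
  haveI := isFractionRing_fld E hC (fixedRational_jF E)
  haveI := isFractionRing_fld E hC₁ (fixedRational_inv_jF E)
  have hfE : f ≠ 0 := hf.ne_zero
  have hn : 0 < n := hp.pos
  -- curves of the first chart
  have h₀ : ∀ Q : Ideal (chartRing O (jF E)), Q.IsPrime → Q ≠ ⊥ →
      ¬ (Q.IsMaximal ∧ algebraMap O (chartRing O (jF E)) π ∈ Q) →
      HasRootAt (chartRing O (jF E)) n f Q := fun Q hQ hQ0 hQm => by
    haveI := hQ
    by_cases hQπ : algebraMap O (chartRing O (jF E)) π ∈ Q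
    · exact (hasRootAt_gauss E hπ (fShift_jF E) hC (fixedRational_jF E)
        (fun x hx => (chart_le_gaussP E hπ 1).1 x hx) (centre_jF E hπ) Q hQπ
        (fun h => hQm ⟨h, hQπ⟩) hf.ne_zero hgauss)
    · exact hasRootAt_finite_prime E hπ hp hp2 hM hf Q hQ0 hQπ
  have hB₀ : ∀ Q : Ideal (chartRing O (jF E)), Q.IsPrime → Q ≠ ⊥ →
      HasRootAt (chartRing O (jF E)) n f Q := fun Q hQ hQ0 => by
    haveI := hQ
    by_cases hQm : Q.IsMaximal ∧ algebraMap O (chartRing O (jF E)) π ∈ Q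
    swap
    · exact h₀ Q hQ hQ0 hQm
    haveI := hQm.1
    refine hasRootAt_of_regular hn Q (exists_prime_below E hπ (fShift_jF E) hC (fixedRational_jF E)
      (fun x hx => (chart_le_gaussP E hπ 1).1 x hx) (centre_jF E hπ) Q hQm.2)
      (hreg₀ Q hQm.1 hQm.2) hfE fun P hP hP0 hPle hPne => ?_
    exact h₀ P hP hP0 fun h => hPne (h.1.eq_of_le hQm.1.ne_top hPle)
  suffices h₁ : ∀ m : Ideal (chartRing O (jF E)⁻¹), m.IsMaximal →
      HasRootAt (chartRing O (jF E)⁻¹) n f m from ⟨hB₀, h₁⟩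
  intro m hm
  have htr : ∀ Q : Ideal (chartRing O (jF E)⁻¹), Q.IsPrime → Q ≠ ⊥ →
      (⟨(jF E)⁻¹, self_mem_chartRing _⟩ : chartRing O (jF E)⁻¹) ∉ Q →
      HasRootAt (chartRing O (jF E)⁻¹) n f Q := fun Q hQ hQ0 hwQ => by
    haveI := hQ
    exact @hasRootAt_transfer _ _ _ _ _ (ModField.model E) n _ hB₀ Q hQ hQ0 hwQ
  have hcusp : ∀ Q : Ideal (chartRing O (jF E)⁻¹), Q.IsPrime →
      algebraMap O (chartRing O (jF E)⁻¹) π ∉ Q →
      (⟨(jF E)⁻¹, self_mem_chartRing _⟩ : chartRing O (jF E)⁻¹) ∈ Q →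
      HasRootAt (chartRing O (jF E)⁻¹) n f Q := fun Q hQ hQπ hwQ => by
    haveI := hQ
    exact hasRootAt_cusp_prime E hπ hp hf Q hQπ hwQ
  haveI := hm
  have hm0 := ne_bot_of_isMaximal E m hC₁
  by_cases hwm : (⟨(jF E)⁻¹, self_mem_chartRing _⟩ : chartRing O (jF E)⁻¹) ∈ m
  swap
  · exact htr m hm.isPrime hm0 hwm
  by_cases hmπ : algebraMap O (chartRing O (jF E)⁻¹) π ∈ m
  swap
  · exact hcusp m hm.isPrime hmπ hwm
  refine hasRootAt_of_regular hn m (exists_prime_below E hπ hfix₁ hC₁ (fixedRational_inv_jF E)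
      (fun x hx => (chart_le_gaussP E hπ 1).2 x hx) (centre_inv_jF E hπ) m hmπ)
    (hreg₁ m hm hmπ hwm) hfE fun P hP hP0 hPle hPne => ?_
  haveI := hP
  by_cases hwP : (⟨(jF E)⁻¹, self_mem_chartRing _⟩ : chartRing O (jF E)⁻¹) ∈ P
  swap
  · exact htr P hP hP0 hwP
  by_cases hPπ : algebraMap O (chartRing O (jF E)⁻¹) π ∈ P
  swap
  · exact hcusp P hP hPπ hwP
  exact (hasRootAt_gauss E hπ hfix₁ hC₁ (fixedRational_inv_jF E)
    (fun x hx => (chart_le_gaussP E hπ 1).2 x hx) (centre_inv_jF E hπ) P hPπ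
    (fun h => hPne (h.eq_of_le hm.ne_top hPle)) hf.ne_zero hgauss)

end Fermat.Agent.R59.NoSq
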