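import Fermat.Agent.R59.NoSq.Datum
import Fermat.Agent.R59.NoSq.LineFun
import Fermat.Agent.R59.NoSq.Borel
import Fermat.Agent.Models.Gamma0.TwoComps
import Fermat.Agent.NewVec.Norm

/-!
# S59, unit A: the symmetries of the model over the inertia field, with their lines
-/

set_option autoImplicit false
set_option linter.style.haveILetI false
set_option linter.unusedSectionVars false

noncomputable section

namespace Fermat.Agent.R59.NoSq

open CongruenceSubgroup IsLocalRing
open Fermat.Agent.GalRep Fermat.Agent.GalRep.Level Fermat.Agent.ModField Fermat.Agent.NewVec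
open Fermat.Agent.Galois (GQ)
open Fermat.Agent.GalRep.Model (zetaC chartRing)
open scoped MatrixGroups

variable {A : ValuationSubring (AlgebraicClosure ℚ)} {q N M : ℕ} [NeZero M] [NeZero q] [NeZero N]
  [Fact (Nat.Coprime q N)]
  (hq : q.Prime) (hA : A.LiesOverPrime q) (hMN : M = q * N) (hqN : ¬ q ∣ N)

local notation "EE" => embO A M

/-- A lift with given reductions. -/
theorem exists_both (x : SL(2, ZMod q)) (y : SL(2, ZMod N)) :
    ∃ δ : SL(2, ℤ), red q δ = x ∧ red N δ = y := by
  obtain ⟨L, hL⟩ := red_surjective N y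
  obtain ⟨l, hl, hlN⟩ := exists_liftX q N (x * (red q L)⁻¹)
  exact ⟨l * L, by rw [map_mul, hl, inv_mul_cancel_right],
    by rw [map_mul, red_eq_one_iff.mpr hlN, hL, one_mul]⟩

/-- A lift congruent to one modulo `N`. -/
def liftOne (x : SL(2, ZMod q)) : SL(2, ℤ) := (exists_liftX q N x).choose

theorem red_liftOne (x : SL(2, ZMod q)) :
    red q (liftOne (N := N) x) = x ∧ red N (liftOne (N := N) x) = 1 :=
  ⟨(exists_liftX q N x).choose_spec.1, red_eq_one_iff.mpr (exists_liftX q N x).choose_spec.2⟩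

include hMN in
theorem red_eq_of_both {g h : SL(2, ℤ)} (h1 : red q g = red q h) (h2 : red N g = red N h) :
    red M g = red M h :=
  red_ext_of_coprime hMN Fact.out h1 h2

/-- The translations. -/
def transHom : SL(2, ZMod q) →* RingAut (Fld EE) :=
  MonoidHom.mk' (fun x => fShift EE (liftOne (N := N) x)⁻¹) fun x y => RingEquiv.ext fun z => by
    show _ = fShift EE (liftOne (N := N) x)⁻¹ (fShift EE (liftOne (N := N) y)⁻¹ z)
    rw [fShift_fShift, ← mul_inv_rev]
    refine fShift_congr EE (red_eq_of_both hMN ?_ ?_) z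
    · rw [map_inv, map_inv, map_mul, (red_liftOne _).1, (red_liftOne _).1, (red_liftOne _).1]
    · rw [map_inv, map_inv, map_mul, (red_liftOne _).2, (red_liftOne _).2, (red_liftOne _).2, one_mul]

theorem conjTor_shift (a : (ZMod q)ˣ) {g g' : SL(2, ℤ)} (h1 : red q g' = conjA a (red q g))
    (h2 : red N g' = red N g) (z : Fld EE) :
    conjTor hq hA hMN hqN a (fShift EE g z) = fShift EE g' (conjTor hq hA hMN hqN a z) := by
  obtain ⟨g'', hg⟩ := exists_conjEq (expM hq hA hMN hqN a) g
  rw [conjTor_fShift hq hA hMN hqN a hg]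
  refine fShift_congr EE (red_eq_of_both hMN ?_ ?_) _
  · have h := hg.of_dvd (hMN ▸ dvd_mul_right q N : q ∣ M)
    rw [expM_mod_q hq hA hMN hqN, ConjEq] at h
    rw [h, h1]
  · have h := hg.of_dvd (hMN ▸ dvd_mul_left N q : N ∣ M)
    rw [expM_mod_N hq hA hMN hqN, ConjEq, conjA_one] at h
    rw [h, h2]

/-- The symmetries. -/
def symHom : SymA q →* RingAut (Fld EE) :=
  SemidirectProduct.lift (transHom hMN) (conjTor hq hA hMN hqN) fun a => MonoidHom.ext fun x =>
    RingEquiv.ext fun z => by
      show fShift EE (liftOne (N := N) (conjA a x))⁻¹ z = conjTor hq hA hMN hqN a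
        (fShift EE (liftOne (N := N) x)⁻¹ ((conjTor hq hA hMN hqN a)⁻¹ z))
      rw [conjTor_shift hq hA hMN hqN a (g' := (liftOne (N := N) (conjA a x))⁻¹)
        (by rw [map_inv, map_inv, (red_liftOne _).1, (red_liftOne _).1, map_inv])
        (by rw [map_inv, map_inv, (red_liftOne _).2, (red_liftOne _).2])]
      exact congrArg _ ((conjTor hq hA hMN hqN a).apply_symm_apply z).symm

theorem symHom_apply (s : SymA q) (z : Fld EE) : symHom hq hA hMN hqN s z =
    fShift EE (liftOne (N := N) s.left)⁻¹ (conjTor hq hA hMN hqN s.right z) := rfl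

theorem symHom_inl (x : SL(2, ZMod q)) (z : Fld EE) :
    symHom hq hA hMN hqN (SemidirectProduct.inl x) z =
      fShift EE (liftOne (N := N) x)⁻¹ z := by
  rw [symHom_apply, SemidirectProduct.left_inl, SemidirectProduct.right_inl, map_one]
  rfl

theorem symHom_inr (a : (ZMod q)ˣ) (z : Fld EE) :
    symHom hq hA hMN hqN (SemidirectProduct.inr a) z = conjTor hq hA hMN hqN a z := by
  rw [symHom, SemidirectProduct.lift_inr]

include hMN in
theorem range_le : (symHom hq hA hMN hqN).range ≤ symG hq hA hMN hqN := by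
  rintro _ ⟨s, rfl⟩
  exact ⟨(liftOne (N := N) s.left)⁻¹, s.right, fun z => symHom_apply hq hA hMN hqN s z⟩

variable [IsDiscreteValuationRing (oBase A M)] {π : oBase A M} (hπ : Irreducible π)

/-- The index set of the components. -/
abbrev CompA (q N : ℕ) [NeZero q] : Type := (SymA q ⧸ fixInf q) × SL(2, ZMod N)

/-- A cusp of a component. -/
def cuspA (c : CompA q N) : SL(2, ℤ) := (exists_both c.1.out.left c.2).choose

/-- The component with the given index. -/
def compA (c : CompA q N) : ValuationSubring (Fld EE) := gaussP EE hπ (cuspA c)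

include hMN in
theorem compA_eq {c : CompA q N} {k : SymA q} (hk : (k : SymA q ⧸ fixInf q) = c.1) {δ : SL(2, ℤ)}
    (h1 : red q δ = k.left) (h2 : red N δ = c.2) : compA hπ c = gaussP EE hπ δ := by
  obtain ⟨e1, e2⟩ := (exists_both c.1.out.left c.2).choose_spec
  have hu : c.1.out⁻¹ * k ∈ fixInf q :=
    QuotientGroup.eq.mp ((Quotient.out_eq c.1).trans hk.symm)
  set u := c.1.out⁻¹ * k with hu'
  obtain ⟨hu1, hu2, hu3⟩ := hu
  have hkl : k.left = c.1.out.left * conjA c.1.out.right u.left := by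
    rw [← mul_left_eq, hu', mul_inv_cancel_left]
  obtain ⟨r, hr⟩ : ∃ r : ℤ, ((N : ℤ) * r : ℤ) = ((c.1.out.right : ZMod q) * u.left 0 1 : ZMod q) := by
    have hun : IsUnit (N : ZMod q) :=
      (ZMod.isUnit_iff_coprime N q).mpr (Nat.Coprime.symm Fact.out)
    obtain ⟨v, hv⟩ := hun.exists_left_inv
    obtain ⟨r, hr⟩ := ZMod.intCast_surjective ((c.1.out.right : ZMod q) * u.left 0 1 * v)
    exact ⟨r, by push_cast; rw [hr, mul_comm, mul_assoc, hv, mul_one]⟩
  rw [compA, cuspA, gaussP_congr hπ (δ := δ)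
    (δ' := (exists_both c.1.out.left c.2).choose * ModularGroup.T ^ ((N : ℤ) * r))
    (red_eq_of_both hMN ?_ ?_)]
  · exact (gaussP_mul_T hπ _ _).symm
  · rw [h1, map_mul, e1, hkl]
    congr 1
    refine Subtype.ext ?_
    rw [red_zpow_T, hr]
    ext i j
    fin_cases i <;> fin_cases j <;>
      simp [conjA, hu1, hu2, hu3, -ZMod.inv_coe_unit, -Units.val_inv_eq_inv_val]
  · rw [h2, map_mul, e2, show red N (ModularGroup.T ^ ((N : ℤ) * r)) = 1 from Subtype.ext (by
      rw [red_zpow_T, Matrix.SpecialLinearGroup.coe_one]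
      simp [Matrix.one_fin_two]), mul_one]

/-- The action on the indices of components. -/
def compAct : SymA q →* Equiv.Perm (CompA q N) :=
  MonoidHom.mk' (fun s => (MulAction.toPermHom (SymA q) (SymA q ⧸ fixInf q) s).prodCongr (Equiv.refl _))
    fun s t => Equiv.ext fun c => Prod.ext (mul_smul s t c.1) rfl

/-- The line of a component. -/
def lineOf (c : CompA q N) : LineA q := Subgroup.quotientMapOfLE (fixInf_le q) c.1

theorem lineOf_mk (k : SymA q) (y : SL(2, ZMod N)) :
    lineOf (((k : SymA q ⧸ fixInf q), y) : CompA q N) = (k : LineA q) := rfl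

theorem perm_comp (s : SymA q) (c : CompA q N) (z : Fld EE) :
    symHom hq hA hMN hqN s z ∈ compA hπ (compAct s c) ↔ z ∈ compA hπ c := by
  obtain ⟨⟨k⟩, y⟩ := c
  obtain ⟨δ, h1, h2⟩ := exists_both k.left y
  obtain ⟨δ', h1', h2'⟩ := exists_both (conjA s.right k.left) y
  rw [compA_eq hMN hπ (c := compAct s (_, y)) (k := s * k) rfl (δ := liftOne (N := N) s.left * δ')
      (by rw [map_mul, (red_liftOne _).1, h1', mul_left_eq]) (by rw [map_mul, (red_liftOne _).2, h2', one_mul]; rfl),
    compA_eq hMN hπ (c := (_, y)) (k := k) rfl h1 h2, symHom_apply, fShift_mem_gaussP,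
    inv_mul_cancel_left, mem_gaussP_iff_shift hπ δ', ← conjTor_shift hq hA hMN hqN s.right
      (g := δ) (g' := δ') (by rw [h1', h1]) (h2'.trans h2.symm), mem_gaussP_iff_shift hπ δ]
  have := fix₁_mem_gaussP hq hA hMN hqN hπ (0, s.right) rfl (x := fShift EE δ z)
  simpa only [fix₁_apply, tN, ZMod.val_zero, Nat.cast_zero, mul_zero, zpow_zero, fShift_one]
    using this

theorem nonunits_perm (s : SymA q) (c : CompA q N) (z : Fld EE) :
    symHom hq hA hMN hqN s z ∈ (compA hπ (compAct s c)).nonunits ↔ z ∈ (compA hπ c).nonunits :=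
  Models.nonunits_map (G := (symHom hq hA hMN hqN).range) (g := ⟨_, s, rfl⟩)
    (P := compA hπ) fun x => perm_comp hq hA hMN hqN hπ s c x

/-- The parameter of a translation fixing the component at infinity. -/
def negN (N : ℕ) (w : ZMod q) : ZMod q := -w * (N : ZMod q)⁻¹

theorem negN_spec (w : ZMod q) : (N : ZMod q) * negN N w = -w := by
  have hu : IsUnit (N : ZMod q) := (ZMod.isUnit_iff_coprime N q).mpr (Nat.Coprime.symm Fact.out)
  rw [negN, mul_comm, mul_assoc, mul_comm _ (N : ZMod q), ZMod.mul_inv_of_unit _ hu, mul_one]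

theorem symHom_fixElt (δ : SL(2, ℤ)) (hδ : red q δ = 1) (w : ZMod q) (a : (ZMod q)ˣ) (z : Fld EE) :
    fShift EE δ (symHom hq hA hMN hqN (fixElt (w, a)) z) =
      fix₁ hq hA hMN hqN (negN N w, a) (fShift EE δ z) := by
  rw [fix₁_apply, symHom_apply, conjTor_shift hq hA hMN hqN a (g := δ) (g' := δ)
    (by rw [hδ, map_one]) rfl, fShift_fShift, fShift_fShift]
  refine fShift_congr EE (red_eq_of_both hMN ?_ ?_) _
  · rw [map_mul, map_mul, map_inv, (red_liftOne _).1, hδ, mul_one, one_mul]
    refine Subtype.ext ?_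
    rw [tN, red_zpow_T]
    simp [fixElt, unip, Matrix.SpecialLinearGroup.coe_inv, Matrix.adjugate_fin_two, negN_spec]
  · have h2 : red N (tN (N := N) (negN N w)) = 1 := Subtype.ext (by
      rw [tN, red_zpow_T, Matrix.SpecialLinearGroup.coe_one]
      simp [Matrix.one_fin_two])
    rw [map_mul, map_mul, map_inv, (red_liftOne _).2, h2, inv_one, one_mul, mul_one]

theorem exists_fixElt {u : SymA q} (hu : u ∈ fixInf q) : ∃ w a, fixElt (w, a) = u := by
  obtain ⟨h1, h2, h3⟩ := hu
  refine ⟨u.left 0 1, u.right, SemidirectProduct.ext ?_ rfl⟩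
  ext i j
  fin_cases i <;> fin_cases j <;> simp [fixElt, unip, h1, h2, h3]

theorem fix_comp (c : CompA q N) {h : SymA q} (hh : h ∈ fixLine q (lineOf c)) :
    compAct h c = c := by
  obtain ⟨⟨k⟩, y⟩ := c
  have hu := conj_of_fixLine hh (k := k) rfl
  refine Prod.ext ((QuotientGroup.eq (s := fixInf q) (a := h * k) (b := k)).mpr ?_) rfl
  rw [show (h * k)⁻¹ * k = (k⁻¹ * h * k)⁻¹ by group]
  exact inv_mem hu

theorem fix_sub (c : CompA q N) {h : SymA q} (hh : h ∈ fixLine q (lineOf c)) {z : Fld EE}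
    (hz : z ∈ compA hπ c) : symHom hq hA hMN hqN h z - z ∈ (compA hπ c).nonunits := by
  obtain ⟨c₁, y⟩ := c
  obtain ⟨k, rfl⟩ := QuotientGroup.mk_surjective c₁
  obtain ⟨w, a, hu⟩ := exists_fixElt (conj_of_fixLine hh (k := k) rfl)
  have e : h = k * fixElt (w, a) * k⁻¹ := by rw [hu]; group
  set c₀ : CompA q N := ((1 : SymA q), y)
  have hc : compAct k c₀ = ((k : SymA q ⧸ fixInf q), y) := Prod.ext (congrArg Quotient.mk'' (mul_one k)) rfl
  obtain ⟨z', rfl⟩ := (symHom hq hA hMN hqN k).surjective z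
  rw [← hc, perm_comp hq hA hMN hqN hπ] at hz
  rw [← hc, e, map_mul, map_mul, RingAut.mul_apply, RingAut.mul_apply, map_inv,
    show (symHom hq hA hMN hqN k)⁻¹ (symHom hq hA hMN hqN k z') = z' from
      RingEquiv.symm_apply_apply _ _, ← map_sub, nonunits_perm hq hA hMN hqN hπ]
  obtain ⟨δ, h1, h2⟩ := exists_both (1 : SL(2, ZMod q)) y
  rw [compA_eq hMN hπ (c := c₀) (k := 1) rfl (δ := δ) (by rw [h1]; rfl) h2] at hz ⊢
  rw [mem_gaussP_iff_shift hπ δ] at hz
  rw [mem_nonunits_iff_shift hπ δ, map_sub, symHom_fixElt hq hA hMN hqN δ h1]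
  exact fix₁_sub_mem hq hA hMN hqN hπ _ hz

theorem injOn_hLine (C : Finset (ZMod q)ˣ) (L : LineA q) :
    Set.InjOn (symHom hq hA hMN hqN) (hLine C L) := by
  classical
  intro g hg h hh e
  obtain ⟨⟨w, a⟩, -, rfl⟩ := Finset.mem_image.mp hg
  obtain ⟨⟨w', a'⟩, -, rfl⟩ := Finset.mem_image.mp hh
  rw [map_mul, map_mul, map_mul, map_mul] at e
  have e' := mul_left_cancel (mul_right_cancel e)
  have key : ∀ w a, (symHom hq hA hMN hqN (fixElt (w, a)) : RingAut (Fld EE)) =
      fix₁ hq hA hMN hqN (negN N w, a) := fun w a => RingEquiv.ext fun z => by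
    have := symHom_fixElt hq hA hMN hqN 1 (map_one _) w a z
    rwa [fShift_one, fShift_one] at this
  rw [key, key] at e'
  obtain ⟨h1, rfl⟩ := Prod.mk.injEq .. ▸ fix₁_injective hq hA hMN hqN e'
  have h2 := congrArg (fun x : ZMod q => (N : ZMod q) * x) h1
  simp only [negN_spec, neg_inj] at h2
  rw [h2]

variable [Fact q.Prime]

/-- The symmetry structure. -/
theorem lineSym (C : Finset (ZMod q)ˣ) :
    LineSym (fun t => bif t then (ModField.model EE).B₁ else (ModField.model EE).B₀) (compA hπ)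
      (symHom hq hA hMN hqN) (compAct (N := N)) (lineOf (N := N)) (lineAct q) (transA q) (fixLine q)
      (hLine C) (q * C.card) where
  stable t := by
    have hS := symmetry hq hA hMN hqN hπ
    have hle := range_le hq hA hMN hqN
    cases t
    · exact ⟨fun g hg => hS.map₀ g (hle hg), fun g hg => hS.const g (hle hg)⟩
    · exact ⟨fun g hg => hS.map₁ g (hle hg), fun g hg => hS.const g (hle hg)⟩
  perm s c z := perm_comp hq hA hMN hqN hπ s c z
  line_act s c := by
    obtain ⟨⟨k⟩, y⟩ := c
    rfl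
  surj L := by
    induction L using QuotientGroup.induction_on with
    | _ k => exact ⟨((k : SymA q ⧸ fixInf q), 1), rfl⟩
  gen L L' h := transA_le_closure h
  trans L L' := exists_trans L L'
  fix_comp c h hh := fix_comp c hh
  fix c h hh z hz := fix_sub hq hA hMN hqN hπ c hh hz
  sub L h hh := hLine_sub C L hh
  card L := hLine_card C L
  injOn L := injOn_hLine hq hA hMN hqN C L

/-- The special fibre with these components. -/
theorem chartFibre_of_comps (B : Subalgebra (oBase A M) (Fld EE))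
    (h : Models.ChartFibre B π (fun P : comps hπ => P.1))
    (hMN' : M = q * N) : Models.ChartFibre B π (compA (q := q) (N := N) hπ) where
  le c b hb := h.le ⟨_, cuspA c, rfl⟩ b hb
  noetherian := h.noetherian
  reduced b hb hall := h.reduced b hb fun P => by
    obtain ⟨δ, hδ⟩ := P.2
    have e := compA_eq hMN' hπ (c := ((SemidirectProduct.inl (red q δ) : SymA q), red N δ))
      (k := SemidirectProduct.inl (red q δ)) rfl (δ := δ) rfl rfl
    have := hall ((SemidirectProduct.inl (red q δ) : SymA q), red N δ)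
    rwa [e, ← hδ] at this
  maximal_above c m hm h1 h2 := h.maximal_above ⟨_, cuspA c, rfl⟩ m hm h1 h2
  residue := h.residue

end Fermat.Agent.R59.NoSq
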